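/-
GATE-B / B9, (P1) + (P7) of GRAPH v2 in ONE theorem (helper59): for several framed primes under
RULING R5, from the DVR arithmetic alone there is an ideal `J₂` of the flat ring
`R = RM O (s + 1) g` with

* `AlgHyp … G J₁ J₂ t`  — the `alg` field of helper55's `TWSystem` (helper51
  `AlgHypMulti.exists_algHyp_SRing` at the concrete type family `TyPkg.tyFam`), and
* `Kill2Handle … J₂`    — for EVERY Taylor–Wiles level: from the `T`-level data of the level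
  (`T = T_Q` finite reduced local, `M = M^χ_Q` torsion-free, `Θ : R → T⟦σ⟧` whose blocks are the
  framed traceless coordinates of `(ρ(φ_v), ρ(σ_v))`, tame relation at every `v`, unipotent inertia
  at `v ≠ q`, and `hnu` = B5 at `q`) the `TWInput.kill₂` field
  `∀ r ∈ J₂, ∀ n, a₂ (coeff n (Θ r)) = 0`.

`J₂` does not depend on the level; `Kill2Handle` is `Kill2R5.kill₂_R5` with the type family and the
kill-criterion plugged in.
-/
import Fermat.Agent.GB.B9.AlgHypMulti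
import Fermat.Agent.GB.Local.Multi.Kill2R5
import Fermat.Agent.GB.Local.Multi.TyPkg

set_option autoImplicit false
set_option linter.unusedSectionVars false
set_option linter.unusedVariables false

open IsLocalRing Module

namespace Fermat.Agent.GB.B9.AlgHypKill2

open Fermat.Agent.GB.Local.TamePoint Fermat.Agent.GB.Local.R4Point Fermat.Agent.GB.Local.TameC
open Fermat.Agent.GB.Local.Multi Fermat.Agent.GB.Local.Multi.R5 Fermat.Agent.GB.PatchSupp
open Fermat.Agent.GB.Alg Fermat.Agent.GB.B9.AlgHypMulti Matrix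
open Fermat.Agent.GB.Local.Multi.Kill2Field Fermat.Agent.GB.Local.Multi.Kill2Q
open Fermat.Agent.GB.Local.Multi.TyPkg

variable {O : Type} [CommRing O] [IsDomain O] [IsDiscreteValuationRing O]
  [IsAdicComplete (maximalIdeal O) O] [CharZero O]

/-- **the `kill₂` handle**: the `TWInput.kill₂` field at every Taylor–Wiles level, from `T`-level
data.  `ℓ v` = the framed primes (`ℓ (Fin.last s) = q`), `h = 1/2`. -/
def Kill2Handle (h : O) {s g : ℕ} (ℓ : Fin (s + 1) → ℕ) (J₂ : Ideal (RM O (s + 1) g)) : Prop :=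
  ∀ (T : Type) [CommRing T] [Algebra O T] [Module.Finite O T] [IsReduced T] [IsLocalRing T]
    (M : Type) [AddCommGroup M] [Module O M] [IsTorsionFree O M] [Nontrivial M]
    (a₂ : T →ₐ[O] Module.End O M) (σ : Type) [Finite σ]
    (Θ : RM O (s + 1) g →ₐ[O] MvPowerSeries σ T)
    (S F : Fin (s + 1) → Matrix (Fin 2) (Fin 2) T)
    (γ γi : Fin (s + 1) → Matrix (Fin 2) (Fin 2) (MvPowerSeries σ T)),
    (∀ v, (F v).det = (ℓ v : T)) → (∀ v, F v * S v = S v ^ ℓ v * F v) →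
    (∀ v k, tl (algebraMap O T h) (F v) k ∈ maximalIdeal T) →
    (∀ v k, tl (algebraMap O T h) (S v) k ∈ maximalIdeal T) →
    (∀ v, γ v * γi v = 1) →
    (∀ v k, Θ (aV O v k) =
      tl (MvPowerSeries.C (algebraMap O T h)) (γ v * (F v).map MvPowerSeries.C * γi v) k) →
    (∀ v k, Θ (nV O v k) =
      tl (MvPowerSeries.C (algebraMap O T h)) (γ v * (S v).map MvPowerSeries.C * γi v) k) →
    (∀ j, Θ (xV O j) ∈ maximalIdeal (MvPowerSeries σ T)) →
    (∀ v, v ≠ Fin.last s → (S v).trace = 2) →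
    (∀ v, v ≠ Fin.last s → (S v - 1) ^ 2 = 0) →
    (S (Fin.last s)).det = 1 →
    (S (Fin.last s)).trace - 2 ∈ maximalIdeal T →
    (∀ i : Fermat.Agent.GB.Glue.Points.Idx O (Tchi a₂),
      ((S (Fin.last s)).map (phi a₂ i) - 1) ^ 2 = 0 → (S (Fin.last s)).map (phi a₂ i) = 1) →
    ∀ r ∈ J₂, ∀ n, a₂ (MvPowerSeries.coeff n (Θ r)) = 0

/-- **(P1) + (P7)**: `AlgHyp` and the `kill₂` handle on the SAME `J₂`, from DVR arithmetic. -/
theorem exists_algHyp_kill₂ {lam : O} (hlam : Irreducible lam) {h : O} (hh : 2 * h = 1)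
    {p : ℕ} (hp : p.Prime) (hp2 : p ≠ 2) (hpO : (p : O) ∈ maximalIdeal O) {a n' : ℕ} {ζ : O}
    (hζ : IsPrimitiveRoot ζ (p ^ a)) {s : ℕ} (g : ℕ) (ℓ : Fin (s + 1) → ℕ)
    (hℓ2 : ∀ v, v ≠ Fin.last s → 2 ≤ ℓ v)
    (hℓm : ∀ v, v ≠ Fin.last s → (ℓ v : O) - 1 ∈ maximalIdeal O)
    (hfac : ℓ (Fin.last s) - 1 = p ^ a * n') (hn' : ¬ p ∣ n') (hpq : p ∣ ℓ (Fin.last s) - 1)
    (hq : 1 ≤ ℓ (Fin.last s)) :
    ∃ J₂ : Ideal (RM O (s + 1) g),
      AlgHyp (R := RM O (s + 1) g) (S := SRing O g (3 * (s + 1)))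
        (algebraMap O (RM O (s + 1) g) lam) (MvPowerSeries.C lam)
        (Filt.G1 O (Idx (s + 1) g)) (J1 s g ((ℓ (Fin.last s) : O) - 1)) J₂
        (tM O ((ℓ (Fin.last s) : O) - 1)) ∧
      Kill2Handle h ℓ J₂ := by
  have hd : (ℓ (Fin.last s) : O) - 1 ∈ Ideal.span {lam} :=
    Ideal.mem_span_singleton.2
      (Fermat.Agent.GB.Local.Consts.dvd_natCast_sub_one hpO hq hpq hlam)
  obtain ⟨J₂, halg, hcrit⟩ := exists_algHyp_SRing (g := g) hlam.maximalIdeal_eq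
    (IsDiscreteValuationRing.ringKrullDim_eq_one O) hh (tyFam h ζ (p ^ a) ℓ)
    (tyFam_nonempty h ζ (p ^ a) ℓ) (tyFam_adm hp hpO hζ.pow_eq_one h hlam ℓ hℓm)
    (tyFam_hlast hp hp2 hpO hζ hh hlam ℓ) hd
  refine ⟨J₂, halg, ?_⟩
  intro T _ _ _ _ _ M _ _ _ _ a₂ σ _ Θ S F γ γi hFdet hrel hFres hSres hγ hΘa hΘn hΘx htr hSu
    hSdet hres hnu
  exact Kill2R5.kill₂_R5 a₂ (tyFam h ζ (p ^ a) ℓ) J₂ hcrit Θ hp hp2 hpO hh S F ℓ hFdet hrel
    hFres hSres γ γi hγ hΘa hΘn hΘx hℓ2 hℓm htr hSu (tyFam_mem_v h ζ (p ^ a) ℓ) hSdet hfac hn' hpq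
    hq hres hζ hnu (tyFam_mem_q h ζ (p ^ a) ℓ)

end Fermat.Agent.GB.B9.AlgHypKill2
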