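/-
GATE-B / B9 ASSEMBLY, layer 2 (helper55, architect): THE SPEC of the pure-algebra half.

`ExtLevel L A u` : the base change of ONE Taylor–Wiles level `L : FreeLevel O 𝕋 M0 act0 k N`
(helper95, `GB/B3/TWLevel.lean`) along `𝒪[Δ_Q] → A`, `δ_i ↦ u i`, for a commutative `𝒪`-algebra
`A` and elements `u i` with `u i ^ N i = 1`  (`A = 𝒪⟦y,z⟧ ⧸ c_m`, `u i = 1 + y_i`):

* `E`        the `A`-module `A ⊗_{𝒪[Δ_Q]} M_Q`  (`= M_Q⟦z⟧ / c_m`),
* `ι`        the `𝒪`-linear map `M_Q → E`, with `ι (D i x) = u i • ι x`,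
* `basis`    `E` is `A`-free on the `ι (e j)`  (`Δ_Q`-freeness),
* `lift`     the UNIVERSAL PROPERTY: an `𝒪`-linear map `f : M_Q → F` into an `A`-module with
             `f (D i x) = u i • f x` factors through `ι` by an `A`-linear map.

Everything B9 needs (the action of the commutant, the isomorphism mod `λ`) is DERIVED from these
fields in `GB/B9/ExtApi.lean`; the producer (`GB/B9/GroupBaseChange.lean`) only has to construct
ONE `ExtLevel` for every `(L, A, u)` with `u i ^ N i = 1`.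
-/
import Fermat.Agent.GB.B3.TWLevel

set_option autoImplicit false

namespace Fermat.Agent.GB.B9

open Fermat.Agent.GB.B3.TWLevel

/-- **The base change of a Taylor–Wiles level** along `𝒪[Δ_Q] → A`, `δ_i ↦ u i`. -/
structure ExtLevel {O : Type} [CommRing O] {𝕋 : Type} [CommRing 𝕋] [Algebra O 𝕋]
    {M0 : Type} [AddCommGroup M0] [Module O M0] {act0 : 𝕋 →ₐ[O] Module.End O M0}
    {k : ℕ} {N : Fin k → ℕ} (L : FreeLevel O 𝕋 M0 act0 k N)
    (A : Type) [CommRing A] [Algebra O A] (u : Fin k → A) : Type 1 where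
  /-- `A ⊗_{𝒪[Δ_Q]} M_Q` -/
  E : Type
  [acg : AddCommGroup E]
  [modA : Module A E]
  [modO : Module O E]
  [tower : IsScalarTower O A E]
  /-- `x ↦ 1 ⊗ x` -/
  ι : L.M →ₗ[O] E
  ι_D : ∀ i x, ι (L.D i x) = u i • ι x
  /-- `Δ_Q`-freeness after base change -/
  basis : Module.Basis (Fin L.d) A E
  basis_eq : ∀ j, basis j = ι (L.e j)
  /-- the universal property -/
  lift : ∀ (F : Type) [AddCommGroup F] [Module A F] [Module O F] [IsScalarTower O A F]
    (f : L.M →ₗ[O] F), (∀ i x, f (L.D i x) = u i • f x) →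
      ∃ g : E →ₗ[A] F, ∀ x, g (ι x) = f x

attribute [instance] ExtLevel.acg ExtLevel.modA ExtLevel.modO ExtLevel.tower

end Fermat.Agent.GB.B9
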