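/-
GATE-B / B9 ASSEMBLY, layer 2 (helper55): everything B9 needs from an `ExtLevel`
(`GB/B9/ExtSpec.lean`), DERIVED from its universal property.

* `ExtLevel.span_ι`, `ExtLevel.hom_ext`   : `E` is spanned over `A` by the image of `ι`.
* `ExtLevel.extAct X a ha : T →+* End_A E` : a commutative `𝒪`-algebra `T` acting on `M_Q` through
  `a : T →ₐ[𝒪] End_𝒪 M_Q`, commuting with the diamonds, acts `A`-linearly on `E`, with
  `extAct t (ι x) = ι (a t x)` and `extAct (algebraMap c) = algebraMap c • 1`.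
* `exists_modIso`  : a diamond-equivariant isomorphism `U : M_Q/ϖ ≃ M'_Q/ϖ` induces an `A`-linear
  isomorphism `e : E/λ ≃ E'/λ` with `e [ι x] = [ι' y]` whenever `U [x] = [y]`.
* `modIso_compat` : operators which correspond under `U` on the images of `ι` correspond under `e`.
-/
import Fermat.Agent.GB.B9.ExtSpec

set_option autoImplicit false
set_option linter.unusedSectionVars false

namespace Fermat.Agent.GB.B9

open Fermat.Agent.GB.B3.TWLevel
open scoped Pointwise

variable {O : Type} [CommRing O] {𝕋 : Type} [CommRing 𝕋] [Algebra O 𝕋]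
  {M0 : Type} [AddCommGroup M0] [Module O M0] {act0 : 𝕋 →ₐ[O] Module.End O M0}
  {M0' : Type} [AddCommGroup M0'] [Module O M0'] {act0' : 𝕋 →ₐ[O] Module.End O M0'}
  {k : ℕ} {N : Fin k → ℕ} {L : FreeLevel O 𝕋 M0 act0 k N} {L' : FreeLevel O 𝕋 M0' act0' k N}
  {A : Type} [CommRing A] [Algebra O A] {u : Fin k → A}

namespace ExtLevel

variable (X : ExtLevel L A u)

theorem span_ι : Submodule.span A (Set.range X.ι) = ⊤ := by
  rw [eq_top_iff, ← X.basis.span_eq]
  apply Submodule.span_mono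
  rintro _ ⟨j, rfl⟩
  exact ⟨L.e j, (X.basis_eq j).symm⟩

/-- `A`-linear maps out of `E` are determined by their values on the image of `ι`. -/
theorem hom_ext {F : Type*} [AddCommGroup F] [Module A F] {g g' : X.E →ₗ[A] F}
    (h : ∀ x, g (X.ι x) = g' (X.ι x)) : g = g' :=
  LinearMap.ext_on X.span_ι (by rintro _ ⟨x, rfl⟩; exact h x)

theorem smul_ι (c : O) (x : L.M) : algebraMap O A c • X.ι x = X.ι (c • x) := by
  rw [algebraMap_smul, map_smul]

/-! ### the action of the commutant -/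

theorem exists_extEnd (τ : Module.End O L.M) (hτ : ∀ i, τ * L.D i = L.D i * τ) :
    ∃ g : Module.End A X.E, ∀ x, g (X.ι x) = X.ι (τ x) := by
  obtain ⟨g, hg⟩ := X.lift X.E (X.ι ∘ₗ τ) (fun i x => by
    have h1 : τ (L.D i x) = L.D i (τ x) := by
      rw [← Module.End.mul_apply, hτ, Module.End.mul_apply]
    show X.ι (τ (L.D i x)) = u i • X.ι (τ x)
    rw [h1, X.ι_D])
  exact ⟨g, hg⟩

/-- the extension of an endomorphism commuting with the diamonds -/
noncomputable def extEnd (τ : Module.End O L.M) (hτ : ∀ i, τ * L.D i = L.D i * τ) :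
    Module.End A X.E :=
  (X.exists_extEnd τ hτ).choose

theorem extEnd_ι (τ : Module.End O L.M) (hτ : ∀ i, τ * L.D i = L.D i * τ) (x : L.M) :
    X.extEnd τ hτ (X.ι x) = X.ι (τ x) :=
  (X.exists_extEnd τ hτ).choose_spec x

variable {T : Type} [CommRing T] [Algebra O T] (a : T →ₐ[O] Module.End O L.M)
  (ha : ∀ t i, a t * L.D i = L.D i * a t)

/-- **the action of `T` on `E`** -/
noncomputable def extAct : T →+* Module.End A X.E where
  toFun t := X.extEnd (a t) (ha t)
  map_one' := by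
    refine X.hom_ext fun x => ?_
    rw [extEnd_ι, map_one]
    rfl
  map_mul' s t := by
    refine X.hom_ext fun x => ?_
    rw [extEnd_ι, Module.End.mul_apply, extEnd_ι, extEnd_ι, map_mul]
    rfl
  map_zero' := by
    refine X.hom_ext fun x => ?_
    rw [extEnd_ι, map_zero]
    simp
  map_add' s t := by
    refine X.hom_ext fun x => ?_
    rw [extEnd_ι, LinearMap.add_apply, extEnd_ι, extEnd_ι, map_add, LinearMap.add_apply, map_add]

theorem extAct_ι (t : T) (x : L.M) : X.extAct a ha t (X.ι x) = X.ι (a t x) :=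
  X.extEnd_ι (a t) (ha t) x

theorem extAct_algebraMap (c : O) :
    X.extAct a ha (algebraMap O T c) = algebraMap O A c • (1 : Module.End A X.E) := by
  refine X.hom_ext fun x => ?_
  rw [extAct_ι, AlgHom.commutes, LinearMap.smul_apply, Module.End.one_apply, smul_ι]
  rfl

end ExtLevel

/-! ### the isomorphism modulo `λ` -/

section ModIso

variable (ϖ : O) (X : ExtLevel L A u) (X' : ExtLevel L' A u)

/-- `λ E` -/
abbrev ExtLevel.lamSub : Submodule A X.E :=
  (Ideal.span {algebraMap O A ϖ} • ⊤ : Submodule A X.E)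

theorem ExtLevel.smul_mem_lamSub (w : X.E) : algebraMap O A ϖ • w ∈ X.lamSub ϖ :=
  Submodule.smul_mem_smul (Ideal.mem_span_singleton_self _) Submodule.mem_top

theorem ExtLevel.lamSub_le_ker {F : Type*} [AddCommGroup F] [Module A F] (g : X.E →ₗ[A] F)
    (hF : ∀ w : F, algebraMap O A ϖ • w = 0) : X.lamSub ϖ ≤ LinearMap.ker g := by
  refine Submodule.smul_le.mpr fun r hr w _ => ?_
  obtain ⟨c, rfl⟩ := Ideal.mem_span_singleton'.mp hr
  rw [LinearMap.mem_ker, map_smul, mul_smul, hF, smul_zero]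

/-- the map `M'/ϖ → E'/λ` induced by `ι'` -/
noncomputable def ExtLevel.ιBar :
    (L'.M ⧸ (ϖ • ⊤ : Submodule O L'.M)) →ₗ[O] (X'.E ⧸ X'.lamSub ϖ) :=
  (ϖ • ⊤ : Submodule O L'.M).liftQ (((X'.lamSub ϖ).mkQ.restrictScalars O) ∘ₗ X'.ι) (by
    intro x hx
    obtain ⟨x', -, rfl⟩ := (Submodule.mem_smul_pointwise_iff_exists _ _ _).mp hx
    rw [LinearMap.mem_ker]
    show (X'.lamSub ϖ).mkQ (X'.ι (ϖ • x')) = 0
    rw [← X'.smul_ι, Submodule.mkQ_apply, Submodule.Quotient.mk_eq_zero]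
    exact X'.smul_mem_lamSub ϖ _)

theorem ExtLevel.ιBar_mk (y : L'.M) :
    X'.ιBar ϖ (Submodule.Quotient.mk y) = Submodule.Quotient.mk (X'.ι y) := rfl

/-- one direction -/
theorem exists_modMap
    (V : (L.M ⧸ (ϖ • ⊤ : Submodule O L.M)) →ₗ[O] (L'.M ⧸ (ϖ • ⊤ : Submodule O L'.M)))
    (hV : ∀ (i : Fin k) (x : L.M) (y : L'.M),
      V (Submodule.Quotient.mk x) = Submodule.Quotient.mk y →
        V (Submodule.Quotient.mk (L.D i x)) = Submodule.Quotient.mk (L'.D i y)) :
    ∃ g : (X.E ⧸ X.lamSub ϖ) →ₗ[A] (X'.E ⧸ X'.lamSub ϖ),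
      ∀ x y, V (Submodule.Quotient.mk x) = Submodule.Quotient.mk y →
        g (Submodule.Quotient.mk (X.ι x)) = Submodule.Quotient.mk (X'.ι y) := by
  let f : L.M →ₗ[O] (X'.E ⧸ X'.lamSub ϖ) :=
    (X'.ιBar ϖ) ∘ₗ V ∘ₗ (ϖ • ⊤ : Submodule O L.M).mkQ
  have hf : ∀ x y, V (Submodule.Quotient.mk x) = Submodule.Quotient.mk y →
      f x = Submodule.Quotient.mk (X'.ι y) := by
    intro x y h
    show X'.ιBar ϖ (V (Submodule.Quotient.mk x)) = _
    rw [h, ExtLevel.ιBar_mk]
  have hfD : ∀ i x, f (L.D i x) = u i • f x := by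
    intro i x
    obtain ⟨y, hy⟩ := Submodule.Quotient.mk_surjective _ (V (Submodule.Quotient.mk x))
    rw [hf _ _ (hV i x y hy.symm), hf _ _ hy.symm, X'.ι_D]
    rfl
  obtain ⟨g₀, hg₀⟩ := X.lift (X'.E ⧸ X'.lamSub ϖ) f hfD
  have hker : X.lamSub ϖ ≤ LinearMap.ker g₀ := by
    refine X.lamSub_le_ker ϖ g₀ fun w => ?_
    obtain ⟨w', rfl⟩ := Submodule.Quotient.mk_surjective _ w
    rw [← Submodule.Quotient.mk_smul, Submodule.Quotient.mk_eq_zero]
    exact X'.smul_mem_lamSub ϖ w'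
  refine ⟨(X.lamSub ϖ).liftQ g₀ hker, fun x y h => ?_⟩
  show g₀ (X.ι x) = _
  rw [hg₀, hf x y h]

/-- **the isomorphism modulo `λ`** -/
theorem exists_modIso
    (U : (L.M ⧸ (ϖ • ⊤ : Submodule O L.M)) ≃ₗ[O] (L'.M ⧸ (ϖ • ⊤ : Submodule O L'.M)))
    (hU : ∀ (i : Fin k) (x : L.M) (y : L'.M),
      U (Submodule.Quotient.mk x) = Submodule.Quotient.mk y →
        U (Submodule.Quotient.mk (L.D i x)) = Submodule.Quotient.mk (L'.D i y)) :
    ∃ e : (X.E ⧸ X.lamSub ϖ) ≃ₗ[A] (X'.E ⧸ X'.lamSub ϖ),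
      ∀ x y, U (Submodule.Quotient.mk x) = Submodule.Quotient.mk y →
        e (Submodule.Quotient.mk (X.ι x)) = Submodule.Quotient.mk (X'.ι y) := by
  obtain ⟨g, hg⟩ := exists_modMap ϖ X X' U.toLinearMap hU
  obtain ⟨g', hg'⟩ := exists_modMap ϖ X' X U.symm.toLinearMap (by
    intro i y x h
    have h1 : U (Submodule.Quotient.mk x) = Submodule.Quotient.mk y := by
      rw [← h]
      exact U.apply_symm_apply _
    have h2 := hU i x y h1
    show U.symm _ = _
    rw [← h2]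
    exact U.symm_apply_apply _)
  have h12 : g' ∘ₗ g = LinearMap.id := by
    have : (g' ∘ₗ g) ∘ₗ (X.lamSub ϖ).mkQ = LinearMap.id ∘ₗ (X.lamSub ϖ).mkQ := by
      refine X.hom_ext fun x => ?_
      obtain ⟨y, hy⟩ := Submodule.Quotient.mk_surjective _ (U (Submodule.Quotient.mk x))
      show g' (g (Submodule.Quotient.mk (X.ι x))) = Submodule.Quotient.mk (X.ι x)
      rw [hg x y hy.symm]
      refine hg' y x ?_
      show U.symm _ = _
      rw [hy]
      exact U.symm_apply_apply _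
    exact LinearMap.cancel_right (Submodule.mkQ_surjective _) |>.mp this
  have h21 : g ∘ₗ g' = LinearMap.id := by
    have : (g ∘ₗ g') ∘ₗ (X'.lamSub ϖ).mkQ = LinearMap.id ∘ₗ (X'.lamSub ϖ).mkQ := by
      refine X'.hom_ext fun y => ?_
      obtain ⟨x, hx⟩ := Submodule.Quotient.mk_surjective _ (U.symm (Submodule.Quotient.mk y))
      show g (g' (Submodule.Quotient.mk (X'.ι y))) = Submodule.Quotient.mk (X'.ι y)
      rw [hg' y x hx.symm]
      refine hg x y ?_
      rw [hx]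
      exact U.apply_symm_apply _
    exact LinearMap.cancel_right (Submodule.mkQ_surjective _) |>.mp this
  exact ⟨LinearEquiv.ofLinearMap g g' h21 h12, hg⟩

/-- **compatibility**: operators `ψ`, `ψ'` which correspond under `U` on the images of `ι`, `ι'`
correspond under `e`. -/
theorem modIso_compat
    (U : (L.M ⧸ (ϖ • ⊤ : Submodule O L.M)) →ₗ[O] (L'.M ⧸ (ϖ • ⊤ : Submodule O L'.M)))
    (e : (X.E ⧸ X.lamSub ϖ) →ₗ[A] (X'.E ⧸ X'.lamSub ϖ))
    (he : ∀ x y, U (Submodule.Quotient.mk x) = Submodule.Quotient.mk y →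
      e (Submodule.Quotient.mk (X.ι x)) = Submodule.Quotient.mk (X'.ι y))
    (ψ : Module.End A X.E) (ψ' : Module.End A X'.E)
    (hψ : ∀ x y, U (Submodule.Quotient.mk x) = Submodule.Quotient.mk y →
      ∃ x' y', ψ (X.ι x) = X.ι x' ∧ ψ' (X'.ι y) = X'.ι y' ∧
        U (Submodule.Quotient.mk x') = Submodule.Quotient.mk y')
    (w : X.E) (w' : X'.E)
    (hw : e (Submodule.Quotient.mk w) = Submodule.Quotient.mk w') :
    e (Submodule.Quotient.mk (ψ w)) = Submodule.Quotient.mk (ψ' w') := by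
  have hP : X.lamSub ϖ ≤ (X.lamSub ϖ).comap ψ := by
    refine Submodule.smul_le.mpr fun r hr v _ => ?_
    rw [Submodule.mem_comap, map_smul]
    exact Submodule.smul_mem_smul hr Submodule.mem_top
  have hP' : X'.lamSub ϖ ≤ (X'.lamSub ϖ).comap ψ' := by
    refine Submodule.smul_le.mpr fun r hr v _ => ?_
    rw [Submodule.mem_comap, map_smul]
    exact Submodule.smul_mem_smul hr Submodule.mem_top
  have key : (e ∘ₗ (X.lamSub ϖ).mapQ _ ψ hP) ∘ₗ (X.lamSub ϖ).mkQ =
      ((X'.lamSub ϖ).mapQ _ ψ' hP' ∘ₗ e) ∘ₗ (X.lamSub ϖ).mkQ := by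
    refine X.hom_ext fun x => ?_
    obtain ⟨y, hy⟩ := Submodule.Quotient.mk_surjective _ (U (Submodule.Quotient.mk x))
    obtain ⟨x', y', h1, h2, h3⟩ := hψ x y hy.symm
    show e (Submodule.Quotient.mk (ψ (X.ι x))) =
      (X'.lamSub ϖ).mapQ _ ψ' hP' (e (Submodule.Quotient.mk (X.ι x)))
    rw [h1, he x' y' h3, he x y hy.symm]
    show _ = Submodule.Quotient.mk (ψ' (X'.ι y))
    rw [h2]
  have key' := LinearMap.cancel_right (Submodule.mkQ_surjective _) |>.mp key
  have := LinearMap.congr_fun key' (Submodule.Quotient.mk w)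
  show e ((X.lamSub ϖ).mapQ _ ψ hP (Submodule.Quotient.mk w)) = _
  rw [LinearMap.comp_apply] at this
  rw [this, LinearMap.comp_apply, hw]
  rfl

end ModIso

end Fermat.Agent.GB.B9
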