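/-
GATE-B / B9 ASSEMBLY, layer 1 (helper55, architect): THE CONTRACT.

CASE B (Ihara avoidance, contradiction form) is run as follows (board 5224 N1 (1)–(6)):

* `AlgHyp`   — the commutative-algebra hypotheses (B0 + B1): `R` a PLAIN power series ring
               `𝒪⟦a₀,a₁,a₂,n₀,n₁,n₂,x₁..x_g⟧` with its filtration `G`, `S = 𝒪⟦y₁..y_r,z₁,z₂,z₃⟧`
               with its filtration `F`, killing ideals `J₁ ∋ t` and `J₂ = ker (R → R_loc⟦x⟧)`,
               `dim R/J₂ ≤ dim S < ∞`, and the `t`-test on the full-dimensional minimal primes.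
* `ModLevel` — ONE patching level in MODULE form over `A = S ⧸ F.c m`: two `A`-modules with
               bases indexed by `ι` (`#ι = d`), commuting actions `φ₁ φ₂` of `R`, an `R`-equivariant
               isomorphism modulo `λ`, killed by `J₁` resp. `J₂`, generated by `h` elements over
               `R`, with `λ_R` acting on the second as `λ_S`.
               = the hypothesis list of helper24's `ChiDatum.exists_datum_isValid` + `lam₂`.
* `isEmpty_of_modLevels` : `AlgHyp` + a `ModLevel` for every `m` ⟹ `ι` is empty (`d = 0`).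
               One call to helper9's `isEmpty_of_patch_fin_quot` (patching + FIN′).
* `Engine`, `caseB38_of_engine` : frozen-shape `CaseB38` from: "if the level cannot be lowered,
               there are patching levels of POSITIVE rank".

WHO PRODUCES WHAT (fields of `ModLevel` at `A = S ⧸ F.c m`, TW set `Q = Q_m`):
  `M₁ M₂ b₁ b₂`   B3  (TWLevelData: `M¹_Q`, `M^χ_Q` free over `𝒪[Δ_Q]`, extended by `⟦z⟧`, reduced
                       mod `F.c m`; needs `(1+y_i)^(N i) - 1 ∈ F.c m`, i.e. TW level `n(m) ≥ 2m`)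
  `φ₁ φ₂`         B2 + B4 (ONE Hecke algebra `T_Q` on `M¹_Q ⊕ M^χ_Q`, `ρ_Q` over `T_Q` by GLUE,
                       `R ↠ T_Q⟦z⟧` by the framed tangent bound + `P6 →` matrix entries)
  `e he`          B3-CHI (`TWLevelData.U`, `U_act`, `U_D`)
  `kill₁`         B7   (`t = (tr Φ)² − (1+q)²` kills `M¹_Q`: all eigensystems `q`-new)
  `kill₂`         B5 + B1 (R4) (every point of `M^χ_Q` lies on some chart `C_ξ`)
  `gen₁ gen₂`     (UNIT) part 1 + B2 surjectivity, `h = d`
  `lam₂`          `𝒪`-linearity of the action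
and `Nonempty ι` from `hres` (SETUP (ii): `d = rank M¹_∅ ≥ 1`).
-/
import Fermat.Agent.GB.PatchSupp.PatchFinQuot
import Fermat.Agent.GB.PatchSupp.PSCofinal
import Fermat.Agent.GB.B3.ChiDatum
import Fermat.Agent.GB.Top.S43Frey

set_option autoImplicit false
set_option linter.unusedSectionVars false
set_option linter.style.haveILetI false

open WeierstrassCurve WeierstrassCurve.Affine WeierstrassCurve.Affine.Point
open scoped WeierstrassCurve.Affine

namespace Fermat.Agent.GB.B9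

open Fermat.Agent.GB.PatchSupp IsLocalRing

/-! ### the algebra hypotheses (B0 + B1) -/

/-- **B0 + B1**: the hypotheses on the rings `R` (`= 𝒪⟦a,n,x⟧`, plain) and `S` (`= 𝒪⟦y,z⟧`). -/
structure AlgHyp {R S : Type} [CommRing R] [IsLocalRing R] [CommRing S] (lamR : R) (lamS : S)
    (G : Filt R) (J₁ J₂ : Ideal R) (t : R) : Prop where
  /-- `G` is finer than the `𝔪_R`-adic filtration (automatic continuity) -/
  hG : ∀ N, ∃ k, G.c k ≤ maximalIdeal R ^ N
  /-- `t` kills the `1`-side -/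
  ht : t ∈ J₁
  hdim : ringKrullDim (R ⧸ J₂) ≤ ringKrullDim S
  hfin : ringKrullDim S ≠ ⊤
  /-- the `t`-test: `t` is not nilpotent modulo `λ` on any full-dimensional component of `R/J₂` -/
  hP : ∀ P ∈ minimalPrimes (R ⧸ J₂), ringKrullDim ((R ⧸ J₂) ⧸ P) = ringKrullDim S →
    Ideal.Quotient.mk J₂ t ∉ (P ⊔ Ideal.span {Ideal.Quotient.mk J₂ lamR}).radical

/-! ### one patching level in module form -/

/-- **One patching level, module form**, over a coefficient ring `A` (`= S ⧸ F.c m`). -/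
structure ModLevel (R : Type) [CommRing R] (lamR : R) (J₁ J₂ : Ideal R)
    (A : Type) [CommRing A] (lamA : A) (ι : Type) [Fintype ι] [DecidableEq ι] (h : ℕ) :
    Type 1 where
  /-- `M¹_Q ⟦z⟧ / c_m` -/
  M₁ : Type
  /-- `M^χ_Q ⟦z⟧ / c_m` -/
  M₂ : Type
  [acg₁ : AddCommGroup M₁]
  [mod₁ : Module A M₁]
  [acg₂ : AddCommGroup M₂]
  [mod₂ : Module A M₂]
  /-- freeness over `A` (from `Δ_Q`-freeness) -/
  b₁ : Module.Basis ι A M₁
  b₂ : Module.Basis ι A M₂
  /-- the actions of `R` (through `R ↠ T_Q⟦z⟧`) -/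
  φ₁ : R →+* Module.End A M₁
  φ₂ : R →+* Module.End A M₂
  /-- the isomorphism modulo `λ` -/
  e : (M₁ ⧸ (Ideal.span {lamA} • ⊤ : Submodule A M₁)) ≃ₗ[A]
    (M₂ ⧸ (Ideal.span {lamA} • ⊤ : Submodule A M₂))
  he : ∀ r x y, e (Submodule.Quotient.mk x) = Submodule.Quotient.mk y →
    e (Submodule.Quotient.mk (φ₁ r x)) = Submodule.Quotient.mk (φ₂ r y)
  kill₁ : ∀ r ∈ J₁, φ₁ r = 0
  kill₂ : ∀ r ∈ J₂, φ₂ r = 0
  g₁ : Fin h → M₁
  gen₁ : ∀ x : M₁, ∃ r : Fin h → R, x = ∑ i, φ₁ (r i) (g₁ i)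
  g₂ : Fin h → M₂
  gen₂ : ∀ x : M₂, ∃ r : Fin h → R, x = ∑ i, φ₂ (r i) (g₂ i)
  /-- `λ_R` acts on the `χ`-side as `λ_A` -/
  lam₂ : ∀ x : M₂, φ₂ lamR x = lamA • x

attribute [instance] ModLevel.acg₁ ModLevel.mod₁ ModLevel.acg₂ ModLevel.mod₂

variable {R : Type} [CommRing R] {lamR : R} {J₁ J₂ : Ideal R}
  {A : Type} [CommRing A] {lamA : A} {ι : Type} [Fintype ι] [DecidableEq ι] {h : ℕ}

/-- Module form ⟹ matrix form (helper24's adapter). -/
theorem ModLevel.exists_datum (L : ModLevel R lamR J₁ J₂ A lamA ι h)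
    {A' : Type} [CommRing A'] (ψ : A →+* A') (hψ : ψ lamA = 0) :
    ∃ D : Datum R A A' ι h, D.IsValid ψ J₁ J₂ ∧
      D.ρ₂ lamR = Matrix.diagonal fun _ => lamA := by
  have hI : ∀ a ∈ Ideal.span {lamA}, ψ a = 0 := by
    intro a ha
    obtain ⟨c, rfl⟩ := Ideal.mem_span_singleton'.mp ha
    rw [map_mul, hψ, mul_zero]
  obtain ⟨D, hD, -, h2, -, -⟩ := Fermat.Agent.GB.B3.ChiDatum.exists_datum_isValid ψ
    (Ideal.span {lamA}) hI J₁ J₂ L.b₁ L.b₂ L.φ₁ L.φ₂ L.e L.he L.kill₁ L.kill₂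
    L.g₁ L.gen₁ L.g₂ L.gen₂
  refine ⟨D, hD, ?_⟩
  rw [h2]
  have h3 : L.φ₂ lamR = lamA • (LinearMap.id : L.M₂ →ₗ[A] L.M₂) := by
    ext x
    simpa using L.lam₂ x
  rw [h3, map_smul, LinearMap.toMatrix_id, Matrix.smul_one_eq_diagonal]

/-! ### patching + FIN′ -/

section Patch

variable {R S : Type} [CommRing R] [IsLocalRing R] [CommRing S] [Nontrivial S]
  {lamR : R} {lamS : S} (F : Filt S) [∀ n, Finite (S ⧸ F.c n)] (G : Filt R)
  [∀ k, Finite (R ⧸ G.c k)] {J₁ J₂ : Ideal R} {t : R}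
  {ι : Type} [Fintype ι] [DecidableEq ι] {h : ℕ}

/-- **The rank is zero.**  `AlgHyp` + a module-form patching level over every `S ⧸ F.c m`
⟹ `ι` is empty. -/
theorem isEmpty_of_modLevels (hA : AlgHyp (S := S) lamR lamS G J₁ J₂ t)
    (L : ∀ m, ModLevel R lamR J₁ J₂ (S ⧸ F.c m) (Ideal.Quotient.mk (F.c m) lamS) ι h) :
    IsEmpty ι := by
  classical
  have hψ : ∀ m, F.phiLam lamS m (Ideal.Quotient.mk (F.c m) lamS) = 0 := by
    intro m
    show phiLvl F (F.quotLam lamS) (Ideal.Quotient.mk (Ideal.span {lamS}))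
      (F.le_comap_quot (Ideal.span {lamS}) (fg_span_singleton lamS)) m
      (Ideal.Quotient.mk (F.c m) lamS) = 0
    rw [phiLvl, Ideal.quotientMap_mk]
    have : Ideal.Quotient.mk (Ideal.span {lamS}) lamS = 0 :=
      Ideal.Quotient.eq_zero_iff_mem.mpr (Ideal.mem_span_singleton_self lamS)
    rw [this, _root_.map_zero]
  choose D hD hlam using fun m => (L m).exists_datum (F.phiLam lamS m) (hψ m)
  exact isEmpty_of_patch_fin_quot lamR lamS F G J₁ J₂ hA.ht D hD hlam
    (hcont_of_cofinal F (F.quotLam lamS) G hA.hG D) hA.hdim hA.hfin hA.hP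

end Patch

/-! ### the engine and CASE B -/

/-- **The engine**: everything the arithmetic nodes deliver in a situation where the level
cannot be lowered — rings, algebra hypotheses, and module-form patching levels of POSITIVE
rank at every depth `m`. -/
structure Engine : Type 1 where
  R : Type
  S : Type
  [instR : CommRing R]
  [locR : IsLocalRing R]
  [instS : CommRing S]
  [ntS : Nontrivial S]
  lamR : R
  lamS : S
  F : Filt S
  finF : ∀ n, Finite (S ⧸ F.c n)
  G : Filt R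
  finG : ∀ k, Finite (R ⧸ G.c k)
  J₁ : Ideal R
  J₂ : Ideal R
  t : R
  alg : AlgHyp (S := S) lamR lamS G J₁ J₂ t
  /-- the rank `d ≥ 1` -/
  d : ℕ
  d_pos : 0 < d
  h : ℕ
  level : ∀ m, ModLevel R lamR J₁ J₂ (S ⧸ F.c m) (Ideal.Quotient.mk (F.c m) lamS) (Fin d) h

/-- An engine is contradictory. -/
theorem Engine.false (E : Engine) : False := by
  letI := E.instR
  letI := E.locR
  letI := E.instS
  letI := E.ntS
  haveI := E.finF
  haveI := E.finG
  have hE : IsEmpty (Fin E.d) := isEmpty_of_modLevels E.F E.G E.alg E.level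
  exact hE.false ⟨0, E.d_pos⟩

open Fermat.Agent.GB.Top.S43Frey in
/-- **CASE B from the engine**: if in every CASE B situation where the level cannot be lowered
the arithmetic nodes produce an engine, then `CaseB38` holds. -/
theorem caseB38_of_engine
    (hE : ∀ (p : ℕ) [Fact p.Prime] (_ : 5 ≤ p) (W : WeierstrassCurve ℤ) (_ : W.Δ ≠ 0)
      (_ : W.IsSemistableModel)
      (hcard₁ : Nat.card (Submodule.torsionBy ℤ
        ((W.map (Int.castRingHom ℚ))⁄(AlgebraicClosure ℚ)).Point p) = p ^ 2)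
      (hker : GaloisFactorsThroughFiniteLevel
        (WeierstrassCurve.Affine.Point.galoisRepModuleEnd (K := AlgebraicClosure ℚ) ℚ
          (W.map (Int.castRingHom ℚ)) p))
      (_ : W.ModRepIsIrreducible p) (M q : ℕ) (_ : q.Prime) (_ : q ≠ 2) (_ : q ≠ p)
      (_ : q ∣ M) (_ : Squarefree M)
      (_ : ((W.map (Int.castRingHom ℚ)).residualGaloisRepOf p hcard₁ hker).IsUnramifiedAt q)
      (_ : W.IsResiduallyModularOfLevel p M)
      (_ : q % p = 1) (_ : ScalarFrob38 W p q)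
      (_ : ¬ W.IsResiduallyModularOfLevel p (M / q)), Nonempty Engine) :
    CaseB38 := by
  intro p _ hp5 W hΔ hW hcard₁ hker hirr M q hq hq2 hqp hqM hM hunr hres h1 hsc
  by_contra hnot
  obtain ⟨E⟩ := hE p hp5 W hΔ hW hcard₁ hker hirr M q hq hq2 hqp hqM hM hunr hres h1 hsc hnot
  exact E.false

end Fermat.Agent.GB.B9
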