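/-
GATE-B / B9 ASSEMBLY, layer 2 (helper55): TRUNCATED EVALUATION of power series.

`evalTrunc β ζ n hζ : MvPowerSeries σ T →+* B` for a ring hom `β : T →+* B` into a COMMUTATIVE
ring and elements `ζ s` all of whose monomials of degree `≥ n` vanish: `C t ↦ β t`, `X s ↦ ζ s`,
`f ↦ ∑_{deg x < n} β (coeff x f) * ζ^x`.  (Mathlib `truncTotalAlgHom` + `eval₂Hom`.)

`evalEnd` : the same with values in `Module.End A E`, for `β : T →+* Module.End A E`
(`T` commutative) and `ζ s = z s • 1` scalars: through the commutative `A`-subalgebra generated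
by the image of `β`.
-/
import Mathlib

set_option autoImplicit false
set_option linter.unusedSectionVars false

namespace Fermat.Agent.GB.B9.Trunc

open MvPowerSeries

section Comm

variable {σ T B : Type*} [Finite σ] [CommRing T] [CommRing B]

/-- the value of the monomial `x` at `ζ` -/
def monoVal (ζ : σ → B) (x : σ →₀ ℕ) : B := x.prod fun s e => ζ s ^ e

theorem monoVal_zero (ζ : σ → B) : monoVal ζ 0 = 1 := by
  simp [monoVal]

theorem monoVal_single (ζ : σ → B) (s : σ) : monoVal ζ (Finsupp.single s 1) = ζ s := by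
  simp [monoVal]

theorem eval₂Hom_eq_zero_of_mem (β : T →+* B) (ζ : σ → B) (n : ℕ)
    (hζ : ∀ x : σ →₀ ℕ, n ≤ x.degree → monoVal ζ x = 0)
    (p : MvPolynomial σ T) (hp : p ∈ MvPolynomial.idealOfVars σ T ^ n) :
    MvPolynomial.eval₂Hom β ζ p = 0 := by
  rw [MvPolynomial.mem_pow_idealOfVars_iff'] at hp
  rw [MvPolynomial.coe_eval₂Hom, MvPolynomial.eval₂_eq]
  refine Finset.sum_eq_zero fun x hx => ?_
  by_cases h : x.degree < n
  · rw [hp x h, map_zero, zero_mul]
  · have h1 := hζ x (not_lt.mp h)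
    rw [monoVal, Finsupp.prod] at h1
    rw [h1, mul_zero]

/-- **truncated evaluation** `MvPowerSeries σ T →+* B` -/
noncomputable def evalTrunc (β : T →+* B) (ζ : σ → B) (n : ℕ)
    (hζ : ∀ x : σ →₀ ℕ, n ≤ x.degree → monoVal ζ x = 0) : MvPowerSeries σ T →+* B :=
  (Ideal.Quotient.lift (MvPolynomial.idealOfVars σ T ^ n) (MvPolynomial.eval₂Hom β ζ)
    (eval₂Hom_eq_zero_of_mem β ζ n hζ)).comp (truncTotalAlgHom σ T n).toRingHom

variable (β : T →+* B) (ζ : σ → B) (n : ℕ)
  (hζ : ∀ x : σ →₀ ℕ, n ≤ x.degree → monoVal ζ x = 0)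

theorem evalTrunc_apply (f : MvPowerSeries σ T) :
    evalTrunc β ζ n hζ f = MvPolynomial.eval₂ β ζ (truncTotal n f) := by
  show Ideal.Quotient.lift (MvPolynomial.idealOfVars σ T ^ n) (MvPolynomial.eval₂Hom β ζ)
    (eval₂Hom_eq_zero_of_mem β ζ n hζ) (Ideal.Quotient.mk _ (truncTotal n f)) = _
  rw [Ideal.Quotient.lift_mk, MvPolynomial.coe_eval₂Hom]

theorem evalTrunc_coe (p : MvPolynomial σ T) :
    evalTrunc β ζ n hζ (p : MvPowerSeries σ T) = MvPolynomial.eval₂ β ζ p := by
  show Ideal.Quotient.lift (MvPolynomial.idealOfVars σ T ^ n) (MvPolynomial.eval₂Hom β ζ)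
    (eval₂Hom_eq_zero_of_mem β ζ n hζ)
    (truncTotalAlgHom σ T n (algebraMap (MvPolynomial σ T) (MvPowerSeries σ T) p)) = _
  rw [AlgHom.commutes, Ideal.Quotient.algebraMap_eq, Ideal.Quotient.lift_mk,
    MvPolynomial.coe_eval₂Hom]

theorem evalTrunc_C (t : T) : evalTrunc β ζ n hζ (C t) = β t := by
  rw [← MvPolynomial.coe_C, evalTrunc_coe, MvPolynomial.eval₂_C]

theorem evalTrunc_X (s : σ) : evalTrunc β ζ n hζ (X s) = ζ s := by
  rw [← MvPolynomial.coe_X, evalTrunc_coe, MvPolynomial.eval₂_X]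

/-- the explicit formula -/
theorem evalTrunc_eq_sum (f : MvPowerSeries σ T) :
    evalTrunc β ζ n hζ f =
      ∑ x ∈ (Finsupp.finite_of_degree_lt (σ := σ) n).toFinset, β (coeff x f) * monoVal ζ x := by
  rw [evalTrunc_apply, MvPolynomial.eval₂_eq]
  rw [Finset.sum_subset (s₂ := (Finsupp.finite_of_degree_lt (σ := σ) n).toFinset)]
  · refine Finset.sum_congr rfl fun x hx => ?_
    have hx' : x.degree < n := by simpa using hx
    rw [coeff_truncTotal _ hx']
    rfl
  · intro x hx
    by_contra hcon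
    have hx' : ¬ x.degree < n := by simpa using hcon
    rw [MvPolynomial.mem_support_iff, coeff_truncTotal_eq_zero _ (not_lt.mp hx')] at hx
    exact hx rfl
  · intro x _ hx
    rw [MvPolynomial.notMem_support_iff.mp hx, map_zero, zero_mul]

end Comm

section EndValued

variable {σ T A E : Type*} [Finite σ] [CommRing T] [CommRing A] [AddCommGroup E] [Module A E]

/-- the `A`-subalgebra of `End_A E` generated by the image of `β` -/
def imAlg (β : T →+* Module.End A E) : Subalgebra A (Module.End A E) :=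
  Algebra.adjoin A (Set.range β)

theorem imAlg_comm (β : T →+* Module.End A E) :
    ∀ a ∈ Set.range β, ∀ b ∈ Set.range β, a * b = b * a := by
  rintro _ ⟨a, rfl⟩ _ ⟨b, rfl⟩
  rw [← map_mul, mul_comm, map_mul]

/-- it is commutative -/
instance imAlg_isMulCommutative (β : T →+* Module.End A E) : IsMulCommutative (imAlg β) :=
  Algebra.isMulCommutative_adjoin A (imAlg_comm β)

open scoped IsMulCommutative

/-- `β` with values in `imAlg β` -/
def toImAlg (β : T →+* Module.End A E) : T →+* imAlg β :=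
  β.codRestrict (imAlg β) fun t => Algebra.subset_adjoin ⟨t, rfl⟩

variable (β : T →+* Module.End A E) (z : σ → A) (n : ℕ)
  (hz : ∀ x : σ →₀ ℕ, n ≤ x.degree → monoVal z x = 0)

theorem monoVal_algebraMap (x : σ →₀ ℕ) :
    monoVal (fun s => algebraMap A (imAlg β) (z s)) x = algebraMap A (imAlg β) (monoVal z x) := by
  unfold monoVal
  rw [Finsupp.prod, Finsupp.prod, map_prod]
  simp only [map_pow]

/-- **truncated evaluation with values in `End_A E`**: `C t ↦ β t`, `X s ↦ z s • 1` -/
noncomputable def evalEnd : MvPowerSeries σ T →+* Module.End A E :=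
  (imAlg β).val.toRingHom.comp
    (evalTrunc (toImAlg β) (fun s => algebraMap A (imAlg β) (z s)) n (fun x hx => by
      rw [monoVal_algebraMap, hz x hx, map_zero]))

theorem evalEnd_C (t : T) : evalEnd β z n hz (C t) = β t := by
  unfold evalEnd
  rw [RingHom.comp_apply, evalTrunc_C]
  rfl

theorem evalEnd_X (s : σ) : evalEnd β z n hz (X s) = z s • (1 : Module.End A E) := by
  unfold evalEnd
  rw [RingHom.comp_apply, evalTrunc_X]
  show ((algebraMap A (imAlg β) (z s) : imAlg β) : Module.End A E) = _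
  rw [Algebra.algebraMap_eq_smul_one]
  rfl

theorem evalEnd_eq_sum (f : MvPowerSeries σ T) :
    evalEnd β z n hz f =
      ∑ x ∈ (Finsupp.finite_of_degree_lt (σ := σ) n).toFinset,
        monoVal z x • β (coeff x f) := by
  unfold evalEnd
  rw [RingHom.comp_apply, evalTrunc_eq_sum, map_sum]
  refine Finset.sum_congr rfl fun x _ => ?_
  rw [map_mul, monoVal_algebraMap]
  show ((toImAlg β (coeff x f) : imAlg β) : Module.End A E) *
    ((algebraMap A (imAlg β) (monoVal z x) : imAlg β) : Module.End A E) = _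
  rw [Algebra.algebraMap_eq_smul_one]
  show β (coeff x f) * (monoVal z x • (1 : Module.End A E)) = _
  rw [mul_smul_comm, mul_one]

end EndValued

end Fermat.Agent.GB.B9.Trunc
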