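/-
GATE-B / B9 ASSEMBLY, layer 2 (helper55): **from ONE Taylor–Wiles level to ONE patching level**.

* `TWInput O ϖ R J₁ J₂ k nz N d` : everything the arithmetic nodes deliver at ONE Taylor–Wiles set
  `Q` (`#Q = k`, diamonds of orders `N i`):
  - `tw`        B3   : helper95's `TWLevelData` (`M¹_Q`, `M^χ_Q`, `U`), both of rank `d`,
  - `T a₁ a₂`   B4   : ONE commutative `𝒪`-algebra `T = T_Q` acting on both modules, commuting with
                       the diamonds, compatible with `U` (`a_U`),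
  - `Θ`         B2+B4: `R → T_Q⟦z₁,…,z_nz⟧` (`R` the PLAIN power series ring of layer 1; `nz = 3 · #Σ_u`
                       framing variables, ruling R4 board 5608),
  - `x rx rz`   B2   : the Galois diamonds `x i ∈ T_Q` and lifts `rx i`, `rz j ∈ 𝔪_R` of
                       `x i - 1` and of the framing variables `z j`,
  - `unit₁ unit₂` (UNIT) part 1 : `(D_i - 1) M ⊆ (x_i - 1) M`,
  - `kill₁ kill₂` B7 / B5+B1 : COEFFICIENTWISE killing of `Θ J₁` on `M¹_Q`, of `Θ J₂` on `M^χ_Q`.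
* `nonempty_modLevel` : a `TWInput` + base changes `X₁ X₂ : ExtLevel` of the two levels to a FINITE
  `𝒪`-algebra `A` (`= 𝒪⟦y,z⟧ ⧸ c_m`, `u i = 1 + y i`, all monomials of degree `≥ n` in the `z j`
  zero, `A = 𝒪 + (y,z)A`)  ⟹  a `ModLevel` over `A` of rank `d` with `h = d`.
-/
import Fermat.Agent.GB.B9.Skeleton
import Fermat.Agent.GB.B9.ExtApi
import Fermat.Agent.GB.B9.Trunc

set_option autoImplicit false
set_option linter.unusedSectionVars false
set_option linter.style.haveILetI false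

namespace Fermat.Agent.GB.B9

open Fermat.Agent.GB.B3.TWLevel IsLocalRing MvPowerSeries
open scoped Pointwise

/-- **Everything the arithmetic nodes deliver at one Taylor–Wiles set.** -/
structure TWInput (O : Type) [CommRing O] (ϖ : O) (R : Type) [CommRing R] [IsLocalRing R]
    [Algebra O R] (J₁ J₂ : Ideal R) (k nz : ℕ) (N : Fin k → ℕ) (d : ℕ) : Type 1 where
  /-- Hecke symbols -/
  𝕋 : Type
  [cr𝕋 : CommRing 𝕋]
  [alg𝕋 : Algebra O 𝕋]
  M0 : Type
  [acg0 : AddCommGroup M0]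
  [mod0 : Module O M0]
  act0 : 𝕋 →ₐ[O] Module.End O M0
  M0χ : Type
  [acg0χ : AddCommGroup M0χ]
  [mod0χ : Module O M0χ]
  act0χ : 𝕋 →ₐ[O] Module.End O M0χ
  /-- B3 -/
  tw : TWLevelData O ϖ 𝕋 M0 act0 M0χ act0χ k N
  hd₁ : tw.L1.d = d
  hd₂ : tw.Lχ.d = d
  /-- B4: the Hecke algebra `T_Q` of `M¹_Q ⊕ M^χ_Q` -/
  T : Type
  [crT : CommRing T]
  [algT : Algebra O T]
  a₁ : T →ₐ[O] Module.End O tw.L1.M
  a₂ : T →ₐ[O] Module.End O tw.Lχ.M
  a₁_D : ∀ t i, a₁ t * tw.L1.D i = tw.L1.D i * a₁ t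
  a₂_D : ∀ t i, a₂ t * tw.Lχ.D i = tw.Lχ.D i * a₂ t
  a_U : ∀ (t : T) (x : tw.L1.M) (y : tw.Lχ.M),
    tw.U (Submodule.Quotient.mk x) = Submodule.Quotient.mk y →
      tw.U (Submodule.Quotient.mk (a₁ t x)) = Submodule.Quotient.mk (a₂ t y)
  /-- B2 + B4: `R → T_Q⟦z⟧` -/
  Θ : R →ₐ[O] MvPowerSeries (Fin nz) T
  /-- the Galois diamonds -/
  x : Fin k → T
  rx : Fin k → R
  rx_mem : ∀ i, rx i ∈ maximalIdeal R
  Θ_rx : ∀ i, Θ (rx i) = C (x i - 1)
  rz : Fin nz → R
  rz_mem : ∀ j, rz j ∈ maximalIdeal R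
  Θ_rz : ∀ j, Θ (rz j) = X j
  /-- (UNIT) part 1 -/
  unit₁ : ∀ i m, ∃ m', tw.L1.D i m - m = a₁ (x i) m' - m'
  unit₂ : ∀ i m, ∃ m', tw.Lχ.D i m - m = a₂ (x i) m' - m'
  /-- B7 -/
  kill₁ : ∀ r ∈ J₁, ∀ n, a₁ (coeff n (Θ r)) = 0
  /-- B5 + B1 -/
  kill₂ : ∀ r ∈ J₂, ∀ n, a₂ (coeff n (Θ r)) = 0

attribute [instance] TWInput.cr𝕋 TWInput.alg𝕋 TWInput.acg0 TWInput.mod0 TWInput.acg0χ
  TWInput.mod0χ TWInput.crT TWInput.algT

/-! ### the action of `R` on an `ExtLevel` -/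

section Action

variable {O : Type} [CommRing O] {𝕋 : Type} [CommRing 𝕋] [Algebra O 𝕋]
  {M0 : Type} [AddCommGroup M0] [Module O M0] {act0 : 𝕋 →ₐ[O] Module.End O M0}
  {k : ℕ} {N : Fin k → ℕ} {L : FreeLevel O 𝕋 M0 act0 k N}
  {A : Type} [CommRing A] [Algebra O A] {u : Fin k → A} (X : ExtLevel L A u)
  {T : Type} [CommRing T] [Algebra O T] (a : T →ₐ[O] Module.End O L.M)
  (ha : ∀ t i, a t * L.D i = L.D i * a t)
  {R : Type} [CommRing R] [Algebra O R] {nz : ℕ} (Θ : R →ₐ[O] MvPowerSeries (Fin nz) T)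
  (z : Fin nz → A) (n : ℕ) (hz : ∀ x : Fin nz →₀ ℕ, n ≤ x.degree → Trunc.monoVal z x = 0)

/-- **the action of `R`** on `E`, through `Θ : R → T⟦z⟧`, `T → End_A E` and `z j ↦ z j • 1` -/
noncomputable def ExtLevel.phi : R →+* Module.End A X.E :=
  (Trunc.evalEnd (X.extAct a ha) z n hz).comp Θ.toRingHom

theorem ExtLevel.phi_eq_sum (r : R) :
    X.phi a ha Θ z n hz r =
      ∑ x ∈ (Finsupp.finite_of_degree_lt (σ := Fin nz) n).toFinset,
        Trunc.monoVal z x • X.extAct a ha (coeff x (Θ r)) :=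
  Trunc.evalEnd_eq_sum (X.extAct a ha) z n hz (Θ r)

theorem ExtLevel.phi_of_C (r : R) (t : T) (h : Θ r = C t) :
    X.phi a ha Θ z n hz r = X.extAct a ha t := by
  show Trunc.evalEnd (X.extAct a ha) z n hz (Θ r) = _
  rw [h, Trunc.evalEnd_C]

theorem ExtLevel.phi_of_X (r : R) (j : Fin nz) (h : Θ r = MvPowerSeries.X j) :
    X.phi a ha Θ z n hz r = z j • (1 : Module.End A X.E) := by
  show Trunc.evalEnd (X.extAct a ha) z n hz (Θ r) = _
  rw [h, Trunc.evalEnd_X]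

theorem ExtLevel.phi_algebraMap (c : O) :
    X.phi a ha Θ z n hz (algebraMap O R c) = algebraMap O A c • (1 : Module.End A X.E) := by
  rw [X.phi_of_C a ha Θ z n hz _ (algebraMap O T c), X.extAct_algebraMap]
  rw [AlgHom.commutes, MvPowerSeries.algebraMap_apply]

theorem ExtLevel.extAct_eq_zero (t : T) (h : a t = 0) : X.extAct a ha t = 0 := by
  refine X.hom_ext fun x => ?_
  rw [X.extAct_ι, h]
  simp

theorem ExtLevel.phi_eq_zero (r : R) (h : ∀ x, a (coeff x (Θ r)) = 0) :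
    X.phi a ha Θ z n hz r = 0 := by
  rw [X.phi_eq_sum]
  refine Finset.sum_eq_zero fun x _ => ?_
  rw [X.extAct_eq_zero a ha _ (h x), smul_zero]

/-- (UNIT) part 1 after base change: `y_i E ⊆ φ(r_i) E`. -/
theorem ExtLevel.exists_phi_eq_smul (y : Fin k → A) (hu : ∀ i, u i = 1 + y i)
    (i : Fin k) (xi : T) (ri : R) (hri : Θ ri = C (xi - 1))
    (hunit : ∀ m, ∃ m', L.D i m - m = a xi m' - m') (w : X.E) :
    ∃ w', y i • w = X.phi a ha Θ z n hz ri w' := by
  have hφ : X.phi a ha Θ z n hz ri = X.extAct a ha xi - 1 := by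
    rw [X.phi_of_C a ha Θ z n hz ri _ hri, map_sub, map_one]
  have hw : w ∈ Submodule.span A (Set.range X.ι) := by
    rw [X.span_ι]
    exact Submodule.mem_top
  induction hw using Submodule.span_induction with
  | mem w hw =>
    obtain ⟨m, rfl⟩ := hw
    obtain ⟨m', hm'⟩ := hunit m
    refine ⟨X.ι m', ?_⟩
    have h1 : y i • X.ι m = X.ι (L.D i m - m) := by
      rw [map_sub, X.ι_D, hu, add_smul, one_smul, add_sub_cancel_left]
    rw [h1, hm', hφ, LinearMap.sub_apply, X.extAct_ι, Module.End.one_apply, map_sub]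
  | zero => exact ⟨0, by simp⟩
  | add w₁ w₂ _ _ h₁ h₂ =>
    obtain ⟨w₁', h₁⟩ := h₁
    obtain ⟨w₂', h₂⟩ := h₂
    exact ⟨w₁' + w₂', by rw [smul_add, h₁, h₂, map_add]⟩
  | smul c w _ h =>
    obtain ⟨w', h⟩ := h
    exact ⟨c • w', by rw [smul_comm, h, map_smul]⟩

/-- **generation by the basis over `R`** (Nakayama). -/
theorem ExtLevel.gen [IsLocalRing R] [Finite A] (y : Fin k → A) (hu : ∀ i, u i = 1 + y i)
    (hA : ∀ c : A, ∃ c₀ : O, c - algebraMap O A c₀ ∈ Ideal.span (Set.range y ∪ Set.range z))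
    (x : Fin k → T) (rx : Fin k → R) (rx_mem : ∀ i, rx i ∈ maximalIdeal R)
    (Θ_rx : ∀ i, Θ (rx i) = C (x i - 1))
    (rz : Fin nz → R) (rz_mem : ∀ j, rz j ∈ maximalIdeal R) (Θ_rz : ∀ j, Θ (rz j) = MvPowerSeries.X j)
    (hunit : ∀ i m, ∃ m', L.D i m - m = a (x i) m' - m')
    {ι' : Type} [Fintype ι'] (b : Module.Basis ι' A X.E) (w : X.E) :
    ∃ r : ι' → R, w = ∑ i, X.phi a ha Θ z n hz (r i) (b i) := by
  classical
  set φ := X.phi a ha Θ z n hz with hφ
  letI : Module R X.E := Module.compHom X.E φ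
  have hsmul : ∀ (r : R) (v : X.E), r • v = φ r v := fun _ _ => rfl
  haveI : Finite X.E := Finite.of_equiv _ b.equivFun.symm.toEquiv
  haveI : Module.Finite R X.E := Module.Finite.of_finite
  -- scalars from the ideal `(y, z)` land in `𝔪_R E`
  have hI : ∀ s ∈ Ideal.span (Set.range y ∪ Set.range z), ∀ v : X.E,
      s • v ∈ (maximalIdeal R • ⊤ : Submodule R X.E) := by
    intro s hs
    induction hs using Submodule.span_induction with
    | mem s hs =>
      intro v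
      rcases hs with ⟨i, rfl⟩ | ⟨j, rfl⟩
      · obtain ⟨v', hv'⟩ := X.exists_phi_eq_smul a ha Θ z n hz y hu i (x i) (rx i) (Θ_rx i)
          (hunit i) v
        rw [hv', ← hφ, ← hsmul]
        exact Submodule.smul_mem_smul (rx_mem i) Submodule.mem_top
      · have h1 : z j • v = rz j • v := by
          rw [hsmul, hφ, X.phi_of_X a ha Θ z n hz _ j (Θ_rz j)]
          rfl
        rw [h1]
        exact Submodule.smul_mem_smul (rz_mem j) Submodule.mem_top
    | zero =>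
      intro v
      rw [zero_smul]
      exact Submodule.zero_mem _
    | add s₁ s₂ _ _ h₁ h₂ =>
      intro v
      rw [add_smul]
      exact Submodule.add_mem _ (h₁ v) (h₂ v)
    | smul c s _ h =>
      intro v
      rw [smul_eq_mul, mul_comm, mul_smul]
      exact h (c • v)
  -- Nakayama
  have htop : (⊤ : Submodule R X.E) ≤ Submodule.span R (Set.range b) := by
    refine Submodule.le_of_le_smul_of_le_jacobson_bot (I := maximalIdeal R)
      Module.Finite.fg_top (le_of_eq (IsLocalRing.jacobson_eq_maximalIdeal ⊥ bot_ne_top).symm) ?_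
    intro v _
    rw [← b.sum_repr v]
    refine Submodule.sum_mem _ fun l _ => ?_
    obtain ⟨c₀, hc₀⟩ := hA (b.repr v l)
    have h1 : b.repr v l • b l =
        algebraMap O R c₀ • b l + (b.repr v l - algebraMap O A c₀) • b l := by
      rw [hsmul, hφ, X.phi_algebraMap a ha Θ z n hz, LinearMap.smul_apply,
        Module.End.one_apply, ← add_smul, add_sub_cancel]
    rw [h1]
    refine Submodule.add_mem_sup (Submodule.smul_mem _ _ (Submodule.subset_span ⟨l, rfl⟩))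
      (hI _ hc₀ _)
  obtain ⟨r, hr⟩ := (Submodule.mem_span_range_iff_exists_fun R).mp (htop (Submodule.mem_top (x := w)))
  exact ⟨r, hr.symm⟩

end Action

/-! ### the patching level -/

section Level

variable {O : Type} [CommRing O] {ϖ : O} {R : Type} [CommRing R] [IsLocalRing R] [Algebra O R]
  {J₁ J₂ : Ideal R} {k nz : ℕ} {N : Fin k → ℕ} {d : ℕ}

/-- **ONE Taylor–Wiles level ⟹ ONE patching level in module form.** -/
theorem nonempty_modLevel (I : TWInput O ϖ R J₁ J₂ k nz N d)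
    (A : Type) [CommRing A] [Algebra O A] [Finite A] (y : Fin k → A)
    (X₁ : ExtLevel I.tw.L1 A fun i => 1 + y i) (X₂ : ExtLevel I.tw.Lχ A fun i => 1 + y i)
    (z : Fin nz → A) (n : ℕ) (hz : ∀ x : Fin nz →₀ ℕ, n ≤ x.degree → Trunc.monoVal z x = 0)
    (hA : ∀ c : A, ∃ c₀ : O, c - algebraMap O A c₀ ∈ Ideal.span (Set.range y ∪ Set.range z)) :
    Nonempty (ModLevel R (algebraMap O R ϖ) J₁ J₂ A (algebraMap O A ϖ) (Fin d) d) := by
  classical
  obtain ⟨e, he⟩ := exists_modIso ϖ X₁ X₂ I.tw.U I.tw.U_D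
  set φ₁ := X₁.phi I.a₁ I.a₁_D I.Θ z n hz with hφ₁
  set φ₂ := X₂.phi I.a₂ I.a₂_D I.Θ z n hz with hφ₂
  let b₁ : Module.Basis (Fin d) A X₁.E := X₁.basis.reindex (finCongr I.hd₁)
  let b₂ : Module.Basis (Fin d) A X₂.E := X₂.basis.reindex (finCongr I.hd₂)
  refine ⟨{
    M₁ := X₁.E
    M₂ := X₂.E
    b₁ := b₁
    b₂ := b₂
    φ₁ := φ₁
    φ₂ := φ₂
    e := e
    he := ?_
    kill₁ := fun r hr => X₁.phi_eq_zero I.a₁ I.a₁_D I.Θ z n hz r (I.kill₁ r hr)
    kill₂ := fun r hr => X₂.phi_eq_zero I.a₂ I.a₂_D I.Θ z n hz r (I.kill₂ r hr)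
    g₁ := b₁
    gen₁ := X₁.gen I.a₁ I.a₁_D I.Θ z n hz y (fun _ => rfl) hA I.x I.rx I.rx_mem I.Θ_rx
      I.rz I.rz_mem I.Θ_rz I.unit₁ b₁
    g₂ := b₂
    gen₂ := X₂.gen I.a₂ I.a₂_D I.Θ z n hz y (fun _ => rfl) hA I.x I.rx I.rx_mem I.Θ_rx
      I.rz I.rz_mem I.Θ_rz I.unit₂ b₂
    lam₂ := ?_ }⟩
  · -- compatibility of `e` with the actions of `R`
    intro r w w' hw
    rw [hφ₁, hφ₂, X₁.phi_eq_sum, X₂.phi_eq_sum, LinearMap.sum_apply, LinearMap.sum_apply]
    have h1 : ∀ v : Finset (Fin nz →₀ ℕ),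
        e (Submodule.Quotient.mk (∑ x ∈ v, (Trunc.monoVal z x •
          X₁.extAct I.a₁ I.a₁_D (coeff x (I.Θ r))) w)) =
        Submodule.Quotient.mk (∑ x ∈ v, (Trunc.monoVal z x •
          X₂.extAct I.a₂ I.a₂_D (coeff x (I.Θ r))) w') := by
      intro v
      induction v using Finset.induction_on with
      | empty =>
        rw [Finset.sum_empty, Finset.sum_empty, Submodule.Quotient.mk_zero, map_zero,
          Submodule.Quotient.mk_zero]
      | insert x v hx ih =>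
        rw [Finset.sum_insert hx, Finset.sum_insert hx, Submodule.Quotient.mk_add, map_add, ih,
          Submodule.Quotient.mk_add]
        congr 1
        rw [LinearMap.smul_apply, LinearMap.smul_apply, Submodule.Quotient.mk_smul, map_smul,
          Submodule.Quotient.mk_smul]
        congr 1
        refine modIso_compat ϖ X₁ X₂ I.tw.U.toLinearMap e.toLinearMap he _ _ ?_ w w' hw
        intro x₀ y₀ h₀
        exact ⟨I.a₁ (coeff x (I.Θ r)) x₀, I.a₂ (coeff x (I.Θ r)) y₀, X₁.extAct_ι _ _ _ _,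
          X₂.extAct_ι _ _ _ _, I.a_U _ _ _ h₀⟩
    exact h1 _
  · intro w
    rw [hφ₂, X₂.phi_algebraMap, LinearMap.smul_apply, Module.End.one_apply]

end Level

end Fermat.Agent.GB.B9
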