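/-
GATE-B / B9 ASSEMBLY (helper55): a PROVIDER-FRIENDLY constructor of `TWInput`.

`nonempty_TWInput_of_surjective` : the fields `Θ rx rz` of `TWInput` from
* `Θ₀ : R →ₐ[𝒪] MvPowerSeries ζ R_Q` SURJECTIVE  (B2: helper4 `FrameTheta`, `R_Q⟦z⟧ = FRing DQ Fr`,
  `ζ = Fr × Fin 3`),
* `ψ : R_Q →ₐ[𝒪] T` SURJECTIVE                   (B4: `S54.result` at the datum over `T = T_Q`),
* `e : ζ ≃ Fin nz`,
* `T` local with `x i - 1 ∈ 𝔪_T`,
and the killing hypotheses in the form `a (ψ (coeff m (Θ₀ r))) = 0`.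
`Θ := rename e ∘ map ψ ∘ Θ₀`; the lifts `rx`, `rz` exist because a surjection onto a local ring
reflects units.
-/
import Fermat.Agent.GB.B9.ModOfTW

set_option autoImplicit false
set_option linter.unusedSectionVars false

namespace Fermat.Agent.GB.B9

open Fermat.Agent.GB.B3.TWLevel IsLocalRing MvPowerSeries
open scoped Pointwise

section

variable {σ : Type*} {A B : Type*} [CommRing A] [CommRing B]

/-- `MvPowerSeries.map` of a surjective ring hom is surjective. -/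
theorem mvPowerSeries_map_surjective (ψ : A →+* B) (hψ : Function.Surjective ψ) :
    Function.Surjective (MvPowerSeries.map (σ := σ) ψ) := by
  intro f
  choose g hg using hψ
  let f' : MvPowerSeries σ A := fun m => g (coeff m f)
  have hf' : ∀ m, coeff m f' = g (coeff m f) := fun m => rfl
  refine ⟨f', ?_⟩
  ext m
  rw [coeff_map, hf']
  exact hg _

end

section Lift

variable {R T : Type*} [CommRing R] [IsLocalRing R] [CommRing T] [IsLocalRing T]
  {τ : Type*}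

/-- a surjection onto `T⟦z⟧` (`T` local) lifts elements with non-unit constant coefficient to
`𝔪_R`. -/
theorem exists_mem_maximalIdeal_of_surjective (Θ : R →+* MvPowerSeries τ T)
    (hΘ : Function.Surjective Θ) (f : MvPowerSeries τ T)
    (hf : constantCoeff f ∈ maximalIdeal T) : ∃ r ∈ maximalIdeal R, Θ r = f := by
  obtain ⟨r, rfl⟩ := hΘ f
  refine ⟨r, ?_, rfl⟩
  rw [mem_maximalIdeal, mem_nonunits_iff]
  intro hr
  have h1 : IsUnit (constantCoeff (Θ r)) := (hr.map Θ).map constantCoeff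
  exact (mem_maximalIdeal _).mp hf h1

end Lift

section Provider

variable {O : Type} [CommRing O] {ϖ : O} {R : Type} [CommRing R] [IsLocalRing R] [Algebra O R]
  {J₁ J₂ : Ideal R} {k nz : ℕ} {N : Fin k → ℕ} {d : ℕ}
  {𝕋 : Type} [CommRing 𝕋] [Algebra O 𝕋]
  {M0 : Type} [AddCommGroup M0] [Module O M0] {act0 : 𝕋 →ₐ[O] Module.End O M0}
  {M0χ : Type} [AddCommGroup M0χ] [Module O M0χ] {act0χ : 𝕋 →ₐ[O] Module.End O M0χ}

/-- **`TWInput` from surjections** `R ↠ R_Q⟦z⟧`, `R_Q ↠ T_Q`. -/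
theorem nonempty_TWInput_of_surjective
    (tw : TWLevelData O ϖ 𝕋 M0 act0 M0χ act0χ k N) (hd₁ : tw.L1.d = d) (hd₂ : tw.Lχ.d = d)
    (T : Type) [CommRing T] [IsLocalRing T] [Algebra O T]
    (a₁ : T →ₐ[O] Module.End O tw.L1.M) (a₂ : T →ₐ[O] Module.End O tw.Lχ.M)
    (a₁_D : ∀ t i, a₁ t * tw.L1.D i = tw.L1.D i * a₁ t)
    (a₂_D : ∀ t i, a₂ t * tw.Lχ.D i = tw.Lχ.D i * a₂ t)
    (a_U : ∀ (t : T) (x : tw.L1.M) (y : tw.Lχ.M),
      tw.U (Submodule.Quotient.mk x) = Submodule.Quotient.mk y →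
        tw.U (Submodule.Quotient.mk (a₁ t x)) = Submodule.Quotient.mk (a₂ t y))
    {ζ : Type} [Finite ζ] (e : ζ ≃ Fin nz) {RQ : Type} [CommRing RQ] [Algebra O RQ]
    (Θ₀ : R →ₐ[O] MvPowerSeries ζ RQ) (hΘ₀ : Function.Surjective Θ₀)
    (ψ : RQ →ₐ[O] T) (hψ : Function.Surjective ψ)
    (x : Fin k → T) (hx : ∀ i, x i - 1 ∈ maximalIdeal T)
    (unit₁ : ∀ i m, ∃ m', tw.L1.D i m - m = a₁ (x i) m' - m')
    (unit₂ : ∀ i m, ∃ m', tw.Lχ.D i m - m = a₂ (x i) m' - m')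
    (kill₁ : ∀ r ∈ J₁, ∀ m, a₁ (ψ (coeff m (Θ₀ r))) = 0)
    (kill₂ : ∀ r ∈ J₂, ∀ m, a₂ (ψ (coeff m (Θ₀ r))) = 0) :
    Nonempty (TWInput O ϖ R J₁ J₂ k nz N d) := by
  classical
  -- `Θ`
  let ren : MvPowerSeries ζ T →ₐ[O] MvPowerSeries (Fin nz) T :=
    ((renameEquiv T e).toAlgHom).restrictScalars O
  let Θ : R →ₐ[O] MvPowerSeries (Fin nz) T := ren.comp ((mapAlgHom ψ).comp Θ₀)
  have hΘ_apply : ∀ r, Θ r = rename e (MvPowerSeries.map (ψ : RQ →+* T) (Θ₀ r)) := fun r => rfl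
  have hΘ : Function.Surjective Θ := by
    have h1 : Function.Surjective ren := (renameEquiv T e).surjective
    have h2 : Function.Surjective (mapAlgHom (σ := ζ) ψ) :=
      mvPowerSeries_map_surjective (ψ : RQ →+* T) hψ
    exact h1.comp (h2.comp hΘ₀)
  -- the lifts
  have hrx : ∀ i, ∃ r ∈ maximalIdeal R, Θ r = C (x i - 1) := fun i =>
    exists_mem_maximalIdeal_of_surjective (Θ : R →+* MvPowerSeries (Fin nz) T) hΘ _
      (by rw [constantCoeff_C]; exact hx i)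
  have hrz : ∀ j, ∃ r ∈ maximalIdeal R, Θ r = X j := fun j =>
    exists_mem_maximalIdeal_of_surjective (Θ : R →+* MvPowerSeries (Fin nz) T) hΘ _
      (by rw [constantCoeff_X]; exact Submodule.zero_mem _)
  choose rx rx_mem Θ_rx using hrx
  choose rz rz_mem Θ_rz using hrz
  -- coefficients of `Θ r`
  have hkill : ∀ {M : Type} [AddCommGroup M] [Module O M] (a : T →ₐ[O] Module.End O M) (r : R)
      (n : Fin nz →₀ ℕ), (∀ m, a (ψ (coeff m (Θ₀ r))) = 0) → a (coeff n (Θ r)) = 0 := by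
    intro M _ _ a r n h
    rw [hΘ_apply, coeff_rename, map_sum]
    refine Finset.sum_eq_zero fun m _ => ?_
    rw [coeff_map]
    exact h m
  exact ⟨{
    𝕋 := 𝕋, M0 := M0, act0 := act0, M0χ := M0χ, act0χ := act0χ
    tw := tw, hd₁ := hd₁, hd₂ := hd₂
    T := T, a₁ := a₁, a₂ := a₂, a₁_D := a₁_D, a₂_D := a₂_D, a_U := a_U
    Θ := Θ
    x := x
    rx := rx, rx_mem := rx_mem, Θ_rx := Θ_rx
    rz := rz, rz_mem := rz_mem, Θ_rz := Θ_rz
    unit₁ := unit₁, unit₂ := unit₂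
    kill₁ := fun r hr n => hkill a₁ r n (kill₁ r hr)
    kill₂ := fun r hr n => hkill a₂ r n (kill₂ r hr) }⟩

end Provider

end Fermat.Agent.GB.B9
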