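/-
GATE-B / B9 ASSEMBLY, layer 2b (helper55): the coefficient rings `A = S ⧸ F.c m`.

`S = SRing O k nz = 𝒪⟦y₁..y_k, z₁..z_nz⟧ = MvPowerSeries (Fin (k + nz)) O` (`nz = 3 · #Σ_u`, R4), with the
filtration `FS O k nz` = coefficientwise `𝔪_𝒪`-adic (helper9's `Filt.mvPowerSeries`), `y i = X (castAdd nz i)`,
`z j = X (natAdd k j)`.

* `monoVal_zQ_eq_zero` : monomials of degree `≥ m` in the `z j` vanish in `S ⧸ F.c m`.
* `exists_sub_algebraMap_mem` : `S ⧸ F.c m = 𝒪 + (y, z)`.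
* `modLevel_quot` : `nonempty_modLevel` at `A = S ⧸ F.c m`.
* `exists_depth` : `(1 + y_i)^(p^n) - 1 ∈ F.c m` for all `n ≥ n₀(m)`  (`p ∈ 𝔪_𝒪`).
-/
import Fermat.Agent.GB.B9.ModOfTW
import Fermat.Agent.GB.Local.RlocFilt
import Fermat.Agent.GB.Patch.PS
import Fermat.Agent.GB.Patch.Basic

set_option autoImplicit false
set_option linter.unusedSectionVars false

namespace Fermat.Agent.GB.B9

open Fermat.Agent.GB.B3.TWLevel Fermat.Agent.GB.PatchSupp IsLocalRing MvPowerSeries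

section

variable (O : Type) [CommRing O] [IsLocalRing O] [IsNoetherianRing O]
  [IsAdicComplete (maximalIdeal O) O] [Finite (ResidueField O)]

/-- `S = 𝒪⟦y₁..y_k, z₁..z_nz⟧` -/
abbrev SRing (k nz : ℕ) : Type := MvPowerSeries (Fin (k + nz)) O

/-- the filtration of `S` -/
noncomputable def FS (k nz : ℕ) : Filt (SRing O k nz) :=
  (Filt.ofAdic (maximalIdeal O)).mvPowerSeries (Fin (k + nz))

instance finite_quotient_FS (k nz n : ℕ) : Finite (SRing O k nz ⧸ (FS O k nz).c n) :=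
  Filt.finite_quotient_mvPowerSeries (Filt.ofAdic (maximalIdeal O)) (Fin (k + nz)) n

variable {O}

/-- the diamond variables -/
noncomputable def yS (k nz : ℕ) (i : Fin k) : SRing O k nz := X (Fin.castAdd nz i)

/-- the framing variables -/
noncomputable def zS (k nz : ℕ) (j : Fin nz) : SRing O k nz := X (Fin.natAdd k j)

/-- the coefficient ring of depth `m` -/
abbrev AQ (O : Type) [CommRing O] [IsLocalRing O] [IsNoetherianRing O]
    [IsAdicComplete (maximalIdeal O) O] (k nz m : ℕ) : Type :=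
  SRing O k nz ⧸ (FS O k nz).c m

noncomputable def yQ (k nz m : ℕ) (i : Fin k) : AQ O k nz m := Ideal.Quotient.mk _ (yS k nz i)

noncomputable def zQ (k nz m : ℕ) (j : Fin nz) : AQ O k nz m := Ideal.Quotient.mk _ (zS k nz j)

theorem mem_FS_of_le_order {k nz m : ℕ} {f : SRing O k nz} (hf : (m : ℕ∞) ≤ f.order) :
    f ∈ (FS O k nz).c m := by
  intro d hd
  rw [coeff_of_lt_order]
  · exact Submodule.zero_mem _
  · exact lt_of_lt_of_le (by exact_mod_cast hd) hf

theorem one_le_order_X {σ : Type*} (s : σ) : 1 ≤ (X s : MvPowerSeries σ O).order := by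
  classical
  rw [X, order_monomial]
  split_ifs
  · exact le_top
  · simp

/-- monomials of degree `≥ m` in the framing variables vanish in `S ⧸ F.c m`. -/
theorem monoVal_zQ_eq_zero (k nz m : ℕ) (x : Fin nz →₀ ℕ) (hx : m ≤ x.degree) :
    Trunc.monoVal (zQ (O := O) k nz m) x = 0 := by
  unfold Trunc.monoVal zQ
  rw [Finsupp.prod]
  simp only [← map_pow, ← map_prod]
  rw [Ideal.Quotient.eq_zero_iff_mem]
  refine mem_FS_of_le_order ?_
  refine le_trans ?_ (le_order_prod _ _)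
  have h1 : ∀ j ∈ x.support, ((x j : ℕ) : ℕ∞) ≤ ((zS (O := O) k nz j) ^ x j).order := by
    intro j _
    refine le_trans ?_ (le_order_pow _)
    have := one_le_order_X (O := O) (Fin.natAdd k j)
    calc ((x j : ℕ) : ℕ∞) = (x j) • (1 : ℕ∞) := by simp
      _ ≤ (x j) • (zS (O := O) k nz j).order := nsmul_le_nsmul_right this _
  refine le_trans ?_ (Finset.sum_le_sum h1)
  rw [← Nat.cast_sum]
  exact_mod_cast hx

/-- `S ⧸ F.c m = 𝒪 + (y, z)`. -/
theorem exists_sub_algebraMap_mem (k nz m : ℕ) (c : AQ O k nz m) :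
    ∃ c₀ : O, c - algebraMap O (AQ O k nz m) c₀ ∈
      Ideal.span (Set.range (yQ (O := O) k nz m) ∪ Set.range (zQ (O := O) k nz m)) := by
  obtain ⟨f, rfl⟩ := Ideal.Quotient.mk_surjective c
  refine ⟨constantCoeff f, ?_⟩
  have h1 := Fermat.Agent.GB.Patch.sub_C_constantCoeff_mem_span_X f
  have h2 : Ideal.Quotient.mk ((FS O k nz).c m) f - algebraMap O (AQ O k nz m) (constantCoeff f) =
      Ideal.Quotient.mk ((FS O k nz).c m) (f - C (constantCoeff f)) := by
    rw [map_sub]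
    rfl
  rw [h2]
  have h3 : Ideal.span (Set.range (X : Fin (k + nz) → SRing O k nz)) ≤
      (Ideal.span (Set.range (yQ (O := O) k nz m) ∪ Set.range (zQ (O := O) k nz m))).comap
        (Ideal.Quotient.mk ((FS O k nz).c m)) := by
    rw [Ideal.span_le]
    rintro _ ⟨s, rfl⟩
    refine Ideal.subset_span ?_
    refine Fin.addCases (fun i => ?_) (fun j => ?_) s
    · exact Or.inl ⟨i, rfl⟩
    · exact Or.inr ⟨j, rfl⟩
  exact h3 h1

end

/-! ### the patching level at `A = S ⧸ F.c m` -/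

section Level

variable {O : Type} [CommRing O] [IsLocalRing O] [IsNoetherianRing O]
  [IsAdicComplete (maximalIdeal O) O] [Finite (ResidueField O)]
  {ϖ : O} {R : Type} [CommRing R] [IsLocalRing R] [Algebra O R]
  {J₁ J₂ : Ideal R} {k nz : ℕ} {N : Fin k → ℕ} {d : ℕ}

/-- **ONE Taylor–Wiles level ⟹ ONE patching level over `S ⧸ F.c m`.** -/
theorem modLevel_quot (I : TWInput O ϖ R J₁ J₂ k nz N d) (m : ℕ)
    (X₁ : ExtLevel I.tw.L1 (AQ O k nz m) fun i => 1 + yQ k nz m i)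
    (X₂ : ExtLevel I.tw.Lχ (AQ O k nz m) fun i => 1 + yQ k nz m i) :
    Nonempty (ModLevel R (algebraMap O R ϖ) J₁ J₂ (SRing O k nz ⧸ (FS O k nz).c m)
      (Ideal.Quotient.mk ((FS O k nz).c m) (C ϖ)) (Fin d) d) :=
  nonempty_modLevel I (AQ O k nz m) (yQ k nz m) X₁ X₂ (zQ k nz m) m (monoVal_zQ_eq_zero k nz m)
    (exists_sub_algebraMap_mem k nz m)

/-- `(1 + y_i)^(p^n) - 1 ∈ F.c m` for `n` large. -/
theorem exists_depth {p : ℕ} (hp : (p : O) ∈ maximalIdeal O) (k nz m : ℕ) :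
    ∃ n₀, ∀ n, n₀ ≤ n → ∀ i : Fin k,
      ((1 + yS k nz i) ^ (p ^ n) - 1 : SRing O k nz) ∈ (FS O k nz).c m := by
  refine ⟨Nat.card (AQ O k nz m), fun n hn i => ?_⟩
  have h1 := Fermat.Agent.GB.Patch.one_add_X_pow_sub_one_mem (𝒪 := O) hp (Fin.castAdd nz i) n
  have h2 : ((1 + yS k nz i) ^ (p ^ n) - 1 : SRing O k nz) ∈
      maximalIdeal (SRing O k nz) ^ Nat.card (AQ O k nz m) :=
    Ideal.pow_le_pow_right (by omega) h1
  have h3 := Fermat.Agent.GB.Patch.smul_eq_zero_of_mem_pow_card (A := SRing O k nz)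
    (Nat.card (AQ O k nz m)) (AQ O k nz m) le_rfl _ h2 1
  rw [← Ideal.Quotient.eq_zero_iff_mem]
  have h4 : ((1 + yS k nz i) ^ (p ^ n) - 1 : SRing O k nz) • (1 : AQ O k nz m) =
      Ideal.Quotient.mk _ ((1 + yS k nz i) ^ (p ^ n) - 1 : SRing O k nz) := by
    rw [Algebra.smul_def, mul_one]
    rfl
  rw [← h4]
  exact h3

end Level

end Fermat.Agent.GB.B9
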