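/-
GATE-B / B9 ASSEMBLY, layer 3 (helper55): **from Taylor–Wiles data of arbitrary depth to the
contradiction**.

* `HasExt`   : "every Taylor–Wiles level has a base change along `δ_i ↦ u i`" — the ONE statement
               of `GB/B9/GroupBaseChange.lean` (helper22), kept as a hypothesis here so that this
               file does not wait for it.
* `TWSystem` : the FINAL CONTRACT of CASE B.  A coefficient ring `𝒪` (complete noetherian local,
               finite residue field, `p ∈ 𝔪`), the rings and ideals of layer 1 with their `AlgHyp`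
               over `S = 𝒪⟦y₁..y_k,z₁..z_nz⟧` (`nz = 3 · #Σ_u`), a bound `D`, and for EVERY depth `n₀` a
               `TWInput` at some depth `n ≥ n₀` (all diamonds of order `p^n`) of rank
               `1 ≤ d ≤ D`.
* `TWSystem.false` : a `TWSystem` is contradictory (pigeonhole on `d`, `exists_depth`,
               `modLevel_quot`, `Engine.false`).
* `caseB38_of_system` : frozen-shape `CaseB38` from: "if the level cannot be lowered there is
               a `TWSystem`".
-/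
import Fermat.Agent.GB.B9.Level

set_option autoImplicit false
set_option linter.unusedSectionVars false
set_option linter.style.haveILetI false

open WeierstrassCurve WeierstrassCurve.Affine WeierstrassCurve.Affine.Point
open scoped WeierstrassCurve.Affine

namespace Fermat.Agent.GB.B9

open Fermat.Agent.GB.B3.TWLevel Fermat.Agent.GB.PatchSupp IsLocalRing MvPowerSeries

/-- **Base changes exist** (the deliverable of `GB/B9/GroupBaseChange.lean`). -/
def HasExt : Prop :=
  ∀ {O : Type} [CommRing O] {𝕋 : Type} [CommRing 𝕋] [Algebra O 𝕋]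
    {M0 : Type} [AddCommGroup M0] [Module O M0] {act0 : 𝕋 →ₐ[O] Module.End O M0}
    {k : ℕ} {N : Fin k → ℕ} (L : FreeLevel O 𝕋 M0 act0 k N), (∀ i, 0 < N i) →
    ∀ (A : Type) [CommRing A] [Algebra O A] (u : Fin k → A), (∀ i, u i ^ N i = 1) →
      Nonempty (ExtLevel L A u)

/-- **The final contract of CASE B.** -/
structure TWSystem : Type 1 where
  O : Type
  [crO : CommRing O]
  [locO : IsLocalRing O]
  [noethO : IsNoetherianRing O]
  [complO : IsAdicComplete (maximalIdeal O) O]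
  [finO : Finite (ResidueField O)]
  ϖ : O
  p : ℕ
  hp0 : 0 < p
  hp : (p : O) ∈ maximalIdeal O
  R : Type
  [crR : CommRing R]
  [locR : IsLocalRing R]
  [algR : Algebra O R]
  G : Filt R
  finG : ∀ n, Finite (R ⧸ G.c n)
  J₁ : Ideal R
  J₂ : Ideal R
  t : R
  /-- the number of Taylor–Wiles primes -/
  k : ℕ
  /-- the number of framing variables (`3 · #Σ_u`) -/
  nz : ℕ
  alg : AlgHyp (S := SRing O k nz) (algebraMap O R ϖ) (C ϖ) G J₁ J₂ t
  /-- a bound for the ranks -/
  D : ℕ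
  level : ∀ n₀ : ℕ, ∃ n, n₀ ≤ n ∧ ∃ d, 0 < d ∧ d ≤ D ∧
    Nonempty (TWInput O ϖ R J₁ J₂ k nz (fun _ => p ^ n) d)

attribute [instance] TWSystem.crO TWSystem.locO TWSystem.noethO TWSystem.complO TWSystem.finO
  TWSystem.crR TWSystem.locR TWSystem.algR

/-- **A `TWSystem` produces an engine.** -/
theorem TWSystem.nonempty_engine (hext : HasExt) (Y : TWSystem) : Nonempty Engine := by
  classical
  -- choose the data at every depth
  choose n hn d hd hdD I using Y.level
  -- pigeonhole on the rank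
  let f : ℕ → Fin (Y.D + 1) := fun n₀ => ⟨d n₀, Nat.lt_succ_of_le (hdD n₀)⟩
  obtain ⟨y, hy⟩ := Finite.exists_infinite_fiber f
  have hinf : (f ⁻¹' {y}).Infinite := Set.infinite_coe_iff.mp hy
  -- the common rank
  have hex : ∀ m : ℕ, ∃ n₀, d n₀ = (y : ℕ) ∧ ∀ i : Fin Y.k,
      ((1 + yS Y.k Y.nz i) ^ (Y.p ^ n n₀) - 1 : SRing Y.O Y.k Y.nz) ∈ (FS Y.O Y.k Y.nz).c m := by
    intro m
    obtain ⟨N₀, hN₀⟩ := exists_depth Y.hp Y.k Y.nz m
    obtain ⟨n₀, hn₀, hlt⟩ := hinf.exists_gt N₀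
    refine ⟨n₀, ?_, fun i => hN₀ _ (le_trans hlt.le (hn n₀)) i⟩
    have : f n₀ = y := hn₀
    rw [← this]
  choose n₀ hdn hmem using hex
  have hypos : 0 < (y : ℕ) := by
    rw [← hdn 0]
    exact hd _
  -- the levels
  have hlevel : ∀ m, Nonempty (ModLevel Y.R (algebraMap Y.O Y.R Y.ϖ) Y.J₁ Y.J₂
      (SRing Y.O Y.k Y.nz ⧸ (FS Y.O Y.k Y.nz).c m)
      (Ideal.Quotient.mk ((FS Y.O Y.k Y.nz).c m) (C Y.ϖ)) (Fin (y : ℕ)) (y : ℕ)) := by
    intro m
    obtain ⟨I₀⟩ := I (n₀ m)
    rw [hdn m] at I₀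
    have hu : ∀ i : Fin Y.k, (1 + yQ (O := Y.O) Y.k Y.nz m i) ^ (Y.p ^ n (n₀ m)) = 1 := by
      intro i
      have h1 := hmem m i
      rw [← Ideal.Quotient.eq_zero_iff_mem, map_sub, map_pow, map_add, map_one, sub_eq_zero]
        at h1
      exact h1
    have hN : ∀ _ : Fin Y.k, 0 < Y.p ^ n (n₀ m) := fun _ => Nat.pow_pos Y.hp0
    obtain ⟨X₁⟩ := hext I₀.tw.L1 hN (AQ Y.O Y.k Y.nz m) (fun i => 1 + yQ Y.k Y.nz m i) hu
    obtain ⟨X₂⟩ := hext I₀.tw.Lχ hN (AQ Y.O Y.k Y.nz m) (fun i => 1 + yQ Y.k Y.nz m i) hu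
    exact modLevel_quot I₀ m X₁ X₂
  exact ⟨{
    R := Y.R
    S := SRing Y.O Y.k Y.nz
    lamR := algebraMap Y.O Y.R Y.ϖ
    lamS := C Y.ϖ
    F := FS Y.O Y.k Y.nz
    finF := fun n => finite_quotient_FS Y.O Y.k Y.nz n
    G := Y.G
    finG := Y.finG
    J₁ := Y.J₁
    J₂ := Y.J₂
    t := Y.t
    alg := Y.alg
    d := (y : ℕ)
    d_pos := hypos
    h := (y : ℕ)
    level := fun m => Classical.choice (hlevel m) }⟩

/-- **A `TWSystem` is contradictory.** -/
theorem TWSystem.false (hext : HasExt) (Y : TWSystem) : False := by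
  obtain ⟨E⟩ := Y.nonempty_engine hext
  exact E.false

open Fermat.Agent.GB.Top.S43Frey in
/-- **CASE B from Taylor–Wiles systems.** -/
theorem caseB38_of_system (hext : HasExt)
    (hE : ∀ (p : ℕ) [Fact p.Prime] (_ : 5 ≤ p) (W : WeierstrassCurve ℤ) (_ : W.Δ ≠ 0)
      (_ : W.IsSemistableModel)
      (hcard₁ : Nat.card (Submodule.torsionBy ℤ
        ((W.map (Int.castRingHom ℚ))⁄(AlgebraicClosure ℚ)).Point p) = p ^ 2)
      (hker : GaloisFactorsThroughFiniteLevel
        (WeierstrassCurve.Affine.Point.galoisRepModuleEnd (K := AlgebraicClosure ℚ) ℚ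
          (W.map (Int.castRingHom ℚ)) p))
      (_ : W.ModRepIsIrreducible p) (M q : ℕ) (_ : q.Prime) (_ : q ≠ 2) (_ : q ≠ p)
      (_ : q ∣ M) (_ : Squarefree M)
      (_ : ((W.map (Int.castRingHom ℚ)).residualGaloisRepOf p hcard₁ hker).IsUnramifiedAt q)
      (_ : W.IsResiduallyModularOfLevel p M)
      (_ : q % p = 1) (_ : ScalarFrob38 W p q)
      (_ : ¬ W.IsResiduallyModularOfLevel p (M / q)), Nonempty TWSystem) :
    CaseB38 :=
  caseB38_of_engine fun p _ hp5 W hΔ hW hcard₁ hker hirr M q hq hq2 hqp hqM hM hunr hres h1 hsc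
      hnot => by
    obtain ⟨Y⟩ := hE p hp5 W hΔ hW hcard₁ hker hirr M q hq hq2 hqp hqM hM hunr hres h1 hsc hnot
    exact Y.nonempty_engine hext

end Fermat.Agent.GB.B9
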