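/-
GATE-B / B9 PROVIDER, the B1 SIDE IN TWO CALLS (helper51).  Over the `SetupPkg` coefficient ring
(complete DVR, char. 0), several framed primes under RULING R5, `R := RM O (s + 1) g`,
`k := g`, `nz := 3 (s + 1)`, `J₁ := (t_q)`, `t_q = tM O (q − 1)`, `q = ℓ (Fin.last s)`:

* `nonempty_TWSystem_of_handle` : helper59 `AlgHypKill2.exists_algHyp_kill₂` ⟹ a `TWSystem`, provided
  that for EVERY ideal `J₂` with the handle `Kill2Handle h ℓ J₂` there are `TWInput`s of arbitrarily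
  large depth and bounded positive rank.
* `nonempty_TWInput_multi` : ONE `TWInput` for such a `J₂` from
  - the B3 level data `tw` (ranks `d > 0`, diamond orders `N i > 0`),
  - `T = T_Q` finite reduced local with the actions `a₁ a₂` (B4),
  - surjections `Θ₀ : R ↠ R_Q⟦ζ⟧` (B2, helper4) and `ψ : R_Q ↠ T` (B4), `e : ζ ≃ Fin (3 (s + 1))`,
  - the Galois diamonds `x i` and `unit₁ unit₂` (P5),
  - the `T`-level framing identities / tame relations of `Θ := map ψ ∘ Θ₀` (helper4 `ThetaT`,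
    helper12 `TQGal`), `hnu` (B5 at `q`) and `he` (B7: `a₁ ((tr F_q)² − (1 + q)²) = 0`).
  `kill₂ := Kill2Handle`, `kill₁ := Kill1Multi.kill₁_J1`, the rest
  `Provider.nonempty_TWInput_of_surjective`; `IsTorsionFree`/`Nontrivial` of `M^χ_Q` come from its
  basis; `hΘx` is automatic (a surjection of local rings is local).
-/
import Fermat.Agent.GB.B9.AlgHypKill2
import Fermat.Agent.GB.B9.Provider
import Fermat.Agent.GB.B9.System
import Fermat.Agent.GB.Local.Multi.Kill1Multi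

set_option autoImplicit false
set_option linter.unusedSectionVars false
set_option linter.unusedVariables false
set_option linter.style.haveILetI false

open IsLocalRing Module

namespace Fermat.Agent.GB.B9.LevelMulti

open Fermat.Agent.GB.Local.TamePoint Fermat.Agent.GB.Local.R4Point
open Fermat.Agent.GB.Local.Multi Fermat.Agent.GB.PatchSupp
open Fermat.Agent.GB.B9.AlgHypMulti Fermat.Agent.GB.B9.AlgHypKill2 Matrix
open Fermat.Agent.GB.Local.Multi.Kill2Field Fermat.Agent.GB.Local.Multi.Kill2Q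
open Fermat.Agent.GB.B3.TWLevel

variable {O : Type} [CommRing O] [IsDomain O] [IsDiscreteValuationRing O]
  [IsAdicComplete (maximalIdeal O) O] [CharZero O]

/-- **`TWSystem` from the `kill₂` handle.** -/
theorem nonempty_TWSystem_of_handle [Finite (ResidueField O)] {lam : O} (hlam : Irreducible lam)
    {h : O} (hh : 2 * h = 1) {p : ℕ} (hp : p.Prime) (hp2 : p ≠ 2)
    (hpO : (p : O) ∈ maximalIdeal O) {a n' : ℕ} {ζ : O} (hζ : IsPrimitiveRoot ζ (p ^ a))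
    {s : ℕ} (g : ℕ) (ℓ : Fin (s + 1) → ℕ)
    (hℓ2 : ∀ v, v ≠ Fin.last s → 2 ≤ ℓ v)
    (hℓm : ∀ v, v ≠ Fin.last s → (ℓ v : O) - 1 ∈ maximalIdeal O)
    (hfac : ℓ (Fin.last s) - 1 = p ^ a * n') (hn' : ¬ p ∣ n') (hpq : p ∣ ℓ (Fin.last s) - 1)
    (hq : 1 ≤ ℓ (Fin.last s)) (D : ℕ)
    (level : ∀ J₂ : Ideal (RM O (s + 1) g), Kill2Handle h ℓ J₂ → ∀ n₀ : ℕ, ∃ n, n₀ ≤ n ∧
      ∃ d', 0 < d' ∧ d' ≤ D ∧
        Nonempty (TWInput O lam (RM O (s + 1) g) (J1 s g ((ℓ (Fin.last s) : O) - 1)) J₂ g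
          (3 * (s + 1)) (fun _ => p ^ n) d')) :
    Nonempty TWSystem := by
  obtain ⟨J₂, halg, hkill⟩ := exists_algHyp_kill₂ hlam hh hp hp2 hpO hζ g ℓ hℓ2 hℓm hfac hn' hpq hq
  exact ⟨{
    O := O
    ϖ := lam
    p := p
    hp0 := hp.pos
    hp := hpO
    R := RM O (s + 1) g
    G := Filt.G1 O (Idx (s + 1) g)
    finG := fun n => finite_quotient_G1 s g n
    J₁ := J1 s g ((ℓ (Fin.last s) : O) - 1)
    J₂ := J₂
    t := tM O ((ℓ (Fin.last s) : O) - 1)
    k := g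
    nz := 3 * (s + 1)
    alg := halg
    D := D
    level := level J₂ hkill }⟩

section Level

variable {𝕋 : Type} [CommRing 𝕋] [Algebra O 𝕋]
  {M0 : Type} [AddCommGroup M0] [Module O M0] {act0 : 𝕋 →ₐ[O] Module.End O M0}
  {k : ℕ} {N : Fin k → ℕ}

/-- a Taylor–Wiles level is torsion-free over a domain (it has an `O`-basis) -/
theorem isTorsionFree_level (L : FreeLevel O 𝕋 M0 act0 k N) : IsTorsionFree O L.M := by
  haveI : Module.Free O L.M := Module.Free.of_basis L.basis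
  infer_instance

/-- a Taylor–Wiles level of positive rank with positive diamond orders is non-zero -/
theorem nontrivial_level (L : FreeLevel O 𝕋 M0 act0 k N) (hd : 0 < L.d) (hN : ∀ i, 0 < N i) :
    Nontrivial L.M := by
  have hne : L.basis (fun i => ⟨0, hN i⟩, ⟨0, hd⟩) ≠ 0 := L.basis.ne_zero _
  exact ⟨⟨_, 0, hne⟩⟩

end Level

section Local

variable {R T : Type*} [CommRing R] [IsLocalRing R] [CommRing T] [IsLocalRing T]

/-- a surjective ring hom of local rings maps the maximal ideal into the maximal ideal -/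
theorem map_mem_maximalIdeal_of_surjective (f : R →+* T) (hf : Function.Surjective f) {r : R}
    (hr : r ∈ maximalIdeal R) : f r ∈ maximalIdeal T := by
  rw [mem_maximalIdeal, mem_nonunits_iff] at hr ⊢
  intro hu
  obtain ⟨t, ht⟩ := hu.exists_right_inv
  obtain ⟨r', rfl⟩ := hf t
  -- `r r' - 1 ∈ ker f ⊆ 𝔪`, so `r r'` is a unit
  have hker : f (r * r' - 1) = 0 := by rw [map_sub, map_mul, ht, map_one, sub_self]
  have hmem : r * r' - 1 ∈ maximalIdeal R := by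
    rw [mem_maximalIdeal, mem_nonunits_iff]
    intro hu'
    have h0 : IsUnit (f (r * r' - 1)) := hu'.map f
    rw [hker] at h0
    exact not_isUnit_zero h0
  have h1 : IsUnit (r * r') := by
    have h2 : IsUnit (1 + (r * r' - 1)) := by
      have h3 : IsUnit (1 - -(r * r' - 1)) :=
        IsLocalRing.isUnit_one_sub_self_of_mem_nonunits _
          ((mem_maximalIdeal _).mp (neg_mem hmem))
      rwa [sub_neg_eq_add] at h3
    rwa [add_sub_cancel] at h2
  exact hr (isUnit_of_mul_isUnit_left h1)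

end Local

/-- **ONE `TWInput` on the multi ring** from the level data. -/
theorem nonempty_TWInput_multi {lam : O} {h : O} (hh : 2 * h = 1) {s g : ℕ}
    (ℓ : Fin (s + 1) → ℕ) {J₂ : Ideal (RM O (s + 1) g)} (hkill : Kill2Handle h ℓ J₂)
    {N : Fin g → ℕ} (hN : ∀ i, 0 < N i) {d : ℕ} (hd : 0 < d)
    {𝕋 : Type} [CommRing 𝕋] [Algebra O 𝕋]
    {M0 : Type} [AddCommGroup M0] [Module O M0] {act0 : 𝕋 →ₐ[O] Module.End O M0}
    {M0χ : Type} [AddCommGroup M0χ] [Module O M0χ] {act0χ : 𝕋 →ₐ[O] Module.End O M0χ}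
    -- B3
    (tw : TWLevelData O lam 𝕋 M0 act0 M0χ act0χ g N) (hd₁ : tw.L1.d = d) (hd₂ : tw.Lχ.d = d)
    -- B4
    (T : Type) [CommRing T] [IsLocalRing T] [Algebra O T] [Module.Finite O T] [IsReduced T]
    (a₁ : T →ₐ[O] Module.End O tw.L1.M) (a₂ : T →ₐ[O] Module.End O tw.Lχ.M)
    (a₁_D : ∀ t i, a₁ t * tw.L1.D i = tw.L1.D i * a₁ t)
    (a₂_D : ∀ t i, a₂ t * tw.Lχ.D i = tw.Lχ.D i * a₂ t)
    (a_U : ∀ (t : T) (x : tw.L1.M) (y : tw.Lχ.M),
      tw.U (Submodule.Quotient.mk x) = Submodule.Quotient.mk y →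
        tw.U (Submodule.Quotient.mk (a₁ t x)) = Submodule.Quotient.mk (a₂ t y))
    -- B2 + B4
    {ζ : Type} [Finite ζ] (e : ζ ≃ Fin (3 * (s + 1))) {RQ : Type} [CommRing RQ] [Algebra O RQ]
    (Θ₀ : RM O (s + 1) g →ₐ[O] MvPowerSeries ζ RQ) (hΘ₀ : Function.Surjective Θ₀)
    (ψ : RQ →ₐ[O] T) (hψ : Function.Surjective ψ)
    -- (P5)
    (x : Fin g → T) (hx : ∀ i, x i - 1 ∈ maximalIdeal T)
    (unit₁ : ∀ i m, ∃ m', tw.L1.D i m - m = a₁ (x i) m' - m')
    (unit₂ : ∀ i m, ∃ m', tw.Lχ.D i m - m = a₂ (x i) m' - m')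
    -- the `T`-level data of `Θ := map ψ ∘ Θ₀`
    (S F : Fin (s + 1) → Matrix (Fin 2) (Fin 2) T)
    (γ γi : Fin (s + 1) → Matrix (Fin 2) (Fin 2) (MvPowerSeries ζ T))
    (hFdet : ∀ v, (F v).det = (ℓ v : T)) (hrel : ∀ v, F v * S v = S v ^ ℓ v * F v)
    (hFres : ∀ v k, tl (algebraMap O T h) (F v) k ∈ maximalIdeal T)
    (hSres : ∀ v k, tl (algebraMap O T h) (S v) k ∈ maximalIdeal T)
    (hγ : ∀ v, γ v * γi v = 1)
    (hΘa : ∀ v k, MvPowerSeries.map (ψ : RQ →+* T) (Θ₀ (aV O v k)) =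
      tl (MvPowerSeries.C (algebraMap O T h)) (γ v * (F v).map MvPowerSeries.C * γi v) k)
    (hΘn : ∀ v k, MvPowerSeries.map (ψ : RQ →+* T) (Θ₀ (nV O v k)) =
      tl (MvPowerSeries.C (algebraMap O T h)) (γ v * (S v).map MvPowerSeries.C * γi v) k)
    (htr : ∀ v, v ≠ Fin.last s → (S v).trace = 2)
    (hSu : ∀ v, v ≠ Fin.last s → (S v - 1) ^ 2 = 0)
    (hSdet : (S (Fin.last s)).det = 1)
    (hres : (S (Fin.last s)).trace - 2 ∈ maximalIdeal T)
    -- B5 at `q`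
    (hnu : ∀ i : Fermat.Agent.GB.Glue.Points.Idx O (Tchi a₂),
      ((S (Fin.last s)).map (phi a₂ i) - 1) ^ 2 = 0 → (S (Fin.last s)).map (phi a₂ i) = 1)
    -- B7
    (he : a₁ ((F (Fin.last s)).trace ^ 2 - (1 + (ℓ (Fin.last s) : T)) ^ 2) = 0) :
    Nonempty (TWInput O lam (RM O (s + 1) g) (J1 s g ((ℓ (Fin.last s) : O) - 1)) J₂ g
      (3 * (s + 1)) N d) := by
  classical
  haveI : IsTorsionFree O tw.Lχ.M := isTorsionFree_level tw.Lχ
  haveI : Nontrivial tw.Lχ.M := nontrivial_level tw.Lχ (hd₂ ▸ hd) hN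
  -- `Θ := map ψ ∘ Θ₀`
  let Θ : RM O (s + 1) g →ₐ[O] MvPowerSeries ζ T := (MvPowerSeries.mapAlgHom ψ).comp Θ₀
  have hΘ_apply : ∀ r, Θ r = MvPowerSeries.map (ψ : RQ →+* T) (Θ₀ r) := fun r => rfl
  have hΘsurj : Function.Surjective Θ :=
    (mvPowerSeries_map_surjective (ψ : RQ →+* T) hψ).comp hΘ₀
  have hcoeff : ∀ r m, MvPowerSeries.coeff m (Θ r) = ψ (MvPowerSeries.coeff m (Θ₀ r)) := by
    intro r m
    rw [hΘ_apply, MvPowerSeries.coeff_map]
    rfl
  have hΘx : ∀ j, Θ (xV O j) ∈ maximalIdeal (MvPowerSeries ζ T) := fun j =>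
    map_mem_maximalIdeal_of_surjective (Θ : RM O (s + 1) g →+* MvPowerSeries ζ T) hΘsurj
      (xV_mem O j)
  -- the two killing fields for `Θ`
  have hk₂ : ∀ r ∈ J₂, ∀ n, a₂ (MvPowerSeries.coeff n (Θ r)) = 0 :=
    hkill T tw.Lχ.M a₂ ζ Θ S F γ γi hFdet hrel hFres hSres hγ
      (fun v k => by rw [hΘ_apply]; exact hΘa v k) (fun v k => by rw [hΘ_apply]; exact hΘn v k)
      hΘx htr hSu hSdet hres hnu
  have hk₁ : ∀ r ∈ J1 s g ((ℓ (Fin.last s) : O) - 1), ∀ n,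
      a₁ (MvPowerSeries.coeff n (Θ r)) = 0 :=
    Fermat.Agent.GB.Local.Multi.Kill1Multi.kill₁_J1 Θ (F (Fin.last s)) (hFdet _) hh (hγ _)
      (fun k => by rw [hΘ_apply]; exact hΘa _ k) a₁ he
  exact nonempty_TWInput_of_surjective tw hd₁ hd₂ T a₁ a₂ a₁_D a₂_D a_U e Θ₀ hΘ₀ ψ hψ x hx
    unit₁ unit₂ (fun r hr m => by rw [← hcoeff]; exact hk₁ r hr m)
    (fun r hr m => by rw [← hcoeff]; exact hk₂ r hr m)

end Fermat.Agent.GB.B9.LevelMulti
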