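/-
GATE-B (Ribet level lowering, S38/S43) / B9, node GB-B9-THETA-T (helper4): **the framing identities
of `Θ` at the level of `T = T_Q`** — item (b) of helper59's `kill₂_R5` (board 6115) and the
`Θ₀`-side of helper55's `Provider.nonempty_TWInput_of_surjective`.

Input: the OUTPUT of `FrameThetaInst.MultiP6ThetaConcl` at the index `I := Fin (s + 1)`:
`Ψ : RM 𝒪 (s + 1) r →ₐ[𝒪] FRing DQ Fr` (helper54's flat ring IS the source of `Ψ`), its values
on the variables (`ABig.coords`), the tame pairs and the tame relations over `R_Q^□ = FRing DQ Fr`;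
and ANY local `𝒪`-algebra `T` with a local `𝒪`-algebra hom `ψ : DQ.R → T` (`helper12`'s
`PsiTQ.exists_psi`).

Output, with `Θ := thetaT ψ Ψ = (MvPowerSeries.mapAlgHom ψ).comp Ψ : RM 𝒪 (s+1) r → T⟦Fr × Fin 3⟧`,
`F v := matT ψ (φ v)`, `S v := matT ψ (τ₀ v)` (`matT ψ σ = (univMat DQ σ).map ψ`, the matrices of
`ρ_Q = DQ.ρ ⊗_ψ T`), `γ v := Frame.gMat (pl v)`, `γi v := (γ v)⁻¹`, `ℓ v := (d v).q`:

* `package` : `hFdet hrel hFres hSres hγ hΘa hΘn hΘx hSdet hres` in the spelling of `kill₂_R5`;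
* `thetaT_surjective`, `coeff_thetaT` (`coeff m (Θ x) = ψ (coeff m (Ψ x))`: the kill-binders of
  `nonempty_TWInput_of_surjective` are those of `kill₂_R5`);
* `unip_matT` : `ρ_Q ≃ ρ'`, `charpoly ρ'(τ) = (X - 1)²` ⟹ `tr S = 2`, `det S = 1`, `(S - 1)² = 0`
  (`htr`, `hSu` of `kill₂_R5` from an `IsUnipotentOnInertiaAt` export over `T_Q`).
-/
import Mathlib
import Fermat.Agent.GB.Def.FrameThetaInst
import Fermat.Agent.GB.Local.Multi.Family

set_option autoImplicit false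
set_option linter.unusedSectionVars false
set_option linter.unusedVariables false
set_option linter.style.haveILetI false

namespace Fermat.Agent.GB.B9.ThetaT

open IsLocalRing MvPowerSeries Matrix
open Fermat.Agent.S53_helper35 Fermat.Agent.GP.Tan.Linear
open Fermat.Agent.GB.Def.FramedRing Fermat.Agent.GB.Def.Frame Fermat.Agent.GB.Def.FrameRep
open Fermat.Agent.GB.Local Fermat.Agent.GB.Local.ABig Fermat.Agent.GB.Local.Multi

noncomputable section

/-! ### generic lemmas -/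

section Generic

variable {D E : Type*} [CommRing D] [CommRing E]

/-- `TamePoint.tl` commutes with ring homomorphisms -/
theorem map_tamePoint_tl (f : D →+* E) (h : D) (M : Matrix (Fin 2) (Fin 2) D) (k : Fin 3) :
    f (TamePoint.tl h M k) = TamePoint.tl (f h) (M.map f) k := by
  fin_cases k
  · show f (h * (M 0 0 - M 1 1)) = f h * (M.map f 0 0 - M.map f 1 1)
    rw [map_mul, map_sub, Matrix.map_apply, Matrix.map_apply]
  · rfl
  · rfl

/-- entries in an ideal give traceless coordinates in the ideal -/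
theorem tamePoint_tl_mem {I : Ideal D} (h u : D) (M : Matrix (Fin 2) (Fin 2) D)
    (hM : ∀ i j, (M - u • (1 : Matrix (Fin 2) (Fin 2) D)) i j ∈ I) (k : Fin 3) :
    TamePoint.tl h M k ∈ I := by
  have h00 := hM 0 0
  have h11 := hM 1 1
  have h01 := hM 0 1
  have h10 := hM 1 0
  simp only [Matrix.sub_apply, Matrix.smul_apply, Matrix.one_apply_eq, smul_eq_mul, mul_one,
    Matrix.one_apply_ne (by decide : (0 : Fin 2) ≠ 1),
    Matrix.one_apply_ne (by decide : (1 : Fin 2) ≠ 0), mul_zero, sub_zero] at h00 h11 h01 h10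
  fin_cases k
  · show h * (M 0 0 - M 1 1) ∈ I
    have e : M 0 0 - M 1 1 = (M 0 0 - u) - (M 1 1 - u) := by ring
    rw [e]
    exact Ideal.mul_mem_left _ _ (sub_mem h00 h11)
  · exact h01
  · exact h10

end Generic

section Half

variable {𝒪 : Type*} [CommRing 𝒪] [IsLocalRing 𝒪] [IsNoetherianRing 𝒪]
  [IsAdicComplete (maximalIdeal 𝒪) 𝒪]

/-- `1/2` is unique -/
theorem half_eq (d : TameDatum 𝒪) {h : 𝒪} (hh : 2 * h = 1) : d.half = h := by
  have h1 := d.two_mul_half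
  calc d.half = d.half * (2 * h) := by rw [hh, mul_one]
    _ = (2 * d.half) * h := by ring
    _ = h := by rw [h1, one_mul]

variable {B : Type*} [CommRing B] [IsLocalRing B] [Algebra 𝒪 B]

theorem coords_castAdd (d : TameDatum 𝒪) (Φ Sg : Matrix (Fin 2) (Fin 2) B) (k : Fin 3) :
    coords d Φ Sg (Fin.castAdd 3 k) = TamePoint.tl (halfB d B) Φ k := by
  fin_cases k <;> rfl

theorem coords_natAdd (d : TameDatum 𝒪) (Φ Sg : Matrix (Fin 2) (Fin 2) B) (k : Fin 3) :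
    coords d Φ Sg (Fin.natAdd 3 k) = TamePoint.tl (halfB d B) Sg k := by
  fin_cases k <;> rfl

end Half

/-! ### the push to `T` -/

variable {𝒪 : Type} [CommRing 𝒪] [IsDomain 𝒪] [IsDiscreteValuationRing 𝒪]
  [IsAdicComplete (maximalIdeal 𝒪) 𝒪]
  {ρbar : ResidualGaloisRep (ResidueField 𝒪)}
  {𝒟 : ∀ ⦃A : Type⦄ [CommRing A] [IsLocalRing A] [Algebra 𝒪 A], GaloisRepAdic A → Prop}
  {DQ : GaloisRep.DeformationRingData 𝒪 ρbar 𝒟}
  {Fr : Type} [Finite Fr]
  {T : Type} [CommRing T] [IsLocalRing T] [Algebra 𝒪 T]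
  (ψ : DQ.R →ₐ[𝒪] T)

/-- **the matrices of `ρ_Q = DQ.ρ ⊗_ψ T`** in the pushed standard basis -/
def matT (σ : GQ) : Matrix (Fin 2) (Fin 2) T := (univMat DQ σ).map ψ

theorem matT_mul (σ τ : GQ) : matT ψ (σ * τ) = matT ψ σ * matT ψ τ := by
  rw [matT, matT, matT, map_mul, Matrix.map_mul]

theorem matT_one : matT ψ (1 : GQ) = 1 := by
  rw [matT, map_one]
  exact (RingHom.mapMatrix (ψ : DQ.R →+* T)).map_one

theorem matT_pow (σ : GQ) (n : ℕ) : matT ψ (σ ^ n) = matT ψ σ ^ n := by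
  induction n with
  | zero => rw [pow_zero, pow_zero, matT_one]
  | succ n ih => rw [pow_succ, pow_succ, matT_mul, ih]

/-- **`Θ`** : the push of `Ψ : 𝒪⟦J⟧ → R_Q^□ = R_Q⟦Fr × Fin 3⟧` along `ψ : R_Q → T` -/
def thetaT {J : Type} (Ψ : MvPowerSeries J 𝒪 →ₐ[𝒪] FRing DQ Fr) :
    MvPowerSeries J 𝒪 →ₐ[𝒪] MvPowerSeries (Fr × Fin 3) T :=
  (MvPowerSeries.mapAlgHom ψ).comp Ψ

theorem thetaT_apply {J : Type} (Ψ : MvPowerSeries J 𝒪 →ₐ[𝒪] FRing DQ Fr)
    (x : MvPowerSeries J 𝒪) :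
    thetaT ψ Ψ x = MvPowerSeries.map (ψ : DQ.R →+* T) (Ψ x) := rfl

/-- the coefficients of `Θ x` are the `ψ`-images of the coefficients of `Ψ x` -/
theorem coeff_thetaT {J : Type} (Ψ : MvPowerSeries J 𝒪 →ₐ[𝒪] FRing DQ Fr)
    (x : MvPowerSeries J 𝒪) (m : Fr × Fin 3 →₀ ℕ) :
    MvPowerSeries.coeff m (thetaT ψ Ψ x) = ψ (MvPowerSeries.coeff m (Ψ x)) := by
  rw [thetaT_apply, MvPowerSeries.coeff_map]
  rfl

theorem thetaT_surjective {J : Type} (Ψ : MvPowerSeries J 𝒪 →ₐ[𝒪] FRing DQ Fr)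
    (hΨ : Function.Surjective Ψ) (hψ : Function.Surjective ψ) :
    Function.Surjective (thetaT ψ Ψ) := by
  have h2 : Function.Surjective (MvPowerSeries.map (σ := Fr × Fin 3) (ψ : DQ.R →+* T)) := by
    intro f
    choose g hg using hψ
    let f' : MvPowerSeries (Fr × Fin 3) DQ.R := fun m => g (MvPowerSeries.coeff m f)
    have hf' : ∀ m, MvPowerSeries.coeff m f' = g (MvPowerSeries.coeff m f) := fun m => rfl
    refine ⟨f', ?_⟩
    ext m
    rw [MvPowerSeries.coeff_map, hf']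
    exact hg _
  intro f
  obtain ⟨y, hy⟩ := h2 f
  obtain ⟨x, hx⟩ := hΨ y
  exact ⟨x, by rw [thetaT_apply, hx, hy]⟩

/-- the framed universal matrices push to the framed forms of the matrices over `T` -/
theorem map_framedMat (v : Fr) (σ : GQ) :
    (framedMat DQ Fr v σ).map (MvPowerSeries.map (ψ : DQ.R →+* T)) =
      gMat v * (matT ψ σ).map (C : T →+* MvPowerSeries (Fr × Fin 3) T) * (gMat v)⁻¹ := by
  rw [framedMat_eq_frame, frame_map, frame_apply]
  rfl

/-- **`hΘa` / `hΘn` for one element** -/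
theorem thetaT_eq_tl {J : Type} (Ψ : MvPowerSeries J 𝒪 →ₐ[𝒪] FRing DQ Fr) (v : Fr) (σ : GQ)
    (h : 𝒪) (k : Fin 3) (x : MvPowerSeries J 𝒪)
    (hx : Ψ x = TamePoint.tl (algebraMap 𝒪 (FRing DQ Fr) h) (framedMat DQ Fr v σ) k) :
    thetaT ψ Ψ x = TamePoint.tl (C (algebraMap 𝒪 T h))
      (gMat v * (matT ψ σ).map (C : T →+* MvPowerSeries (Fr × Fin 3) T) * (gMat v)⁻¹) k := by
  rw [thetaT_apply, hx, map_tamePoint_tl, map_framedMat]
  congr 1
  rw [MvPowerSeries.algebraMap_apply, MvPowerSeries.map_C]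
  congr 1
  exact ψ.commutes h

/-- the constant coefficients of the framed universal matrices -/
theorem map_constantCoeff_framedMat (v : Fr) (σ : GQ) :
    (framedMat DQ Fr v σ).map (constantCoeff : FRing DQ Fr →+* DQ.R) = univMat DQ σ := by
  rw [framedMat_eq_frame]
  exact map_constantCoeff_frame v (univMat DQ σ)

/-- determinants descend -/
theorem det_matT_of_framed (v : Fr) (σ : GQ) (n : ℕ)
    (h : (framedMat DQ Fr v σ).det = (n : FRing DQ Fr)) : (matT ψ σ).det = (n : T) := by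
  have h1 : (univMat DQ σ).det = (n : DQ.R) := by
    have h2 := congrArg (constantCoeff : FRing DQ Fr →+* DQ.R) h
    rw [RingHom.map_det, RingHom.mapMatrix_apply, map_constantCoeff_framedMat, map_natCast] at h2
    exact h2
  have h3 := congrArg (ψ : DQ.R →+* T) h1
  rw [RingHom.map_det, RingHom.mapMatrix_apply, map_natCast] at h3
  exact h3

/-- the tame relation descends -/
theorem rel_matT_of_framed (v : Fr) (σ τ : GQ) (n : ℕ)
    (h : framedMat DQ Fr v σ * framedMat DQ Fr v τ =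
      framedMat DQ Fr v τ ^ n * framedMat DQ Fr v σ) :
    matT ψ σ * matT ψ τ = matT ψ τ ^ n * matT ψ σ := by
  have h1 : univMat DQ σ * univMat DQ τ = univMat DQ τ ^ n * univMat DQ σ := by
    have h2 := congrArg (RingHom.mapMatrix (constantCoeff : FRing DQ Fr →+* DQ.R)) h
    rw [map_mul, map_mul, map_pow] at h2
    simp only [RingHom.mapMatrix_apply, map_constantCoeff_framedMat] at h2
    exact h2
  have h3 := congrArg (RingHom.mapMatrix (ψ : DQ.R →+* T)) h1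
  rw [map_mul, map_mul, map_pow] at h3
  exact h3

/-- residual scalarity descends -/
theorem sub_smul_matT_mem (hψ : IsLocalHom (ψ : DQ.R →+* T)) (v : Fr) (σ : GQ) (u : 𝒪)
    (h : ∀ i j, (framedMat DQ Fr v σ -
      algebraMap 𝒪 (FRing DQ Fr) u • (1 : Matrix (Fin 2) (Fin 2) (FRing DQ Fr))) i j ∈
        maximalIdeal (FRing DQ Fr)) (i j : Fin 2) :
    (matT ψ σ - algebraMap 𝒪 T u • (1 : Matrix (Fin 2) (Fin 2) T)) i j ∈ maximalIdeal T := by
  have h1 : (univMat DQ σ - algebraMap 𝒪 DQ.R u • (1 : Matrix (Fin 2) (Fin 2) DQ.R)) i j ∈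
      maximalIdeal DQ.R := by
    have h2 := (Fermat.Agent.S53.PSC.mem_maximalIdeal_iff DQ.R (Fr × Fin 3) _).mp (h i j)
    have e : constantCoeff ((framedMat DQ Fr v σ -
        algebraMap 𝒪 (FRing DQ Fr) u • (1 : Matrix (Fin 2) (Fin 2) (FRing DQ Fr))) i j) =
        (univMat DQ σ - algebraMap 𝒪 DQ.R u • (1 : Matrix (Fin 2) (Fin 2) DQ.R)) i j := by
      rw [← map_constantCoeff_framedMat (Fr := Fr) v σ]
      simp only [Matrix.sub_apply, Matrix.smul_apply, Matrix.map_apply, smul_eq_mul, map_sub,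
        map_mul, MvPowerSeries.algebraMap_apply, constantCoeff_C]
      by_cases hij : i = j
      · subst hij
        simp
      · simp [Matrix.one_apply_ne hij]
    rw [e] at h2
    exact h2
  have h3 : (ψ : DQ.R →+* T)
      ((univMat DQ σ - algebraMap 𝒪 DQ.R u • (1 : Matrix (Fin 2) (Fin 2) DQ.R)) i j) ∈
      maximalIdeal T := by
    haveI := hψ
    exact map_nonunit (ψ : DQ.R →+* T) _ h1
  have e : (ψ : DQ.R →+* T)
      ((univMat DQ σ - algebraMap 𝒪 DQ.R u • (1 : Matrix (Fin 2) (Fin 2) DQ.R)) i j) =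
      (matT ψ σ - algebraMap 𝒪 T u • (1 : Matrix (Fin 2) (Fin 2) T)) i j := by
    simp only [Matrix.sub_apply, Matrix.smul_apply, smul_eq_mul, map_sub, map_mul, matT,
      Matrix.map_apply]
    have hc : (ψ : DQ.R →+* T) (algebraMap 𝒪 DQ.R u) = algebraMap 𝒪 T u := ψ.commutes u
    rw [hc]
    by_cases hij : i = j
    · subst hij
      simp
    · simp [Matrix.one_apply_ne hij]
  rw [e] at h3
  exact h3

/-- a surjective `Ψ` maps the maximal ideal into the maximal ideal, also after the push -/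
theorem thetaT_mem {J : Type} [Finite J] (Ψ : MvPowerSeries J 𝒪 →ₐ[𝒪] FRing DQ Fr)
    (hΨ : Function.Surjective Ψ) (hψ : IsLocalHom (ψ : DQ.R →+* T)) (j : J) :
    thetaT ψ Ψ (X j) ∈ maximalIdeal (MvPowerSeries (Fr × Fin 3) T) := by
  have hloc : IsLocalHom (Ψ : MvPowerSeries J 𝒪 →+* FRing DQ Fr) :=
    isLocalHom_of_surjective (Ψ : MvPowerSeries J 𝒪 →+* FRing DQ Fr) hΨ
  have h1 : Ψ (X j) ∈ maximalIdeal (FRing DQ Fr) := by
    haveI := hloc
    exact map_nonunit (Ψ : MvPowerSeries J 𝒪 →+* FRing DQ Fr) _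
      (Fermat.Agent.S53.PSC.X_mem 𝒪 J j)
  have h2 := (Fermat.Agent.S53.PSC.mem_maximalIdeal_iff DQ.R (Fr × Fin 3) _).mp h1
  rw [Fermat.Agent.S53.PSC.mem_maximalIdeal_iff, thetaT_apply]
  have e : constantCoeff (MvPowerSeries.map (ψ : DQ.R →+* T) (Ψ (X j))) =
      (ψ : DQ.R →+* T) (constantCoeff (Ψ (X j))) := by
    rw [← MvPowerSeries.coeff_zero_eq_constantCoeff_apply, MvPowerSeries.coeff_map,
      MvPowerSeries.coeff_zero_eq_constantCoeff_apply]
  rw [e]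
  haveI := hψ
  exact map_nonunit (ψ : DQ.R →+* T) _ h2

/-! ### the package -/

section Package

variable {s r : ℕ} (pl : Fin (s + 1) → Fr) (d : Fin (s + 1) → TameDatum 𝒪)
  (φ τ₀ : Fin (s + 1) → GQ) (Ψ : RM 𝒪 (s + 1) r →ₐ[𝒪] FRing DQ Fr)

/-- **the `T`-level framing identities** — the binders `hFdet hrel hFres hSres hγ hΘa hΘn hΘx hSdet
hres` of helper59's `Kill2R5.kill₂_R5` for `Θ := thetaT ψ Ψ`, `σ := Fr × Fin 3`,
`F v := matT ψ (φ v)`, `S v := matT ψ (τ₀ v)`, `γ v := gMat (pl v)`, `γi v := (gMat (pl v))⁻¹`,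
`ℓ v := (d v).q`, from the output of `FrameThetaInst.MultiP6ThetaConcl` at `I := Fin (s + 1)`. -/
theorem package (hΨ : Function.Surjective Ψ)
    (hcoords : ∀ i t, Ψ (X (Sum.inl (i, t))) =
      coords (d i) (framedMat DQ Fr (pl i) (φ i)) (framedMat DQ Fr (pl i) (τ₀ i)) t)
    (hpair : ∀ i, IsTamePair (d i) (framedMat DQ Fr (pl i) (φ i))
      (framedMat DQ Fr (pl i) (τ₀ i)))
    (hrel : ∀ i, framedMat DQ Fr (pl i) (φ i) * framedMat DQ Fr (pl i) (τ₀ i) =
      framedMat DQ Fr (pl i) (τ₀ i) ^ (d i).q * framedMat DQ Fr (pl i) (φ i))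
    (hψ : IsLocalHom (ψ : DQ.R →+* T)) {h : 𝒪} (hh : 2 * h = 1) :
    (∀ v, (matT ψ (φ v)).det = (((d v).q : ℕ) : T)) ∧
    (∀ v, matT ψ (φ v) * matT ψ (τ₀ v) = matT ψ (τ₀ v) ^ (d v).q * matT ψ (φ v)) ∧
    (∀ v k, TamePoint.tl (algebraMap 𝒪 T h) (matT ψ (φ v)) k ∈ maximalIdeal T) ∧
    (∀ v k, TamePoint.tl (algebraMap 𝒪 T h) (matT ψ (τ₀ v)) k ∈ maximalIdeal T) ∧
    (∀ v, (gMat (pl v) : Matrix (Fin 2) (Fin 2) (MvPowerSeries (Fr × Fin 3) T)) *
      (gMat (pl v))⁻¹ = 1) ∧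
    (∀ v k, thetaT ψ Ψ (aV 𝒪 v k) = TamePoint.tl (C (algebraMap 𝒪 T h))
      (gMat (pl v) * (matT ψ (φ v)).map (C : T →+* MvPowerSeries (Fr × Fin 3) T) *
        (gMat (pl v))⁻¹) k) ∧
    (∀ v k, thetaT ψ Ψ (nV 𝒪 v k) = TamePoint.tl (C (algebraMap 𝒪 T h))
      (gMat (pl v) * (matT ψ (τ₀ v)).map (C : T →+* MvPowerSeries (Fr × Fin 3) T) *
        (gMat (pl v))⁻¹) k) ∧
    (∀ j, thetaT ψ Ψ (xV 𝒪 j) ∈ maximalIdeal (MvPowerSeries (Fr × Fin 3) T)) ∧
    (∀ v, (matT ψ (τ₀ v)).det = 1) ∧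
    (∀ v, (matT ψ (τ₀ v)).trace - 2 ∈ maximalIdeal T) := by
  have hhalf : ∀ v, halfB (d v) (FRing DQ Fr) = algebraMap 𝒪 (FRing DQ Fr) h := fun v => by
    rw [halfB, half_eq (d v) hh]
  refine ⟨fun v => ?_, fun v => ?_, fun v k => ?_, fun v k => ?_, fun v => gMat_mul_inv _,
    fun v k => ?_, fun v k => ?_, fun j => thetaT_mem ψ Ψ hΨ hψ _, fun v => ?_, fun v => ?_⟩
  · exact det_matT_of_framed ψ (pl v) (φ v) _ (hpair v).detΦ
  · exact rel_matT_of_framed ψ (pl v) (φ v) (τ₀ v) _ (hrel v)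
  · exact tamePoint_tl_mem _ (algebraMap 𝒪 T (d v).u) _
      (sub_smul_matT_mem ψ hψ (pl v) (φ v) (d v).u (hpair v).resΦ) k
  · refine tamePoint_tl_mem _ (algebraMap 𝒪 T 1) _ (fun i j => ?_) k
    refine sub_smul_matT_mem ψ hψ (pl v) (τ₀ v) 1 (fun i j => ?_) i j
    have := (hpair v).resS i j
    rwa [map_one, one_smul]
  · refine thetaT_eq_tl ψ Ψ (pl v) (φ v) h k _ ?_
    rw [aV, hcoords, coords_castAdd, hhalf]
  · refine thetaT_eq_tl ψ Ψ (pl v) (τ₀ v) h k _ ?_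
    rw [nV, hcoords, coords_natAdd, hhalf]
  · have h1 : (framedMat DQ Fr (pl v) (τ₀ v)).det = ((1 : ℕ) : FRing DQ Fr) := by
      rw [(hpair v).detS, Nat.cast_one]
    have := det_matT_of_framed ψ (pl v) (τ₀ v) 1 h1
    rwa [Nat.cast_one] at this
  · have h1 := sub_smul_matT_mem ψ hψ (pl v) (τ₀ v) 1 (fun i j => by
      have := (hpair v).resS i j
      rwa [map_one, one_smul]) 
    have h00 := h1 0 0
    have h11 := h1 1 1
    simp only [map_one, one_smul, Matrix.sub_apply, Matrix.one_apply_eq] at h00 h11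
    have e : (matT ψ (τ₀ v)).trace - 2 =
        (matT ψ (τ₀ v) 0 0 - 1) + (matT ψ (τ₀ v) 1 1 - 1) := by
      rw [Matrix.trace_fin_two]; ring
    rw [e]
    exact add_mem h00 h11

end Package

/-! ### unipotent inertia over `T` -/

section Unip

/-- the characteristic polynomial of `matT ψ σ` is the one of `ρ_Q(σ)` -/
theorem charpoly_matT (hψ : IsLocalHom (ψ : DQ.R →+* T)) (σ : GQ) :
    (matT ψ σ).charpoly =
      LinearMap.charpoly ((DQ.ρ.baseChangeAlong (ψ : DQ.R →+* T) hψ).ρ σ) := by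
  have h1 := congrFun (congrArg DFunLike.coe
    (toMat_baseChangeAlong (ψ : DQ.R →+* T) hψ DQ.ρ (stdBasis DQ.ρ))) σ
  rw [mapMat_apply, toMat_apply] at h1
  have h2 : matT ψ σ = (toMat DQ.ρ (stdBasis DQ.ρ) σ).map (ψ : DQ.R →+* T) := rfl
  rw [h2, ← h1, LinearMap.charpoly_toMatrix]

/-- **`htr` / `hSu` of `kill₂_R5`**: if `ρ_Q = DQ.ρ ⊗_ψ T` is equivalent to `ρ'` and `ρ'(τ)` has
characteristic polynomial `(X - 1)²`, then `matT ψ τ` has trace `2`, determinant `1` and is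
unipotent. -/
theorem unip_matT (hψ : IsLocalHom (ψ : DQ.R →+* T)) (ρ' : GaloisRepAdic T)
    (he : (DQ.ρ.baseChangeAlong (ψ : DQ.R →+* T) hψ).IsEquiv ρ') (τ : GQ)
    (hc : LinearMap.charpoly (ρ'.ρ τ) = (Polynomial.X - 1) ^ 2) :
    (matT ψ τ).trace = 2 ∧ (matT ψ τ).det = 1 ∧ (matT ψ τ - 1) ^ 2 = 0 := by
  have h1 : (matT ψ τ).charpoly = (Polynomial.X - 1) ^ 2 := by
    rw [charpoly_matT ψ hψ, charpoly_eq_of_isEquiv he, hc]
  have h2 := Matrix.charpoly_fin_two (matT ψ τ)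
  rw [h1] at h2
  have e : ((Polynomial.X : Polynomial T) - 1) ^ 2 =
      Polynomial.X ^ 2 - Polynomial.C 2 * Polynomial.X + Polynomial.C 1 := by
    rw [map_ofNat, map_one]; ring
  rw [e] at h2
  have htr : (matT ψ τ).trace = 2 := by
    have := congrArg (fun f => Polynomial.coeff f 1) h2
    simp only [Polynomial.coeff_add, Polynomial.coeff_sub, Polynomial.coeff_X_pow,
      Polynomial.coeff_C_mul, Polynomial.coeff_X_one, Polynomial.coeff_C] at this
    norm_num at this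
    exact this.symm
  have hdet : (matT ψ τ).det = 1 := by
    have := congrArg (fun f => Polynomial.coeff f 0) h2
    simp only [Polynomial.coeff_add, Polynomial.coeff_sub, Polynomial.coeff_X_pow,
      Polynomial.coeff_C_mul, Polynomial.coeff_X_zero, Polynomial.coeff_C_zero] at this
    norm_num at this
    exact this.symm
  refine ⟨htr, hdet, ?_⟩
  have h3 := Matrix.aeval_self_charpoly (matT ψ τ)
  rw [h1] at h3
  simpa using h3

/-- the same from `IsUnipotentOnInertiaAt` and an inertia element at the canonical place -/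
theorem unip_matT_of_isUnipotentOnInertiaAt (hψ : IsLocalHom (ψ : DQ.R →+* T))
    (ρ' : GaloisRepAdic T)
    (he : (DQ.ρ.baseChangeAlong (ψ : DQ.R →+* T) hψ).IsEquiv ρ') {ℓ : ℕ}
    (hu : ρ'.IsUnipotentOnInertiaAt ℓ) (P : ValuationSubring (AlgebraicClosure ℚ))
    (hP : P.LiesOverPrime ℓ) (τ : GQ) (hτ : τ ∈ P.inertiaSubgroupIn ℚ) :
    (matT ψ τ).trace = 2 ∧ (matT ψ τ).det = 1 ∧ (matT ψ τ - 1) ^ 2 = 0 :=
  unip_matT ψ hψ ρ' he τ (hu P hP τ hτ)

end Unip

end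

end Fermat.Agent.GB.B9.ThetaT
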