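/-
GATE-B / B9 (P1) under RULING R5 (helper51): the `AlgHyp` field of helper55's `TWSystem`
(GB/B9/System.lean) for SEVERAL framed primes, from `R5.exists_package`
(GB/Local/Multi/R5Build.lean).

  `R := RM O (s + 1) g = O⟦(a_v, n_v) : v ≤ s ; x₁..x_g⟧` (flat), `G := Filt.G1` (helper14),
  `lamR := algebraMap O R lam`, `t := tM O d = 4 Q(a_q) − d²`, `J₁ := (t)`, and an ideal `J₂` with
  `AlgHyp … G J₁ J₂ t` for ANY `S` of Krull dimension `1 + 3 (s + 1) + g`
  (`S = SRing O g (3 (s + 1))` over a one-dimensional `O`), together with the kill₂-criterion: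
  every point of `R` all of whose blocks are points of allowed chart types kills `J₂`.
-/
import Fermat.Agent.GB.B9.Skeleton
import Fermat.Agent.GB.B9.Level
import Fermat.Agent.GB.Local.Multi.R5Build
import Fermat.Agent.GB.Local.Multi.Filt

set_option autoImplicit false
set_option linter.unusedSectionVars false

open IsLocalRing MvPowerSeries

namespace Fermat.Agent.GB.B9.AlgHypMulti

open Fermat.Agent.GB.Local.Multi Fermat.Agent.GB.Local.Multi.R5 Fermat.Agent.GB.PatchSupp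
  Fermat.Agent.GB.Alg

variable {O : Type} [CommRing O] [IsLocalRing O] [IsNoetherianRing O]
  [IsAdicComplete (maximalIdeal O) O] [IsDomain O]

theorem algebraMap_RM (s g : ℕ) (r : O) : algebraMap O (RM O s g) r = C r := by
  rw [MvPowerSeries.algebraMap_apply, Algebra.algebraMap_self_apply]

/-- the ideal `J₁ = (t)` -/
noncomputable def J1 (s g : ℕ) (d : O) : Ideal (RM O (s + 1) g) := Ideal.span {tM O d}

theorem t_mem_J1 (s g : ℕ) (d : O) : tM O d ∈ J1 (O := O) s g d :=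
  Ideal.mem_span_singleton_self _

/-- **`AlgHyp` for several framed primes (RULING R5)**, `S` any ring of Krull dimension
`1 + 3 (s + 1) + g`; with the kill₂-criterion for the ideal `J₂` produced. -/
theorem exists_algHyp {lam : O} (hmax : maximalIdeal O = Ideal.span {lam})
    (hO : ringKrullDim O = 1) {h0 : O} (hh : 2 * h0 = 1) {s g : ℕ}
    (𝒯 : Fin (s + 1) → Finset (Ty O)) (hne : ∀ v, (𝒯 v).Nonempty)
    (hadm : ∀ v, ∀ t ∈ 𝒯 v, lam ∣ const t)
    (hlast : ∀ t ∈ 𝒯 (Fin.last s), ∃ o : Option O, t = Sum.inl o ∧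
      ∀ c, o = some c → lam ∈ (Ideal.span {c}).radical)
    {d : O} (hd : d ∈ Ideal.span {lam}) {S : Type} [CommRing S] (lamS : S)
    (hS : ringKrullDim S = ((1 + 3 * (s + 1) + g : ℕ) : WithBot ℕ∞)) :
    ∃ J₂ : Ideal (RM O (s + 1) g),
      AlgHyp (R := RM O (s + 1) g) (S := S) (algebraMap O (RM O (s + 1) g) lam) lamS
        (Filt.G1 O (Idx (s + 1) g)) (J1 s g d) J₂ (tM O d) ∧
      ∀ (A : Type) [CommRing A] [IsLocalRing A] [Algebra O A]
        [IsAdicComplete (maximalIdeal A) A] (θ : RM O (s + 1) g →ₐ[O] A),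
        (∀ v, ∃ t ∈ 𝒯 v, (spec O).pred t A (fun i => θ (aV O v i)) (fun i => θ (nV O v i))) →
        (∀ j, θ (xV O j) ∈ maximalIdeal A) → J₂ ≤ RingHom.ker θ := by
  obtain ⟨J₂, hdim, hPk, hkill⟩ := exists_package (g := g) hmax hO hh 𝒯 hne hadm hlast hd
  refine ⟨J₂, ?_, hkill⟩
  exact
    { hG := Filt.G1_cofinal O (Idx (s + 1) g)
      ht := t_mem_J1 s g d
      hdim := by rw [hS]; exact hdim
      hfin := by
        rw [hS]
        intro h
        have h1 : (((1 + 3 * (s + 1) + g : ℕ) : ℕ∞) : WithBot ℕ∞) = ((⊤ : ℕ∞) : WithBot ℕ∞) := h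
        exact ENat.natCast_ne_top _ (WithBot.coe_injective h1)
      hP := fun P hP _ => by
        rw [algebraMap_RM]
        exact hPk P hP }

/-- the dimension of `S = O⟦y₁..y_g, z₁..z_{3(s+1)}⟧` over a one-dimensional `O` -/
theorem ringKrullDim_SRing (hO : ringKrullDim O = 1) (s g : ℕ) :
    ringKrullDim (SRing O g (3 * (s + 1))) = ((1 + 3 * (s + 1) + g : ℕ) : WithBot ℕ∞) := by
  show ringKrullDim (MvPowerSeries (Fin (g + 3 * (s + 1))) O) = _
  rw [PSDim.ringKrullDim_mvPowerSeries_fin, hO]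
  push_cast
  ring

/-- the filtration of `R` has finite quotients -/
theorem finite_quotient_G1 [Finite (ResidueField O)] (s g n : ℕ) :
    Finite (RM O (s + 1) g ⧸ (Filt.G1 O (Idx (s + 1) g)).c n) :=
  inferInstance

/-- **the `alg` field of `TWSystem`** at `k := g`, `nz := 3 (s + 1)`, `ϖ := lam` -/
theorem exists_algHyp_SRing {lam : O} (hmax : maximalIdeal O = Ideal.span {lam})
    (hO : ringKrullDim O = 1) {h0 : O} (hh : 2 * h0 = 1) {s g : ℕ}
    (𝒯 : Fin (s + 1) → Finset (Ty O)) (hne : ∀ v, (𝒯 v).Nonempty)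
    (hadm : ∀ v, ∀ t ∈ 𝒯 v, lam ∣ const t)
    (hlast : ∀ t ∈ 𝒯 (Fin.last s), ∃ o : Option O, t = Sum.inl o ∧
      ∀ c, o = some c → lam ∈ (Ideal.span {c}).radical)
    {d : O} (hd : d ∈ Ideal.span {lam}) :
    ∃ J₂ : Ideal (RM O (s + 1) g),
      AlgHyp (R := RM O (s + 1) g) (S := SRing O g (3 * (s + 1)))
        (algebraMap O (RM O (s + 1) g) lam) (C lam)
        (Filt.G1 O (Idx (s + 1) g)) (J1 s g d) J₂ (tM O d) ∧
      ∀ (A : Type) [CommRing A] [IsLocalRing A] [Algebra O A]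
        [IsAdicComplete (maximalIdeal A) A] (θ : RM O (s + 1) g →ₐ[O] A),
        (∀ v, ∃ t ∈ 𝒯 v, (spec O).pred t A (fun i => θ (aV O v i)) (fun i => θ (nV O v i))) →
        (∀ j, θ (xV O j) ∈ maximalIdeal A) → J₂ ≤ RingHom.ker θ :=
  exists_algHyp hmax hO hh 𝒯 hne hadm hlast hd (C lam) (ringKrullDim_SRing hO s g)

end Fermat.Agent.GB.B9.AlgHypMulti
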