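/-
GATE-B / B9 (helper54): the `AlgHyp` field of helper55's `Engine` (GB/B9/Skeleton.lean) for the
B1-LITE local package:

  `R := Rinf O g = O⟦a,n⟧⟦x₁,…,x_g⟧` (iterated), `G := Ginf O g`, `lamR := C (C lam)`,
  `J₂ := J2 O 𝒞 g = ker (Rinf → Rloc⟦x⟧)`, `t := C (tElt O d)`, `J₁ := J₂ ⊔ (t)`,

for ANY `S` of Krull dimension `4 + g` (`S = O⟦y₁..y_g,z₁,z₂,z₃⟧` over a DVR `O`).
-/
import Fermat.Agent.GB.B9.Skeleton
import Fermat.Agent.GB.Local.RlocMain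
import Fermat.Agent.GB.Local.RlocFilt

set_option autoImplicit false
set_option linter.unusedSectionVars false

open IsLocalRing MvPowerSeries

namespace Fermat.Agent.GB.B9.AlgHypRloc

open Fermat.Agent.GB.Local.Rloc Fermat.Agent.GB.Local.RlocMain Fermat.Agent.GB.Local.RlocFilt
  Fermat.Agent.GB.PatchSupp Fermat.Agent.GB.Alg

variable {O : Type} [CommRing O] [IsLocalRing O] [IsNoetherianRing O]
  [IsAdicComplete (maximalIdeal O) O] [IsDomain O]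

/-- the ideal `J₁ = J₂ + (t)` -/
noncomputable def J1 (𝒞 : Finset O) (d : O) (g : ℕ) : Ideal (Rinf O g) :=
  J2 O 𝒞 g ⊔ Ideal.span {(C (tElt O d) : Rinf O g)}

theorem J2_le_J1 (𝒞 : Finset O) (d : O) (g : ℕ) : J2 O 𝒞 g ≤ J1 𝒞 d g := le_sup_left

theorem t_mem_J1 (𝒞 : Finset O) (d : O) (g : ℕ) : (C (tElt O d) : Rinf O g) ∈ J1 𝒞 d g :=
  Ideal.mem_sup_right (Ideal.mem_span_singleton_self _)

/-- **`AlgHyp` for the B1-LITE package**, `S` any ring of Krull dimension `4 + g`. -/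
theorem algHyp {lam : O} (hlam : Prime lam) (hmax : maximalIdeal O = Ideal.span {lam})
    (𝒞 : Finset O) (h𝒞 : ∀ c ∈ 𝒞, ∃ (u : Oˣ) (e : ℕ), e ≠ 0 ∧ c = u * lam ^ e)
    (h4 : ¬ lam ∣ 4) {d : O} (hd : lam ∣ d) (g : ℕ) {S : Type} [CommRing S] (lamS : S)
    (hS : ringKrullDim S = ((4 + g : ℕ) : WithBot ℕ∞)) :
    AlgHyp (R := Rinf O g) (S := S) (C (C lam)) lamS (Ginf O g) (J1 𝒞 d g) (J2 O 𝒞 g)
      (C (tElt O d)) where
  hG := Ginf_cofinal O g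
  ht := t_mem_J1 𝒞 d g
  hdim := by
    rw [hS]
    exact ringKrullDim_quot_le hmax 𝒞 (Fermat.Agent.GB.Local.TTest.dvd_of_forall 𝒞 h𝒞) g
  hfin := by
    rw [hS]
    intro h
    have h1 : (((4 + g : ℕ) : ℕ∞) : WithBot ℕ∞) = ((⊤ : ℕ∞) : WithBot ℕ∞) := h
    exact ENat.natCast_ne_top (4 + g) (WithBot.coe_injective h1)
  hP := fun P hP _ => tElt_notMem_radical_quot hlam 𝒞 h𝒞 h4 hd g P hP

/-- the dimension of `S = O⟦y₁..y_g, z₁, z₂, z₃⟧` over a one-dimensional `O` -/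
theorem ringKrullDim_S (hO : ringKrullDim O = 1) (g : ℕ) :
    ringKrullDim (MvPowerSeries (Fin (g + 3)) O) = ((4 + g : ℕ) : WithBot ℕ∞) := by
  rw [PSDim.ringKrullDim_mvPowerSeries_fin, hO]
  push_cast
  ring

end Fermat.Agent.GB.B9.AlgHypRloc
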