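/-
GATE-B / B9 (helper54): `AlgHyp` for the B1-LITE package with an ARBITRARY killing ideal `J₁ ∋ t`
on the `1`-side (in particular `J₁ := span {t}`).

The `1`-side module `M¹_Q` is NOT killed by `J₂ = ker (Rinf → Rloc⟦x⟧)`: its points are Steinberg at
`q` (`Σ` unipotent, `≠ 1`), and `J 𝒞` only knows the charts `Σ = 1` and `Σ ∼ diag(ζ, ζ⁻¹)`.  FIN′
uses `J₁` only through `t ∈ J₁`, so `J₁` is decoupled from `J₂`.
-/
import Fermat.Agent.GB.B9.AlgHypRloc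

set_option autoImplicit false
set_option linter.unusedSectionVars false

open IsLocalRing MvPowerSeries

namespace Fermat.Agent.GB.B9.AlgHypRloc

open Fermat.Agent.GB.Local.Rloc Fermat.Agent.GB.Local.RlocMain Fermat.Agent.GB.Local.RlocFilt
  Fermat.Agent.GB.PatchSupp

variable {O : Type} [CommRing O] [IsLocalRing O] [IsNoetherianRing O]
  [IsAdicComplete (maximalIdeal O) O] [IsDomain O]

/-- **`AlgHyp` for the B1-LITE package**, any `J₁ ∋ t`. -/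
theorem algHyp_of_mem {lam : O} (hlam : Prime lam) (hmax : maximalIdeal O = Ideal.span {lam})
    (𝒞 : Finset O) (h𝒞 : ∀ c ∈ 𝒞, ∃ (u : Oˣ) (e : ℕ), e ≠ 0 ∧ c = u * lam ^ e)
    (h4 : ¬ lam ∣ 4) {d : O} (hd : lam ∣ d) (g : ℕ) {S : Type} [CommRing S] (lamS : S)
    (hS : ringKrullDim S = ((4 + g : ℕ) : WithBot ℕ∞)) (J₁ : Ideal (Rinf O g))
    (ht : (C (tElt O d) : Rinf O g) ∈ J₁) :
    AlgHyp (R := Rinf O g) (S := S) (C (C lam)) lamS (Ginf O g) J₁ (J2 O 𝒞 g)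
      (C (tElt O d)) :=
  let h := algHyp hlam hmax 𝒞 h𝒞 h4 hd g lamS hS
  { hG := h.hG, ht := ht, hdim := h.hdim, hfin := h.hfin, hP := h.hP }

/-- the minimal choice `J₁ := (t)` -/
theorem algHyp_span {lam : O} (hlam : Prime lam) (hmax : maximalIdeal O = Ideal.span {lam})
    (𝒞 : Finset O) (h𝒞 : ∀ c ∈ 𝒞, ∃ (u : Oˣ) (e : ℕ), e ≠ 0 ∧ c = u * lam ^ e)
    (h4 : ¬ lam ∣ 4) {d : O} (hd : lam ∣ d) (g : ℕ) {S : Type} [CommRing S] (lamS : S)
    (hS : ringKrullDim S = ((4 + g : ℕ) : WithBot ℕ∞)) :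
    AlgHyp (R := Rinf O g) (S := S) (C (C lam)) lamS (Ginf O g)
      (Ideal.span {(C (tElt O d) : Rinf O g)}) (J2 O 𝒞 g) (C (tElt O d)) :=
  algHyp_of_mem hlam hmax 𝒞 h𝒞 h4 hd g lamS hS _ (Ideal.mem_span_singleton_self _)

end Fermat.Agent.GB.B9.AlgHypRloc
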