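/-
GATE-B / B9 ASSEMBLY, layer 2 / GB-B9-GROUPBASECHANGE (helper22; spec `GB/B9/ExtSpec.lean`,
helper55, board 5530).

THE PRODUCER of `ExtLevel L A u`: the base change of one Taylor–Wiles level
`L : FreeLevel O 𝕋 M0 act0 k N` along `𝒪[Δ_Q] → A`, `δ_i ↦ u i` (`u i ^ N i = 1`), modelled WITHOUT
the group algebra as

  `E := (A ⊗[O] L.M) ⧸ ∑ᵢ (Dᵢ ⊗ 1 - u i) (A ⊗[O] L.M)`,   `ι x := [1 ⊗ x]`.

* `ι (D i x) = u i • ι x` : `Chi.sub_smul_mem_chiRange`;
* `E` is `A`-free on the `ι (e j)` : helper24's `MonoCoinv.exists_basis_quot` over the ring `A`,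
  applied to `A ⊗[O] L.M` with `D' i := (L.D i).baseChange A` and the base-changed monomial basis;
* the universal property : `Submodule.liftQ` of `LinearMap.liftBaseChange A f`.
-/
import Mathlib
import Fermat.Agent.GB.B3.TWLevel
import Fermat.Agent.GB.B3.Chi
import Fermat.Agent.GB.B3.MonoCoinv
import Fermat.Agent.GB.B9.ExtSpec

set_option autoImplicit false

namespace Fermat.Agent.GB.B9.GroupBaseChange

open Module TensorProduct Fermat.Agent.GB.B3.TWLevel Fermat.Agent.GB.B3.Chi
  Fermat.Agent.GB.B3.MonoCoinv Fermat.Agent.GB.B9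

/-! ### base change of the monomial operators -/

section Mono

variable {O : Type*} [CommRing O] (A : Type*) [CommRing A] [Algebra O A]
  {M : Type*} [AddCommGroup M] [Module O M] {k : ℕ}

/-- the base-changed diamond operators -/
def bcD (D : Fin k → Module.End O M) : Fin k → Module.End A (A ⊗[O] M) :=
  fun i => (D i).baseChange A

theorem bcD_apply_tmul (D : Fin k → Module.End O M) (i : Fin k) (a : A) (x : M) :
    bcD A D i (a ⊗ₜ[O] x) = a ⊗ₜ[O] D i x := LinearMap.baseChange_tmul _ _ _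

theorem bcD_pow (D : Fin k → Module.End O M) (i : Fin k) (n : ℕ) :
    bcD A D i ^ n = (D i ^ n).baseChange A := (LinearMap.baseChange_pow O A M (D i) n).symm

theorem bcD_pow_eq_one (D : Fin k → Module.End O M) {N : Fin k → ℕ} (h : ∀ i, D i ^ N i = 1)
    (i : Fin k) : bcD A D i ^ N i = 1 := by
  rw [bcD_pow, h, LinearMap.baseChange_one]

theorem bcD_comm (D : Fin k → Module.End O M) (h : ∀ i j, D i * D j = D j * D i) (i j : Fin k) :
    bcD A D i * bcD A D j = bcD A D j * bcD A D i := by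
  unfold bcD
  rw [← LinearMap.baseChange_mul, h, LinearMap.baseChange_mul]

/-- the monomials of the base-changed operators are the base changes of the monomials -/
theorem mono_bcD (D : Fin k → Module.End O M) (a : Fin k → ℕ) :
    mono (bcD A D) a = (mono D a).baseChange A := by
  induction k with
  | zero => rw [mono_fin_zero, mono_fin_zero, LinearMap.baseChange_one]
  | succ k ih =>
    rw [mono_succ, mono_succ, LinearMap.baseChange_mul, bcD_pow]
    congr 1
    exact ih (fun i => D i.succ) (fun i => a i.succ)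

theorem mono_bcD_tmul (D : Fin k → Module.End O M) (a : Fin k → ℕ) (c : A) (x : M) :
    mono (bcD A D) a (c ⊗ₜ[O] x) = c ⊗ₜ[O] mono D a x := by
  rw [mono_bcD, LinearMap.baseChange_tmul]

end Mono

/-! ### the producer -/

section Producer

variable {O : Type} [CommRing O] {𝕋 : Type} [CommRing 𝕋] [Algebra O 𝕋]
  {M0 : Type} [AddCommGroup M0] [Module O M0] {act0 : 𝕋 →ₐ[O] Module.End O M0}
  {k : ℕ} {N : Fin k → ℕ} (L : FreeLevel O 𝕋 M0 act0 k N)
  (A : Type) [CommRing A] [Algebra O A] (u : Fin k → A)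

/-- the relations `(Dᵢ ⊗ 1 - u i) (A ⊗ M)` -/
def relSub : Submodule A (A ⊗[O] L.M) := ⨆ i, chiRange (bcD A L.D i) (u i)

/-- the model `A ⊗_{𝒪[Δ_Q]} M_Q` -/
abbrev Ext : Type := (A ⊗[O] L.M) ⧸ relSub L A u

/-- `x ↦ [1 ⊗ x]` -/
def extι : L.M →ₗ[O] Ext L A u :=
  ((relSub L A u).mkQ.restrictScalars O) ∘ₗ (TensorProduct.mk O A L.M 1)

theorem extι_apply (x : L.M) :
    extι L A u x = Submodule.Quotient.mk ((1 : A) ⊗ₜ[O] x) := rfl

theorem mk_bcD (i : Fin k) (y : A ⊗[O] L.M) :
    (Submodule.Quotient.mk (bcD A L.D i y) : Ext L A u) = u i • Submodule.Quotient.mk y := by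
  rw [← Submodule.Quotient.mk_smul, ← sub_eq_zero, ← Submodule.Quotient.mk_sub,
    Submodule.Quotient.mk_eq_zero]
  exact (le_iSup (fun i => chiRange (bcD A L.D i) (u i)) i)
    (sub_smul_mem_chiRange (bcD A L.D i) (u i) y)

theorem extι_D (i : Fin k) (x : L.M) : extι L A u (L.D i x) = u i • extι L A u x := by
  rw [extι_apply, extι_apply, ← bcD_apply_tmul, mk_bcD]

/-- the universal property -/
theorem ext_lift (F : Type) [AddCommGroup F] [Module A F] [Module O F] [IsScalarTower O A F]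
    (f : L.M →ₗ[O] F) (hf : ∀ i x, f (L.D i x) = u i • f x) :
    ∃ g : Ext L A u →ₗ[A] F, ∀ x, g (extι L A u x) = f x := by
  have key : ∀ (i : Fin k) (x : A ⊗[O] L.M),
      LinearMap.liftBaseChange A f (bcD A L.D i x) = u i • LinearMap.liftBaseChange A f x := by
    intro i x
    induction x using TensorProduct.induction_on with
    | zero => simp
    | tmul a m =>
      rw [bcD_apply_tmul, LinearMap.liftBaseChange_tmul, LinearMap.liftBaseChange_tmul, hf,
        smul_comm]
    | add x y hx hy => rw [map_add, map_add, map_add, smul_add, hx, hy]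
  have hker : relSub L A u ≤ LinearMap.ker (LinearMap.liftBaseChange A f) := by
    refine iSup_le fun i => ?_
    intro y hy
    obtain ⟨x, rfl⟩ := mem_chiRange.1 hy
    rw [LinearMap.mem_ker, map_sub, map_smul, sub_eq_zero]
    exact key i x
  refine ⟨(relSub L A u).liftQ (LinearMap.liftBaseChange A f) hker, fun x => ?_⟩
  rw [extι_apply, Submodule.liftQ_apply, LinearMap.liftBaseChange_tmul, one_smul]

/-- `Δ_Q`-freeness after base change -/
theorem exists_ext_basis (hN : ∀ i, 0 < N i) (hu : ∀ i, u i ^ N i = 1) :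
    ∃ b : Basis (Fin L.d) A (Ext L A u), ∀ j, b j = extι L A u (L.e j) := by
  obtain ⟨b, hb⟩ := exists_basis_quot (O := A) (M := A ⊗[O] L.M) hN (bcD A L.D)
    (bcD_pow_eq_one A L.D L.D_pow) (bcD_comm A L.D L.D_comm)
    (fun j => (1 : A) ⊗ₜ[O] L.e j) (L.basis.baseChange A)
    (by
      intro a j
      rw [Basis.baseChange_apply, L.basis_eq, mono_bcD_tmul])
    u hu
  exact ⟨b, hb⟩

end Producer

/-- **THE PRODUCER** (spec: `GB/B9/ExtSpec.lean`). -/
theorem exists_extLevel {O : Type} [CommRing O] {𝕋 : Type} [CommRing 𝕋] [Algebra O 𝕋]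
    {M0 : Type} [AddCommGroup M0] [Module O M0] {act0 : 𝕋 →ₐ[O] Module.End O M0}
    {k : ℕ} {N : Fin k → ℕ} (L : FreeLevel O 𝕋 M0 act0 k N) (hN : ∀ i, 0 < N i)
    (A : Type) [CommRing A] [Algebra O A] (u : Fin k → A) (hu : ∀ i, u i ^ N i = 1) :
    Nonempty (ExtLevel L A u) := by
  obtain ⟨b, hb⟩ := exists_ext_basis L A u hN hu
  exact ⟨{ E := Ext L A u
           ι := extι L A u
           ι_D := extι_D L A u
           basis := b
           basis_eq := hb
           lift := fun F _ _ _ _ f hf => ext_lift L A u F f hf }⟩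

end Fermat.Agent.GB.B9.GroupBaseChange
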