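/-
GATE-B / B9 ASSEMBLY (helper55): the final plug — `HasExt` is a theorem (helper22's
`GroupBaseChange.exists_extLevel`), so

  `caseB38_of_twSystem : (∀ CASE-B binders, ¬ lowerable → Nonempty TWSystem) → CaseB38`

with NO other hypothesis.  `TWSystem` (`GB/B9/System.lean`) is the final contract of CASE B.
-/
import Fermat.Agent.GB.B9.System
import Fermat.Agent.GB.B9.GroupBaseChange

set_option autoImplicit false

open WeierstrassCurve WeierstrassCurve.Affine WeierstrassCurve.Affine.Point
open scoped WeierstrassCurve.Affine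

namespace Fermat.Agent.GB.B9

/-- base changes exist -/
theorem hasExt : HasExt := fun L hN A _ _ u hu =>
  GroupBaseChange.exists_extLevel L hN A u hu

/-- a Taylor–Wiles system is contradictory -/
theorem TWSystem.elim (Y : TWSystem) : False := Y.false hasExt

open Fermat.Agent.GB.Top.S43Frey in
/-- **CASE B from Taylor–Wiles systems** (no other hypothesis). -/
theorem caseB38_of_twSystem
    (hE : ∀ (p : ℕ) [Fact p.Prime] (_ : 5 ≤ p) (W : WeierstrassCurve ℤ) (_ : W.Δ ≠ 0)
      (_ : W.IsSemistableModel)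
      (hcard₁ : Nat.card (Submodule.torsionBy ℤ
        ((W.map (Int.castRingHom ℚ))⁄(AlgebraicClosure ℚ)).Point p) = p ^ 2)
      (hker : GaloisFactorsThroughFiniteLevel
        (WeierstrassCurve.Affine.Point.galoisRepModuleEnd (K := AlgebraicClosure ℚ) ℚ
          (W.map (Int.castRingHom ℚ)) p))
      (_ : W.ModRepIsIrreducible p) (M q : ℕ) (_ : q.Prime) (_ : q ≠ 2) (_ : q ≠ p)
      (_ : q ∣ M) (_ : Squarefree M)
      (_ : ((W.map (Int.castRingHom ℚ)).residualGaloisRepOf p hcard₁ hker).IsUnramifiedAt q)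
      (_ : W.IsResiduallyModularOfLevel p M)
      (_ : q % p = 1) (_ : ScalarFrob38 W p q)
      (_ : ¬ W.IsResiduallyModularOfLevel p (M / q)), Nonempty TWSystem) :
    CaseB38 :=
  caseB38_of_system hasExt hE

end Fermat.Agent.GB.B9
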