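/-
GATE-B / B9 ASSEMBLY (helper22): the plug `HasExt` (`GB/B9/System.lean`, helper55) from
`GroupBaseChange.exists_extLevel` — so that `caseB38_of_system hasExt` has no layer-2 hypothesis
left.
-/
import Fermat.Agent.GB.B9.System
import Fermat.Agent.GB.B9.GroupBaseChange

set_option autoImplicit false

namespace Fermat.Agent.GB.B9.GroupBaseChange

open Fermat.Agent.GB.B9

/-- **base changes exist**: the `HasExt` hypothesis of `GB/B9/System.lean` is a theorem -/
theorem hasExt : HasExt :=
  fun L hN A _ _ u hu => exists_extLevel L hN A u hu

end Fermat.Agent.GB.B9.GroupBaseChange
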