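/-
GATE-B / B9 (helper59): the `kill₂` handle of `AlgHypKill2.exists_algHyp_kill₂` applied to a
Taylor–Wiles level `tw : TWLevelData …` — the instance obligations `IsTorsionFree O tw.Lχ.M`,
`Nontrivial tw.Lχ.M` are discharged from the `O[Δ]`-basis of the level (rank `d > 0`, orders
`N i > 0`), and the conclusion is stated in BOTH shapes:

* `kill₂_of_handle`  : `∀ r ∈ J₂, ∀ n, a₂ (coeff n (Θ r)) = 0`             (`TWInput.kill₂`),
* `kill₂_of_handle'` : `∀ r ∈ J₂, ∀ m, a₂ (ψ (coeff m (Θ₀ r))) = 0`        (the `kill₂` binder of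
  helper55's `Provider.nonempty_TWInput_of_surjective`, `Θ = map ψ ∘ Θ₀`).
-/
import Fermat.Agent.GB.B9.AlgHypKill2

set_option autoImplicit false
set_option linter.unusedSectionVars false
set_option linter.unusedVariables false

open IsLocalRing Module

namespace Fermat.Agent.GB.B9.Kill2Level

open Fermat.Agent.GB.Local.TamePoint Fermat.Agent.GB.Local.R4Point
open Fermat.Agent.GB.Local.Multi Fermat.Agent.GB.B3.TWLevel Matrix
open Fermat.Agent.GB.Local.Multi.Kill2Field Fermat.Agent.GB.Local.Multi.Kill2Q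
open Fermat.Agent.GB.B9.AlgHypKill2

variable {O : Type} [CommRing O] [IsDomain O] [IsDiscreteValuationRing O]
  [IsAdicComplete (maximalIdeal O) O] [CharZero O]

section Level

variable {𝕋 : Type} [CommRing 𝕋] [Algebra O 𝕋] {M0 : Type} [AddCommGroup M0] [Module O M0]
  {act0 : 𝕋 →ₐ[O] Module.End O M0} {k : ℕ} {N : Fin k → ℕ}

/-- a Taylor–Wiles level is a free `O`-module -/
theorem free_level (L : FreeLevel O 𝕋 M0 act0 k N) : Module.Free O L.M :=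
  Module.Free.of_basis L.basis

/-- a Taylor–Wiles level is torsion-free -/
theorem isTorsionFree_level (L : FreeLevel O 𝕋 M0 act0 k N) : IsTorsionFree O L.M := by
  haveI := free_level L
  infer_instance

/-- a Taylor–Wiles level of positive rank is non-trivial -/
theorem nontrivial_level (L : FreeLevel O 𝕋 M0 act0 k N) (hd : 0 < L.d) (hN : ∀ i, 0 < N i) :
    Nontrivial L.M := by
  let i0 : (∀ i : Fin k, Fin (N i)) × Fin L.d := (fun i => ⟨0, hN i⟩, ⟨0, hd⟩)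
  exact ⟨⟨L.basis i0, 0, L.basis.ne_zero i0⟩⟩

end Level

section Handle

variable {ϖ : O} {𝕋 : Type} [CommRing 𝕋] [Algebra O 𝕋]
  {M0 : Type} [AddCommGroup M0] [Module O M0] {act0 : 𝕋 →ₐ[O] Module.End O M0}
  {M0χ : Type} [AddCommGroup M0χ] [Module O M0χ] {act0χ : 𝕋 →ₐ[O] Module.End O M0χ}
  {k : ℕ} {N : Fin k → ℕ}

/-- **`TWInput.kill₂` from the handle**, at a Taylor–Wiles level. -/
theorem kill₂_of_handle {h : O} {s g : ℕ} {ℓ : Fin (s + 1) → ℕ} {J₂ : Ideal (RM O (s + 1) g)}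
    (hkill : Kill2Handle h ℓ J₂)
    (tw : TWLevelData O ϖ 𝕋 M0 act0 M0χ act0χ k N) (hd : 0 < tw.Lχ.d) (hN : ∀ i, 0 < N i)
    (T : Type) [CommRing T] [Algebra O T] [Module.Finite O T] [IsReduced T] [IsLocalRing T]
    (a₂ : T →ₐ[O] Module.End O tw.Lχ.M) (σ : Type) [Finite σ]
    (Θ : RM O (s + 1) g →ₐ[O] MvPowerSeries σ T)
    (S F : Fin (s + 1) → Matrix (Fin 2) (Fin 2) T)
    (γ γi : Fin (s + 1) → Matrix (Fin 2) (Fin 2) (MvPowerSeries σ T))
    (hFdet : ∀ v, (F v).det = (ℓ v : T)) (hrel : ∀ v, F v * S v = S v ^ ℓ v * F v)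
    (hFres : ∀ v k, tl (algebraMap O T h) (F v) k ∈ maximalIdeal T)
    (hSres : ∀ v k, tl (algebraMap O T h) (S v) k ∈ maximalIdeal T)
    (hγ : ∀ v, γ v * γi v = 1)
    (hΘa : ∀ v k, Θ (aV O v k) =
      tl (MvPowerSeries.C (algebraMap O T h)) (γ v * (F v).map MvPowerSeries.C * γi v) k)
    (hΘn : ∀ v k, Θ (nV O v k) =
      tl (MvPowerSeries.C (algebraMap O T h)) (γ v * (S v).map MvPowerSeries.C * γi v) k)
    (hΘx : ∀ j, Θ (xV O j) ∈ maximalIdeal (MvPowerSeries σ T))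
    (htr : ∀ v, v ≠ Fin.last s → (S v).trace = 2)
    (hSu : ∀ v, v ≠ Fin.last s → (S v - 1) ^ 2 = 0)
    (hSdet : (S (Fin.last s)).det = 1)
    (hres : (S (Fin.last s)).trace - 2 ∈ maximalIdeal T)
    (hnu : ∀ i : Fermat.Agent.GB.Glue.Points.Idx O (Tchi a₂),
      ((S (Fin.last s)).map (phi a₂ i) - 1) ^ 2 = 0 → (S (Fin.last s)).map (phi a₂ i) = 1) :
    ∀ r ∈ J₂, ∀ n, a₂ (MvPowerSeries.coeff n (Θ r)) = 0 := by
  haveI := isTorsionFree_level tw.Lχ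
  haveI := nontrivial_level tw.Lχ hd hN
  exact hkill T tw.Lχ.M a₂ σ Θ S F γ γi hFdet hrel hFres hSres hγ hΘa hΘn hΘx htr hSu hSdet hres
    hnu

/-- the same in the binder shape of `Provider.nonempty_TWInput_of_surjective`
(`Θ = map ψ ∘ Θ₀`). -/
theorem kill₂_of_handle' {h : O} {s g : ℕ} {ℓ : Fin (s + 1) → ℕ} {J₂ : Ideal (RM O (s + 1) g)}
    (hkill : Kill2Handle h ℓ J₂)
    (tw : TWLevelData O ϖ 𝕋 M0 act0 M0χ act0χ k N) (hd : 0 < tw.Lχ.d) (hN : ∀ i, 0 < N i)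
    (T : Type) [CommRing T] [Algebra O T] [Module.Finite O T] [IsReduced T] [IsLocalRing T]
    (a₂ : T →ₐ[O] Module.End O tw.Lχ.M) (σ : Type) [Finite σ]
    {RQ : Type} [CommRing RQ] [Algebra O RQ]
    (Θ₀ : RM O (s + 1) g →ₐ[O] MvPowerSeries σ RQ) (ψ : RQ →ₐ[O] T)
    (S F : Fin (s + 1) → Matrix (Fin 2) (Fin 2) T)
    (γ γi : Fin (s + 1) → Matrix (Fin 2) (Fin 2) (MvPowerSeries σ T))
    (hFdet : ∀ v, (F v).det = (ℓ v : T)) (hrel : ∀ v, F v * S v = S v ^ ℓ v * F v)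
    (hFres : ∀ v k, tl (algebraMap O T h) (F v) k ∈ maximalIdeal T)
    (hSres : ∀ v k, tl (algebraMap O T h) (S v) k ∈ maximalIdeal T)
    (hγ : ∀ v, γ v * γi v = 1)
    (hΘa : ∀ v k, MvPowerSeries.map (ψ : RQ →+* T) (Θ₀ (aV O v k)) =
      tl (MvPowerSeries.C (algebraMap O T h)) (γ v * (F v).map MvPowerSeries.C * γi v) k)
    (hΘn : ∀ v k, MvPowerSeries.map (ψ : RQ →+* T) (Θ₀ (nV O v k)) =
      tl (MvPowerSeries.C (algebraMap O T h)) (γ v * (S v).map MvPowerSeries.C * γi v) k)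
    (hΘx : ∀ j, MvPowerSeries.map (ψ : RQ →+* T) (Θ₀ (xV O j)) ∈
      maximalIdeal (MvPowerSeries σ T))
    (htr : ∀ v, v ≠ Fin.last s → (S v).trace = 2)
    (hSu : ∀ v, v ≠ Fin.last s → (S v - 1) ^ 2 = 0)
    (hSdet : (S (Fin.last s)).det = 1)
    (hres : (S (Fin.last s)).trace - 2 ∈ maximalIdeal T)
    (hnu : ∀ i : Fermat.Agent.GB.Glue.Points.Idx O (Tchi a₂),
      ((S (Fin.last s)).map (phi a₂ i) - 1) ^ 2 = 0 → (S (Fin.last s)).map (phi a₂ i) = 1) :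
    ∀ r ∈ J₂, ∀ m, a₂ (ψ (MvPowerSeries.coeff m (Θ₀ r))) = 0 := by
  intro r hr m
  have key := kill₂_of_handle hkill tw hd hN T a₂ σ
    ((MvPowerSeries.mapAlgHom (σ := σ) ψ).comp Θ₀) S F γ γi hFdet hrel hFres hSres hγ hΘa hΘn hΘx
    htr hSu hSdet hres hnu r hr m
  have h1 : MvPowerSeries.coeff m (((MvPowerSeries.mapAlgHom (σ := σ) ψ).comp Θ₀) r) =
      ψ (MvPowerSeries.coeff m (Θ₀ r)) := by
    show MvPowerSeries.coeff m (MvPowerSeries.map (ψ : RQ →+* T) (Θ₀ r)) = _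
    rw [MvPowerSeries.coeff_map]
    rfl
  rwa [h1] at key

end Handle

end Fermat.Agent.GB.B9.Kill2Level
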