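/-
GATE-B / GRAPH v2 L7, **(1pt)-GLOBAL, formal half** (helper66; handed over by helper91 6110;
recipe = board 6063 steps 1, 3, 4, 5).

Consumer: `GB/Alg/UnitPoints.unit_field_of_diamonds` / `unit_field_of_points`, input `(1pt)`:
at a point `x : T_Q → O_x` with trivial nebentypus at the Taylor–Wiles prime `r`,
`x (χ i s) = 1` for every inertia element `s` at `r`, where `ρ_Q|D_P = χ₀ ⊕ χ₁`
(`GB/E2/TWChars.exists_characters_of_unr` on `ρ_Q = pushRep H φ_Q`).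

THE ONLY GLOBAL INPUT LEFT (binder `H'`, `x'`, `hmatch`): the eigensystem of the point occurs at a
level `N'` with `r ∥ N'` — a Hecke–Galois datum `H'` of level `N'` and a local homomorphism
`x' : T' → O_x` with the same `T_ℓ`-eigenvalues as `x ∘ φ_Q ∘ H.π` for all primes `ℓ ∉ B`.

Proof: both `ρ₁ = ρ_Q ⊗_x O_x` and `ρ₂ = H'.ρ ⊗_{x'} O_x` have the Frobenius characteristic
polynomials `X² - a_ℓ X + ℓ` (`ℓ ∉ B`), hence the same trace function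
(`GJ/Tate/Carayol.trace_eq_of_charpoly_frob_eq`: Chebotarev + Krull); `ρ₂` is unipotent on inertia at
`r` (S34 pushed: `Push.isUnipotentOnInertiaAt_push`), so `tr ρ₁ (s) = 2`, `tr ρ₁ (s²) = 2`, and
`2 det = tr² - tr(·²)` gives `det ρ₁ (s) = 1`; then `GB/Alg/UnitLocal`.

* `two_mul_det_eq` : `2 det f = (tr f)² - tr (f²)` in rank two;
* `trace_baseChangeAlong`, `det_baseChangeAlong`;
* `trace_det_of_frob_match` : abstract (any two adic representations);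
* `trace_det_at_point` : for `pushRep H φ` against a level-`N'` datum;
* `chi_point_eq_one_of_datum` : the `(1pt)` statement in the `TWChars` shape.
-/
import Fermat.Agent.GB.B4.Datum.Push
import Fermat.Agent.GJ.Tate.Carayol
import Fermat.Agent.GB.Alg.UnitLocal

set_option autoImplicit false
set_option linter.unusedSectionVars false

namespace Fermat.Agent.GB.B9.UnitGlobal

open Polynomial IsLocalRing CuspForm
open Fermat.Agent.Common_helper32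

section LinAlg

variable {A : Type*} [CommRing A] [Nontrivial A] {V : Type*} [AddCommGroup V] [Module A V]
  [Module.Free A V] [Module.Finite A V]

/-- Rank two: `2 det f = (tr f)² - tr (f²)` (Cayley–Hamilton). -/
theorem two_mul_det_eq (hV : Module.finrank A V = 2) (f : Module.End A V) :
    2 * LinearMap.det f = LinearMap.trace A V f ^ 2 - LinearMap.trace A V (f * f) := by
  have hCH := LinearMap.aeval_self_charpoly f
  rw [Fermat.Agent.GK.Tate.charpoly_eq_of_finrank_two hV f] at hCH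
  simp only [map_add, map_sub, map_mul, map_pow, aeval_X, aeval_C] at hCH
  have ht := congrArg (LinearMap.trace A V) hCH
  rw [map_add, map_sub, map_zero, Algebra.algebraMap_eq_smul_one, Algebra.algebraMap_eq_smul_one,
    smul_mul_assoc, one_mul, map_smul, map_smul, LinearMap.trace_one, hV, pow_two] at ht
  simp only [smul_eq_mul] at ht
  push_cast at ht
  linear_combination ht

end LinAlg

section BaseChange

variable {A : Type} [CommRing A] [IsLocalRing A] {B : Type} [CommRing B] [IsLocalRing B]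

theorem charpoly_coeffs (ρ : GaloisRepAdic A) (g : GQ) :
    LinearMap.charpoly (ρ.ρ g) = X ^ 2 - C (ρ.trace g) * X + C (LinearMap.det (ρ.ρ g)) :=
  Fermat.Agent.GK.Tate.charpoly_eq_of_finrank_two ρ.finrank_eq (ρ.ρ g)

/-- coefficient extraction from `X² - tX + d = X² - t'X + d'`. -/
theorem coeffs_eq_of_quadratic_eq {R : Type*} [CommRing R] {t d t' d' : R}
    (h : (X : R[X]) ^ 2 - C t * X + C d = X ^ 2 - C t' * X + C d') : t = t' ∧ d = d' := by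
  have h1 := congrArg (fun P : R[X] => P.coeff 1) h
  have h0 := congrArg (fun P : R[X] => P.coeff 0) h
  simp only [coeff_add, coeff_sub, coeff_X_pow, coeff_C_mul, coeff_X_one, mul_one, coeff_C,
    coeff_X_zero, mul_zero] at h1 h0
  have h12 : ¬ ((1 : ℕ) = 2) := by decide
  have h02 : ¬ ((0 : ℕ) = 2) := by decide
  simp only [h12, h02, one_ne_zero, if_false, if_true, zero_sub, add_zero, neg_inj, sub_zero,
    zero_add] at h1 h0
  exact ⟨h1, h0⟩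

theorem trace_det_baseChangeAlong (φ : A →+* B) (hφ : IsLocalHom φ) (ρ : GaloisRepAdic A)
    (g : GQ) :
    (ρ.baseChangeAlong φ hφ).trace g = φ (ρ.trace g) ∧
      LinearMap.det ((ρ.baseChangeAlong φ hφ).ρ g) = φ (LinearMap.det (ρ.ρ g)) := by
  have h := Fermat.Agent.S54.charpoly_baseChangeAlong φ hφ ρ g
  rw [charpoly_coeffs, charpoly_coeffs, Polynomial.map_add, Polynomial.map_sub,
    Polynomial.map_mul, Polynomial.map_pow, Polynomial.map_X, Polynomial.map_C,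
    Polynomial.map_C] at h
  exact coeffs_eq_of_quadratic_eq h

end BaseChange

section Abstract

variable {A : Type} [CommRing A] [IsLocalRing A]
  {Ox : Type} [CommRing Ox] [IsLocalRing Ox] [IsNoetherianRing Ox]

/-- **Abstract (1pt)-GLOBAL.** `ρ` over `A`, a point `x : A → O_x`, a second representation `ρ₂`
over `O_x` with the same Frobenius characteristic polynomials (after `x`) outside a finite set `B`
and unipotent inertia at `r`; `2` a non-zero-divisor of `O_x`.  Then at every inertia element `s`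
at `r`: `x (tr ρ s) = 2`, `x (det ρ s) = 1`. -/
theorem trace_det_of_frob_match (ρ : GaloisRepAdic A) (x : A →+* Ox) (hx : IsLocalHom x)
    (ρ₂ : GaloisRepAdic Ox) (B : Finset ℕ)
    (hfrob : ∀ ℓ : ℕ, ℓ.Prime → ℓ ∉ B → ∀ P' : ValuationSubring Qb, P'.LiesOverPrime ℓ →
      ∀ σ : GQ, P'.IsFrobeniusAt σ ℓ →
        (LinearMap.charpoly (ρ.ρ σ)).map x = LinearMap.charpoly (ρ₂.ρ σ))
    (h2 : ∀ c : Ox, (2 : Ox) * c = 0 → c = 0)
    {r : ℕ} (hu : ρ₂.IsUnipotentOnInertiaAt r)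
    (P : ValuationSubring Qb) (hP : P.LiesOverPrime r) (s : GQ)
    (hs : s ∈ P.inertiaSubgroupIn ℚ) :
    x (ρ.trace s) = 2 ∧ x (LinearMap.det (ρ.ρ s)) = 1 := by
  set ρ₁ := ρ.baseChangeAlong x hx with hρ₁
  have htr : ∀ g : GQ, ρ₁.trace g = ρ₂.trace g :=
    Fermat.Agent.GJ.Tate.Carayol.trace_eq_of_charpoly_frob_eq ρ₁ ρ₂ B
      (fun ℓ hℓ hℓB P' hP' σ hσ => by
        rw [hρ₁, Fermat.Agent.S54.charpoly_baseChangeAlong]
        exact hfrob ℓ hℓ hℓB P' hP' σ hσ)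
  -- `ρ₂ s` is unipotent
  have hc2 : LinearMap.charpoly (ρ₂.ρ s) = (X - 1) ^ 2 := hu P hP s hs
  have hc2' : (X : Ox[X]) ^ 2 - C (ρ₂.trace s) * X + C (LinearMap.det (ρ₂.ρ s)) =
      X ^ 2 - C (2 : Ox) * X + C (1 : Ox) := by
    rw [← charpoly_coeffs, hc2]
    simp only [map_ofNat, map_one]
    ring
  obtain ⟨ht2, hd2⟩ := coeffs_eq_of_quadratic_eq hc2'
  -- traces of `s` and `s * s`
  have e1 : ρ₁.trace s = 2 := by rw [htr, ht2]
  have hss2 : ρ₂.trace (s * s) = 2 := by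
    have h := two_mul_det_eq ρ₂.finrank_eq (ρ₂.ρ s)
    have ht : LinearMap.trace Ox ρ₂.V (ρ₂.ρ s) = 2 := ht2
    rw [hd2, ht] at h
    have : ρ₂.trace (s * s) = LinearMap.trace Ox ρ₂.V (ρ₂.ρ s * ρ₂.ρ s) := by
      unfold GaloisRepAdic.trace
      rw [map_mul]
    rw [this]
    linear_combination h
  have e2 : ρ₁.trace (s * s) = 2 := by rw [htr, hss2]
  have hd1 : LinearMap.det (ρ₁.ρ s) = 1 := by
    have h := two_mul_det_eq ρ₁.finrank_eq (ρ₁.ρ s)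
    have ht : LinearMap.trace Ox ρ₁.V (ρ₁.ρ s) = 2 := e1
    have hss : LinearMap.trace Ox ρ₁.V (ρ₁.ρ s * ρ₁.ρ s) = 2 := by
      have : ρ₁.trace (s * s) = LinearMap.trace Ox ρ₁.V (ρ₁.ρ s * ρ₁.ρ s) := by
        unfold GaloisRepAdic.trace
        rw [map_mul]
      rw [← this]
      exact e2
    rw [ht, hss] at h
    have h0 : (2 : Ox) * (LinearMap.det (ρ₁.ρ s) - 1) = 0 := by linear_combination h
    exact sub_eq_zero.mp (h2 _ h0)
  obtain ⟨hbt, hbd⟩ := trace_det_baseChangeAlong x hx ρ s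
  exact ⟨by rw [← hbt]; exact e1, by rw [← hbd]; exact hd1⟩

end Abstract

section Hecke

variable {p : ℕ} {N : ℕ} [NeZero N] {S : Finset ℕ}
  {𝒪 : Type} [CommRing 𝒪] [IsDomain 𝒪] [IsDiscreteValuationRing 𝒪]
  [IsAdicComplete (IsLocalRing.maximalIdeal 𝒪) 𝒪]
  {θ : CuspForm.heckeAlgebra N 2 (↑S : Set ℕ) →+* IsLocalRing.ResidueField 𝒪}
  {T : Type} [CommRing T] [IsLocalRing T] [IsNoetherianRing T]
  [IsAdicComplete (IsLocalRing.maximalIdeal T) T] [Algebra 𝒪 T] [IsLocalHom (algebraMap 𝒪 T)]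
  [Module.Finite 𝒪 T] [Module.Free 𝒪 T]
  {TQ : Type} [CommRing TQ] [IsLocalRing TQ]
  {N' : ℕ} [NeZero N'] {S' : Finset ℕ}
  {θ' : CuspForm.heckeAlgebra N' 2 (↑S' : Set ℕ) →+* IsLocalRing.ResidueField 𝒪}
  {T' : Type} [CommRing T'] [IsLocalRing T'] [IsNoetherianRing T']
  [IsAdicComplete (IsLocalRing.maximalIdeal T') T'] [Algebra 𝒪 T'] [IsLocalHom (algebraMap 𝒪 T')]
  [Module.Finite 𝒪 T'] [Module.Free 𝒪 T']
  {Ox : Type} [CommRing Ox] [IsLocalRing Ox] [IsNoetherianRing Ox]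

open Fermat.Agent.GB.B4.Datum.Push

/-- **(1pt)-GLOBAL for the pushed representation** `ρ_Q = pushRep H φ` at a point `x : T_Q → O_x`,
against a datum `H'` of a level `N'` with `r ∥ N'` and a point `x' : T' → O_x` with the same
`T_ℓ`-eigenvalues (`ℓ ∉ B`). -/
theorem trace_det_at_point [Finite (ResidueField 𝒪)] [CharZero 𝒪]
    (H : HeckeGaloisRepDatum N (↑S : Set ℕ) 𝒪 θ T) (φ : T →+* TQ) (hφ : IsLocalHom φ)
    (H' : HeckeGaloisRepDatum N' (↑S' : Set ℕ) 𝒪 θ' T')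
    (x : TQ →+* Ox) (hx : IsLocalHom x) (x' : T' →+* Ox) (hx' : IsLocalHom x')
    (h2 : ∀ c : Ox, (2 : Ox) * c = 0 → c = 0) (B : Finset ℕ)
    (hB : ∀ ℓ : ℕ, ℓ.Prime → ℓ ∉ B →
      ¬ ℓ ∣ N ∧ ℓ ∉ (↑S : Set ℕ) ∧ ¬ ℓ ∣ N' ∧ ℓ ∉ (↑S' : Set ℕ))
    (hmatch : ∀ (ℓ : ℕ) (hℓ : ℓ.Prime) (hℓN : ¬ ℓ ∣ N) (hℓS : ℓ ∉ (↑S : Set ℕ))
      (hℓN' : ¬ ℓ ∣ N') (hℓS' : ℓ ∉ (↑S' : Set ℕ)), ℓ ∉ B →
      x (φ (H.π (heckeAlgebra.T hℓ hℓN hℓS))) = x' (H'.π (heckeAlgebra.T hℓ hℓN' hℓS')))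
    (hp : p.Prime) (hp𝒪 : (p : 𝒪) ∈ IsLocalRing.maximalIdeal 𝒪) (hpS' : p ∈ S')
    (hNS' : ∀ q : ℕ, q.Prime → q ∣ N' → q ∈ S')
    {r : ℕ} (hr : r.Prime) (hrp : r ≠ p) (hrN' : r ∣ N') (hr2 : ¬ r ^ 2 ∣ N')
    (P : ValuationSubring Qb) (hP : P.LiesOverPrime r) (s : GQ)
    (hs : s ∈ P.inertiaSubgroupIn ℚ) :
    x ((pushRep H φ hφ).trace s) = 2 ∧ x (LinearMap.det ((pushRep H φ hφ).ρ s)) = 1 := by
  refine trace_det_of_frob_match (pushRep H φ hφ) x hx (pushRep H' x' hx') B ?_ h2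
    (isUnipotentOnInertiaAt_push hp hp𝒪 hpS' hNS' H' x' hx' r hr hrp hrN' hr2) P hP s hs
  intro ℓ hℓ hℓB P' hP' σ hσ
  obtain ⟨hℓN, hℓS, hℓN', hℓS'⟩ := hB ℓ hℓ hℓB
  rw [charpoly_frob_push H φ hφ ℓ hℓ hℓN hℓS P' hP' σ hσ,
    charpoly_frob_push H' x' hx' ℓ hℓ hℓN' hℓS' P' hP' σ hσ,
    Polynomial.map_add, Polynomial.map_sub, Polynomial.map_mul, Polynomial.map_pow,
    Polynomial.map_X, Polynomial.map_C, Polynomial.map_C, map_natCast,
    hmatch ℓ hℓ hℓN hℓS hℓN' hℓS' hℓB]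

/-- **(1pt) in the `TWChars` shape**: with `ρ_Q|D_P = χ₀ ⊕ χ₁` in the basis `Bas`
(`TWChars.exists_characters_of_unr` on `pushRep H φ`), `x (χ i s) = 1` for every inertia
element `s` at `P ∣ r`, `O_x` reduced. -/
theorem chi_point_eq_one_of_datum [Finite (ResidueField 𝒪)] [CharZero 𝒪] [IsReduced Ox]
    (H : HeckeGaloisRepDatum N (↑S : Set ℕ) 𝒪 θ T) (φ : T →+* TQ) (hφ : IsLocalHom φ)
    (H' : HeckeGaloisRepDatum N' (↑S' : Set ℕ) 𝒪 θ' T')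
    (x : TQ →+* Ox) (hx : IsLocalHom x) (x' : T' →+* Ox) (hx' : IsLocalHom x')
    (h2 : ∀ c : Ox, (2 : Ox) * c = 0 → c = 0) (B : Finset ℕ)
    (hB : ∀ ℓ : ℕ, ℓ.Prime → ℓ ∉ B →
      ¬ ℓ ∣ N ∧ ℓ ∉ (↑S : Set ℕ) ∧ ¬ ℓ ∣ N' ∧ ℓ ∉ (↑S' : Set ℕ))
    (hmatch : ∀ (ℓ : ℕ) (hℓ : ℓ.Prime) (hℓN : ¬ ℓ ∣ N) (hℓS : ℓ ∉ (↑S : Set ℕ))
      (hℓN' : ¬ ℓ ∣ N') (hℓS' : ℓ ∉ (↑S' : Set ℕ)), ℓ ∉ B →
      x (φ (H.π (heckeAlgebra.T hℓ hℓN hℓS))) = x' (H'.π (heckeAlgebra.T hℓ hℓN' hℓS')))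
    (hp : p.Prime) (hp𝒪 : (p : 𝒪) ∈ IsLocalRing.maximalIdeal 𝒪) (hpS' : p ∈ S')
    (hNS' : ∀ q : ℕ, q.Prime → q ∣ N' → q ∈ S')
    {r : ℕ} (hr : r.Prime) (hrp : r ≠ p) (hrN' : r ∣ N') (hr2 : ¬ r ^ 2 ∣ N')
    (P : ValuationSubring Qb) (hP : P.LiesOverPrime r)
    (Bas : Module.Basis (Fin 2) TQ (pushRep H φ hφ).V)
    (χ : Fin 2 → P.decompositionSubgroup ℚ →* TQˣ)
    (hχ : ∀ (i : Fin 2) (σ : P.decompositionSubgroup ℚ),
      (pushRep H φ hφ).ρ (σ : GQ) (Bas i) = (χ i σ : TQ) • Bas i)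
    (s : GQ) (hs : s ∈ P.inertiaSubgroupIn ℚ) (hsD : s ∈ P.decompositionSubgroup ℚ)
    (i : Fin 2) : x (χ i ⟨s, hsD⟩ : TQ) = 1 := by
  obtain ⟨htr, hdet⟩ := trace_det_at_point H φ hφ H' x hx x' hx' h2 B hB hmatch hp hp𝒪 hpS' hNS'
    hr hrp hrN' hr2 P hP s hs
  exact Fermat.Agent.GB.Alg.UnitLocal.chi_point_eq_one_of_trace_det (pushRep H φ hφ) P Bas χ hχ x
    ⟨s, hsD⟩ htr hdet i

end Hecke

end Fermat.Agent.GB.B9.UnitGlobal
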