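/-
GATE-B / GRAPH v2 L7, **(1pt)-GLOBAL, adapter to `AlgHom` points** (helper66).

`GB/B9/UnitGlobal.chi_point_eq_one_of_datum` wants a *local noetherian* point ring `O_x` and *local*
homomorphisms `x : T_Q → O_x`, `x' : T' → O_x`.  The supply (helper49 GB-P5-1PT-STEP2,
`exists_point_of_res_cores`) and the consumer (`GB/Alg/UnitPoints.unit_field_of_points`) speak of
`𝒪`-algebra homomorphisms `θ₁ : T_Q →ₐ[𝒪] Ω`, `θ₂ : T' →ₐ[𝒪] Ω` into a big ring `Ω`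
(not local-hom: `Ω` is a field) with `θ₂ (τ'_ℓ) = θ₁ (τ_ℓ)`.

Adapter: `O_x := θ₁.range` (a local noetherian reduced ring, `2` regular), `x := θ₁.rangeRestrict`
(surjective ⟹ local), `x' := θ₂` co-restricted (needs `range θ₂ ≤ range θ₁`; it is the composite of
the surjection `T' ↠ θ₂.range` and the integral injection `θ₂.range ↪ θ₁.range`, both local).

* `isLocalHom_of_range_le` : the abstract statement about `x'`;
* `chi_point_eq_one_of_algHom` : **(1pt) for `AlgHom` points.**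
-/
import Fermat.Agent.GB.B9.UnitGlobal

set_option autoImplicit false
set_option linter.unusedSectionVars false

namespace Fermat.Agent.GB.B9.UnitGlobalPt

open Polynomial IsLocalRing CuspForm
open Fermat.Agent.Common_helper32

section Adapter

variable {O : Type*} [CommRing O] {T₁ T₂ Ω : Type*} [CommRing T₁] [CommRing T₂] [CommRing Ω]
  [Algebra O T₁] [Algebra O T₂] [Algebra O Ω] [Nontrivial Ω]

/-- The image of a local ring in a nontrivial ring is local. -/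
theorem isLocalRing_algHomRange [IsLocalRing T₁] (θ₁ : T₁ →ₐ[O] Ω) : IsLocalRing θ₁.range :=
  IsLocalRing.of_surjective' θ₁.rangeRestrict.toRingHom θ₁.rangeRestrict_surjective

theorem isNoetherianRing_algHomRange [IsNoetherianRing T₁] (θ₁ : T₁ →ₐ[O] Ω) :
    IsNoetherianRing θ₁.range :=
  isNoetherianRing_of_surjective T₁ θ₁.range θ₁.rangeRestrict.toRingHom
    θ₁.rangeRestrict_surjective

theorem isReduced_algHomRange [IsReduced Ω] (θ₁ : T₁ →ₐ[O] Ω) : IsReduced θ₁.range :=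
  isReduced_of_injective θ₁.range.val Subtype.val_injective

theorem isLocalHom_rangeRestrict [IsLocalRing T₁] (θ₁ : T₁ →ₐ[O] Ω) :
    IsLocalHom θ₁.rangeRestrict.toRingHom :=
  IsLocalHom.of_surjective _ θ₁.rangeRestrict_surjective

/-- The co-restriction of `θ₂` to `θ₁.range`. -/
noncomputable def corestrict (θ₁ : T₁ →ₐ[O] Ω) (θ₂ : T₂ →ₐ[O] Ω)
    (hle : ∀ t, θ₂ t ∈ θ₁.range) : T₂ →ₐ[O] θ₁.range :=
  θ₂.codRestrict θ₁.range hle

@[simp] theorem corestrict_coe (θ₁ : T₁ →ₐ[O] Ω) (θ₂ : T₂ →ₐ[O] Ω)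
    (hle : ∀ t, θ₂ t ∈ θ₁.range) (t : T₂) : (corestrict θ₁ θ₂ hle t : Ω) = θ₂ t := rfl

/-- **`x' : T₂ → θ₁.range` is a local homomorphism** (`T₂` local, `T₁` integral over `O`):
it is the composite of the surjection `T₂ ↠ θ₂.range` and the integral injection
`θ₂.range ↪ θ₁.range`. -/
theorem isLocalHom_of_range_le [IsLocalRing T₂] [Algebra.IsIntegral O T₁]
    (θ₁ : T₁ →ₐ[O] Ω) (θ₂ : T₂ →ₐ[O] Ω) (hle : ∀ t, θ₂ t ∈ θ₁.range) :
    IsLocalHom (corestrict θ₁ θ₂ hle).toRingHom := by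
  have hle' : θ₂.range ≤ θ₁.range := by
    rintro _ ⟨t, rfl⟩
    exact hle t
  let ι : θ₂.range →ₐ[O] θ₁.range := Subalgebra.inclusion hle'
  have hι_inj : Function.Injective ι.toRingHom := Subalgebra.inclusion_injective hle'
  have hint₁ : Algebra.IsIntegral O θ₁.range :=
    Algebra.IsIntegral.of_surjective θ₁.rangeRestrict θ₁.rangeRestrict_surjective
  have hι_int : ι.toRingHom.IsIntegral := by
    refine RingHom.IsIntegral.tower_top (algebraMap O θ₂.range) ι.toRingHom ?_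
    have e : ι.toRingHom.comp (algebraMap O θ₂.range) = algebraMap O θ₁.range := by
      refine RingHom.ext fun a => ?_
      exact ι.commutes a
    rw [e]
    exact algebraMap_isIntegral_iff.mpr hint₁
  have h1 : IsLocalHom ι.toRingHom := hι_int.isLocalHom hι_inj
  have h2 : IsLocalHom θ₂.rangeRestrict.toRingHom :=
    IsLocalHom.of_surjective _ θ₂.rangeRestrict_surjective
  have e : (corestrict θ₁ θ₂ hle).toRingHom = ι.toRingHom.comp θ₂.rangeRestrict.toRingHom := by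
    ext t
    rfl
  rw [e]
  exact RingHom.isLocalHom_comp _ _

end Adapter

section Hecke

variable {p : ℕ} {N : ℕ} [NeZero N] {S : Finset ℕ}
  {𝒪 : Type} [CommRing 𝒪] [IsDomain 𝒪] [IsDiscreteValuationRing 𝒪]
  [IsAdicComplete (IsLocalRing.maximalIdeal 𝒪) 𝒪]
  {θ : CuspForm.heckeAlgebra N 2 (↑S : Set ℕ) →+* IsLocalRing.ResidueField 𝒪}
  {T : Type} [CommRing T] [IsLocalRing T] [IsNoetherianRing T]
  [IsAdicComplete (IsLocalRing.maximalIdeal T) T] [Algebra 𝒪 T] [IsLocalHom (algebraMap 𝒪 T)]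
  [Module.Finite 𝒪 T] [Module.Free 𝒪 T]
  {TQ : Type} [CommRing TQ] [IsLocalRing TQ] [IsNoetherianRing TQ] [Algebra 𝒪 TQ]
  [Algebra.IsIntegral 𝒪 TQ]
  {N' : ℕ} [NeZero N'] {S' : Finset ℕ}
  {θ' : CuspForm.heckeAlgebra N' 2 (↑S' : Set ℕ) →+* IsLocalRing.ResidueField 𝒪}
  {T' : Type} [CommRing T'] [IsLocalRing T'] [IsNoetherianRing T']
  [IsAdicComplete (IsLocalRing.maximalIdeal T') T'] [Algebra 𝒪 T'] [IsLocalHom (algebraMap 𝒪 T')]
  [Module.Finite 𝒪 T'] [Module.Free 𝒪 T']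
  {Ω : Type} [CommRing Ω] [IsReduced Ω] [Nontrivial Ω] [Algebra 𝒪 Ω]

open Fermat.Agent.GB.B4.Datum.Push

/-- **(1pt) for `AlgHom` points**: `θ₁ : T_Q →ₐ[𝒪] Ω` a point of `T_Q`, `θ₂ : T' →ₐ[𝒪] Ω` a point of
the Hecke ring of a datum `H'` of a level `N'` with `r ∥ N'`, `range θ₂ ≤ range θ₁`, same
`T_ℓ`-eigenvalues for `ℓ ∉ B`.  Then `θ₁ (χ i s) = 1` for every inertia element `s` at `P ∣ r`
(`ρ_Q|D_P = χ₀ ⊕ χ₁` in the basis `Bas`). -/
theorem chi_point_eq_one_of_algHom [Finite (ResidueField 𝒪)] [CharZero 𝒪]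
    (H : HeckeGaloisRepDatum N (↑S : Set ℕ) 𝒪 θ T) (φ : T →+* TQ) (hφ : IsLocalHom φ)
    (H' : HeckeGaloisRepDatum N' (↑S' : Set ℕ) 𝒪 θ' T')
    (θ₁ : TQ →ₐ[𝒪] Ω) (θ₂ : T' →ₐ[𝒪] Ω) (hle : ∀ t, θ₂ t ∈ θ₁.range)
    (h2 : ∀ c : Ω, (2 : Ω) * c = 0 → c = 0) (B : Finset ℕ)
    (hB : ∀ ℓ : ℕ, ℓ.Prime → ℓ ∉ B →
      ¬ ℓ ∣ N ∧ ℓ ∉ (↑S : Set ℕ) ∧ ¬ ℓ ∣ N' ∧ ℓ ∉ (↑S' : Set ℕ))
    (hmatch : ∀ (ℓ : ℕ) (hℓ : ℓ.Prime) (hℓN : ¬ ℓ ∣ N) (hℓS : ℓ ∉ (↑S : Set ℕ))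
      (hℓN' : ¬ ℓ ∣ N') (hℓS' : ℓ ∉ (↑S' : Set ℕ)), ℓ ∉ B →
      θ₁ (φ (H.π (heckeAlgebra.T hℓ hℓN hℓS))) = θ₂ (H'.π (heckeAlgebra.T hℓ hℓN' hℓS')))
    (hp : p.Prime) (hp𝒪 : (p : 𝒪) ∈ IsLocalRing.maximalIdeal 𝒪) (hpS' : p ∈ S')
    (hNS' : ∀ q : ℕ, q.Prime → q ∣ N' → q ∈ S')
    {r : ℕ} (hr : r.Prime) (hrp : r ≠ p) (hrN' : r ∣ N') (hr2 : ¬ r ^ 2 ∣ N')
    (P : ValuationSubring Qb) (hP : P.LiesOverPrime r)
    (Bas : Module.Basis (Fin 2) TQ (pushRep H φ hφ).V)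
    (χ : Fin 2 → P.decompositionSubgroup ℚ →* TQˣ)
    (hχ : ∀ (i : Fin 2) (σ : P.decompositionSubgroup ℚ),
      (pushRep H φ hφ).ρ (σ : GQ) (Bas i) = (χ i σ : TQ) • Bas i)
    (s : GQ) (hs : s ∈ P.inertiaSubgroupIn ℚ) (hsD : s ∈ P.decompositionSubgroup ℚ)
    (i : Fin 2) : θ₁ (χ i ⟨s, hsD⟩ : TQ) = 1 := by
  haveI : IsLocalRing θ₁.range := isLocalRing_algHomRange θ₁
  haveI : IsNoetherianRing θ₁.range := isNoetherianRing_algHomRange θ₁
  haveI : IsReduced θ₁.range := isReduced_algHomRange θ₁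
  have h2' : ∀ c : θ₁.range, (2 : θ₁.range) * c = 0 → c = 0 := fun c hc => by
    apply Subtype.ext
    apply h2
    have h3 := congrArg (Subtype.val) hc
    have e2 : ((2 : θ₁.range) : Ω) = 2 := by
      have : (2 : θ₁.range) = 1 + 1 := by norm_num
      rw [this]
      push_cast
      norm_num
    rw [MulMemClass.coe_mul, e2] at h3
    simpa using h3
  have h := Fermat.Agent.GB.B9.UnitGlobal.chi_point_eq_one_of_datum H φ hφ H'
    θ₁.rangeRestrict.toRingHom (isLocalHom_rangeRestrict θ₁)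
    (corestrict θ₁ θ₂ hle).toRingHom (isLocalHom_of_range_le θ₁ θ₂ hle) h2' B hB
    (fun ℓ hℓ hℓN hℓS hℓN' hℓS' hℓB => Subtype.ext (hmatch ℓ hℓ hℓN hℓS hℓN' hℓS' hℓB))
    hp hp𝒪 hpS' hNS' hr hrp hrN' hr2 P hP Bas χ hχ s hs hsD i
  exact congrArg Subtype.val h

end Hecke

end Fermat.Agent.GB.B9.UnitGlobalPt
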