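/-
GATE-B / (1pt)-GLOBAL, **`ρ`-generic twins** of helper66's `UnitGlobal.trace_det_at_point`,
`UnitGlobal.chi_point_eq_one_of_datum` and `UnitGlobalPt.chi_point_eq_one_of_algHom` (helper6).

The consumers (`ProviderFlat/G4Pkg.exists_x_of_pkg`, binder `h1`) know `ρ_Q` only as the
`∃`-witness of `ProviderFlat/G3.exists_psi_flat`, through its conjunct
  `hchar : charpoly ρ_Q(Frob_ℓ) = X² - tw(T_ℓ) X + ℓ`   (`ℓ ∉ S`, `ℓ ∤ N`),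
not as `pushRep H φ hφ`.  helper66's abstract core `UnitGlobal.trace_det_of_frob_match` is already
`ρ`-generic, so the three statements hold verbatim for ANY `ρ : GaloisRepAdic T_Q` with `hchar`
(`tw : heckeAlgebra N 2 S →+* T_Q` any ring hom; no upper-level datum `H`, `φ` needed).
-/
import Fermat.Agent.GB.B9.UnitGlobalPt

set_option autoImplicit false
set_option linter.unusedSectionVars false
set_option linter.style.haveILetI false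

namespace Fermat.Agent.GB.B9.UnitGlobalRho

open Polynomial IsLocalRing CuspForm
open Fermat.Agent.Common_helper32 Fermat.Agent.GB.B4.Datum.Push
open Fermat.Agent.GB.B9.UnitGlobal Fermat.Agent.GB.B9.UnitGlobalPt

section Hecke

variable {p : ℕ} {N : ℕ} [NeZero N] {S : Finset ℕ}
  {𝒪 : Type} [CommRing 𝒪] [IsDomain 𝒪] [IsDiscreteValuationRing 𝒪]
  [IsAdicComplete (IsLocalRing.maximalIdeal 𝒪) 𝒪]
  {TQ : Type} [CommRing TQ] [IsLocalRing TQ]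
  {N' : ℕ} [NeZero N'] {S' : Finset ℕ}
  {θ' : CuspForm.heckeAlgebra N' 2 (↑S' : Set ℕ) →+* IsLocalRing.ResidueField 𝒪}
  {T' : Type} [CommRing T'] [IsLocalRing T'] [IsNoetherianRing T']
  [IsAdicComplete (IsLocalRing.maximalIdeal T') T'] [Algebra 𝒪 T'] [IsLocalHom (algebraMap 𝒪 T')]
  [Module.Finite 𝒪 T'] [Module.Free 𝒪 T']

section Local

variable {Ox : Type} [CommRing Ox] [IsLocalRing Ox] [IsNoetherianRing Ox]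

/-- **(1pt)-GLOBAL, `ρ`-generic**: `ρ` over `T_Q` with `charpoly ρ(Frob_ℓ) = X² - tw(T_ℓ) X + ℓ`,
a point `x : T_Q → O_x`, a datum `H'` of a level `N'` with `r ∥ N'` and a point `x' : T' → O_x`
with the same `T_ℓ`-eigenvalues (`ℓ ∉ B`). -/
theorem trace_det_at_point_rho [Finite (ResidueField 𝒪)] [CharZero 𝒪]
    (ρ : GaloisRepAdic TQ) (tw : heckeAlgebra N 2 (↑S : Set ℕ) →+* TQ)
    (hchar : ∀ (ℓ : ℕ) (hℓ : ℓ.Prime) (hℓN : ¬ ℓ ∣ N) (hℓS : ℓ ∉ (↑S : Set ℕ))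
      (A : ValuationSubring Qb), A.LiesOverPrime ℓ → ∀ σ : GQ, A.IsFrobeniusAt σ ℓ →
        LinearMap.charpoly (ρ.ρ σ) =
          X ^ 2 - C (tw (heckeAlgebra.T hℓ hℓN hℓS)) * X + C ((ℓ : TQ)))
    (H' : HeckeGaloisRepDatum N' (↑S' : Set ℕ) 𝒪 θ' T')
    (x : TQ →+* Ox) (hx : IsLocalHom x) (x' : T' →+* Ox) (hx' : IsLocalHom x')
    (h2 : ∀ c : Ox, (2 : Ox) * c = 0 → c = 0) (B : Finset ℕ)
    (hB : ∀ ℓ : ℕ, ℓ.Prime → ℓ ∉ B →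
      ¬ ℓ ∣ N ∧ ℓ ∉ (↑S : Set ℕ) ∧ ¬ ℓ ∣ N' ∧ ℓ ∉ (↑S' : Set ℕ))
    (hmatch : ∀ (ℓ : ℕ) (hℓ : ℓ.Prime) (hℓN : ¬ ℓ ∣ N) (hℓS : ℓ ∉ (↑S : Set ℕ))
      (hℓN' : ¬ ℓ ∣ N') (hℓS' : ℓ ∉ (↑S' : Set ℕ)), ℓ ∉ B →
      x (tw (heckeAlgebra.T hℓ hℓN hℓS)) = x' (H'.π (heckeAlgebra.T hℓ hℓN' hℓS')))
    (hp : p.Prime) (hp𝒪 : (p : 𝒪) ∈ IsLocalRing.maximalIdeal 𝒪) (hpS' : p ∈ S')
    (hNS' : ∀ q : ℕ, q.Prime → q ∣ N' → q ∈ S')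
    {r : ℕ} (hr : r.Prime) (hrp : r ≠ p) (hrN' : r ∣ N') (hr2 : ¬ r ^ 2 ∣ N')
    (P : ValuationSubring Qb) (hP : P.LiesOverPrime r) (s : GQ)
    (hs : s ∈ P.inertiaSubgroupIn ℚ) :
    x (ρ.trace s) = 2 ∧ x (LinearMap.det (ρ.ρ s)) = 1 := by
  refine trace_det_of_frob_match ρ x hx (pushRep H' x' hx') B ?_ h2
    (isUnipotentOnInertiaAt_push hp hp𝒪 hpS' hNS' H' x' hx' r hr hrp hrN' hr2) P hP s hs
  intro ℓ hℓ hℓB P' hP' σ hσ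
  obtain ⟨hℓN, hℓS, hℓN', hℓS'⟩ := hB ℓ hℓ hℓB
  rw [hchar ℓ hℓ hℓN hℓS P' hP' σ hσ,
    charpoly_frob_push H' x' hx' ℓ hℓ hℓN' hℓS' P' hP' σ hσ,
    Polynomial.map_add, Polynomial.map_sub, Polynomial.map_mul, Polynomial.map_pow,
    Polynomial.map_X, Polynomial.map_C, Polynomial.map_C, map_natCast,
    hmatch ℓ hℓ hℓN hℓS hℓN' hℓS' hℓB]

/-- **(1pt)-GLOBAL at a local point, `ρ`-generic**: for ANY diagonalisation `(Bas, χ)` of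
`ρ|D_P`, `x (χ i s) = 1` for every inertia element `s` at `P ∣ r`, `O_x` reduced. -/
theorem chi_point_eq_one_of_datum_rho [Finite (ResidueField 𝒪)] [CharZero 𝒪] [IsReduced Ox]
    (ρ : GaloisRepAdic TQ) (tw : heckeAlgebra N 2 (↑S : Set ℕ) →+* TQ)
    (hchar : ∀ (ℓ : ℕ) (hℓ : ℓ.Prime) (hℓN : ¬ ℓ ∣ N) (hℓS : ℓ ∉ (↑S : Set ℕ))
      (A : ValuationSubring Qb), A.LiesOverPrime ℓ → ∀ σ : GQ, A.IsFrobeniusAt σ ℓ →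
        LinearMap.charpoly (ρ.ρ σ) =
          X ^ 2 - C (tw (heckeAlgebra.T hℓ hℓN hℓS)) * X + C ((ℓ : TQ)))
    (H' : HeckeGaloisRepDatum N' (↑S' : Set ℕ) 𝒪 θ' T')
    (x : TQ →+* Ox) (hx : IsLocalHom x) (x' : T' →+* Ox) (hx' : IsLocalHom x')
    (h2 : ∀ c : Ox, (2 : Ox) * c = 0 → c = 0) (B : Finset ℕ)
    (hB : ∀ ℓ : ℕ, ℓ.Prime → ℓ ∉ B →
      ¬ ℓ ∣ N ∧ ℓ ∉ (↑S : Set ℕ) ∧ ¬ ℓ ∣ N' ∧ ℓ ∉ (↑S' : Set ℕ))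
    (hmatch : ∀ (ℓ : ℕ) (hℓ : ℓ.Prime) (hℓN : ¬ ℓ ∣ N) (hℓS : ℓ ∉ (↑S : Set ℕ))
      (hℓN' : ¬ ℓ ∣ N') (hℓS' : ℓ ∉ (↑S' : Set ℕ)), ℓ ∉ B →
      x (tw (heckeAlgebra.T hℓ hℓN hℓS)) = x' (H'.π (heckeAlgebra.T hℓ hℓN' hℓS')))
    (hp : p.Prime) (hp𝒪 : (p : 𝒪) ∈ IsLocalRing.maximalIdeal 𝒪) (hpS' : p ∈ S')
    (hNS' : ∀ q : ℕ, q.Prime → q ∣ N' → q ∈ S')
    {r : ℕ} (hr : r.Prime) (hrp : r ≠ p) (hrN' : r ∣ N') (hr2 : ¬ r ^ 2 ∣ N')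
    (P : ValuationSubring Qb) (hP : P.LiesOverPrime r)
    (Bas : Module.Basis (Fin 2) TQ ρ.V)
    (χ : Fin 2 → P.decompositionSubgroup ℚ →* TQˣ)
    (hχ : ∀ (i : Fin 2) (σ : P.decompositionSubgroup ℚ),
      ρ.ρ (σ : GQ) (Bas i) = (χ i σ : TQ) • Bas i)
    (s : GQ) (hs : s ∈ P.inertiaSubgroupIn ℚ) (hsD : s ∈ P.decompositionSubgroup ℚ)
    (i : Fin 2) : x (χ i ⟨s, hsD⟩ : TQ) = 1 := by
  obtain ⟨htr, hdet⟩ := trace_det_at_point_rho ρ tw hchar H' x hx x' hx' h2 B hB hmatch hp hp𝒪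
    hpS' hNS' hr hrp hrN' hr2 P hP s hs
  exact Fermat.Agent.GB.Alg.UnitLocal.chi_point_eq_one_of_trace_det ρ P Bas χ hχ x
    ⟨s, hsD⟩ htr hdet i

end Local

section AlgHomPoint

variable [IsNoetherianRing TQ] [Algebra 𝒪 TQ] [Algebra.IsIntegral 𝒪 TQ]
  {Ω : Type} [CommRing Ω] [IsReduced Ω] [Nontrivial Ω] [Algebra 𝒪 Ω]

/-- **(1pt) for `AlgHom` points, `ρ`-generic**: `θ₁ : T_Q →ₐ[𝒪] Ω` a point of `T_Q`,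
`θ₂ : T' →ₐ[𝒪] Ω` a point of the Hecke ring of a datum `H'` of a level `N'` with `r ∥ N'`,
`range θ₂ ≤ range θ₁`, same `T_ℓ`-eigenvalues for `ℓ ∉ B`.  Then `θ₁ (χ i s) = 1` for every
inertia element `s` at `P ∣ r`, for ANY `ρ` over `T_Q` with the Eichler–Shimura characteristic
polynomials of `tw` and ANY diagonalisation `(Bas, χ)` of `ρ|D_P`. -/
theorem chi_point_eq_one_of_algHom_rho [Finite (ResidueField 𝒪)] [CharZero 𝒪]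
    (ρ : GaloisRepAdic TQ) (tw : heckeAlgebra N 2 (↑S : Set ℕ) →+* TQ)
    (hchar : ∀ (ℓ : ℕ) (hℓ : ℓ.Prime) (hℓN : ¬ ℓ ∣ N) (hℓS : ℓ ∉ (↑S : Set ℕ))
      (A : ValuationSubring Qb), A.LiesOverPrime ℓ → ∀ σ : GQ, A.IsFrobeniusAt σ ℓ →
        LinearMap.charpoly (ρ.ρ σ) =
          X ^ 2 - C (tw (heckeAlgebra.T hℓ hℓN hℓS)) * X + C ((ℓ : TQ)))
    (H' : HeckeGaloisRepDatum N' (↑S' : Set ℕ) 𝒪 θ' T')
    (θ₁ : TQ →ₐ[𝒪] Ω) (θ₂ : T' →ₐ[𝒪] Ω) (hle : ∀ t, θ₂ t ∈ θ₁.range)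
    (h2 : ∀ c : Ω, (2 : Ω) * c = 0 → c = 0) (B : Finset ℕ)
    (hB : ∀ ℓ : ℕ, ℓ.Prime → ℓ ∉ B →
      ¬ ℓ ∣ N ∧ ℓ ∉ (↑S : Set ℕ) ∧ ¬ ℓ ∣ N' ∧ ℓ ∉ (↑S' : Set ℕ))
    (hmatch : ∀ (ℓ : ℕ) (hℓ : ℓ.Prime) (hℓN : ¬ ℓ ∣ N) (hℓS : ℓ ∉ (↑S : Set ℕ))
      (hℓN' : ¬ ℓ ∣ N') (hℓS' : ℓ ∉ (↑S' : Set ℕ)), ℓ ∉ B →
      θ₁ (tw (heckeAlgebra.T hℓ hℓN hℓS)) = θ₂ (H'.π (heckeAlgebra.T hℓ hℓN' hℓS')))
    (hp : p.Prime) (hp𝒪 : (p : 𝒪) ∈ IsLocalRing.maximalIdeal 𝒪) (hpS' : p ∈ S')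
    (hNS' : ∀ q : ℕ, q.Prime → q ∣ N' → q ∈ S')
    {r : ℕ} (hr : r.Prime) (hrp : r ≠ p) (hrN' : r ∣ N') (hr2 : ¬ r ^ 2 ∣ N')
    (P : ValuationSubring Qb) (hP : P.LiesOverPrime r)
    (Bas : Module.Basis (Fin 2) TQ ρ.V)
    (χ : Fin 2 → P.decompositionSubgroup ℚ →* TQˣ)
    (hχ : ∀ (i : Fin 2) (σ : P.decompositionSubgroup ℚ),
      ρ.ρ (σ : GQ) (Bas i) = (χ i σ : TQ) • Bas i)
    (s : GQ) (hs : s ∈ P.inertiaSubgroupIn ℚ) (hsD : s ∈ P.decompositionSubgroup ℚ)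
    (i : Fin 2) : θ₁ (χ i ⟨s, hsD⟩ : TQ) = 1 := by
  haveI : IsLocalRing θ₁.range := isLocalRing_algHomRange θ₁
  haveI : IsNoetherianRing θ₁.range := isNoetherianRing_algHomRange θ₁
  haveI : IsReduced θ₁.range := isReduced_algHomRange θ₁
  have h2' : ∀ c : θ₁.range, (2 : θ₁.range) * c = 0 → c = 0 := fun c hc => by
    apply Subtype.ext
    apply h2
    have h3 := congrArg (Subtype.val) hc
    have e2 : ((2 : θ₁.range) : Ω) = 2 := by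
      have : (2 : θ₁.range) = 1 + 1 := by norm_num
      rw [this]
      push_cast
      norm_num
    rw [MulMemClass.coe_mul, e2] at h3
    simpa using h3
  have h := chi_point_eq_one_of_datum_rho ρ tw hchar H'
    θ₁.rangeRestrict.toRingHom (isLocalHom_rangeRestrict θ₁)
    (corestrict θ₁ θ₂ hle).toRingHom (isLocalHom_of_range_le θ₁ θ₂ hle) h2' B hB
    (fun ℓ hℓ hℓN hℓS hℓN' hℓS' hℓB => Subtype.ext (hmatch ℓ hℓ hℓN hℓS hℓN' hℓS' hℓB))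
    hp hp𝒪 hpS' hNS' hr hrp hrN' hr2 P hP Bas χ hχ s hs hsD i
  exact congrArg Subtype.val h

end AlgHomPoint

end Hecke

end Fermat.Agent.GB.B9.UnitGlobalRho
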