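/-
GATE-B (Ribet level lowering, S38/S43) / B9, node GB-B9-THETA-T part 2 (helper4): **the `Θ₀`-supply
of the PROVIDER from the SETUP bundle** — everything the B2 side (S53 + framed S56) gives at every
Taylor–Wiles level, with ALL inner binders of `FrameThetaInst.MultiP6ThetaConcl` discharged.

Input: `P : SetupPkg.Pkg p W hcard₁ hker M A`, the minimal-level binder `hSg` of
`SplitMin.CaseB38minFlatF` (every prime `ℓ ≠ p` of `M` is ramified for `ρ̄`, or `≡ 1 (p)` with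
scalar Frobenius), an enumeration `ℓs : Fin (s + 1) → ℕ` of the framed primes `P.Su` (the consumer
puts `q` last), and the two residual binders `hflat`, `hunip` (`ρ̄` flat at `p`, unipotent on
`Smin`; they are only used for the EXISTENCE of `R_Q`).

Output (`exists_theta_FL`): `Sig`, `r`, and for every `n` a Taylor–Wiles set `qv : Fin r → ℕ` (the
frozen S56 clauses) such that
* the deformation ring datum `DQ` of `framedCond p (flatCondition P.O p) P.Smin P.Su (image qv)`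
  EXISTS (`FramedExist`), and
* for EVERY such `DQ` there are framed places `pl`, tame data `d` (`(d i).q = ℓs i`), Kummer test
  elements `φ i`, `τ₀ i` at `ℓs i` and a SURJECTIVE
  `Ψ : P.O⟦(Fin (s+1) × Fin 6) ⊕ Fin r⟧ →ₐ FRing DQ (FrPlaces …)` (= helper54's flat ring
  `RM P.O (s+1) r`) with the `coords` / `IsTamePair` / tame-relation clauses = the inputs of
  `ThetaT.package`.
The strict-ordinary twin `exists_theta_SO` takes the residual type of `ρ̄` as one binder.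
-/
import Mathlib
import Fermat.Agent.GB.Setup.SetupPkg
import Fermat.Agent.GB.Def.FramedExist
import Fermat.Agent.GB.Def.FrameThetaInst
import Fermat.Agent.GB.Top.S43Frey

set_option autoImplicit false
set_option linter.unusedSectionVars false
set_option linter.unusedVariables false
set_option linter.style.haveILetI false

open WeierstrassCurve WeierstrassCurve.Affine.Point IsLocalRing
open scoped WeierstrassCurve.Affine

namespace Fermat.Agent.GB.B9.ThetaSupply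

open Fermat.Agent.GB.Setup.RhoBar Fermat.Agent.GB.Setup.SetupPkg
  Fermat.Agent.GB.Def.FramedInstKummer Fermat.Agent.GB.Def.FramedExist
  Fermat.Agent.GB.Def.FramedNodes Fermat.Agent.GB.Def.FramedSel Fermat.Agent.GB.Def.FramedRing
  Fermat.Agent.GB.Def.LocGenInst Fermat.Agent.GB.Def.FrameTheta
  Fermat.Agent.GB.Def.FrameThetaMulti Fermat.Agent.GB.Def.FrameThetaInst
  Fermat.Agent.GB.Local.ABig Fermat.Agent.GP.Core Fermat.Agent.GP.Tan.TanTop
  Fermat.Agent.GP.Tan.SelmerFrozen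
  Fermat.Agent.GB.Top.S43Frey

/-- `ℚ̄`. -/
local notation "Qb" => AlgebraicClosure ℚ
/-- `G_ℚ`. -/
local notation "GQ" => (AlgebraicClosure ℚ ≃ₐ[ℚ] AlgebraicClosure ℚ)

noncomputable section

/-! ### base change of residual representations: scalars and inertia -/

section BaseChange

variable {k₀ : Type} [Field k₀] (ρ : ResidualGaloisRep k₀) (k : Type) [Field k] [Algebra k₀ k]

/-- base change preserves scalar endomorphisms -/
theorem scalar_baseChange (τ : GQ) (c : k₀)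
    (hc : ρ.ρ τ = c • (1 : Module.End k₀ ρ.V)) :
    (ρ.baseChange k).ρ τ = algebraMap k₀ k c • (1 : Module.End k (ρ.baseChange k).V) := by
  show (ρ.ρ τ).baseChange k = algebraMap k₀ k c • (1 : Module.End k (TensorProduct k₀ k ρ.V))
  rw [hc]
  refine LinearMap.ext fun x => ?_
  induction x using TensorProduct.induction_on with
  | zero => rw [_root_.map_zero, _root_.map_zero]
  | tmul a v =>
    rw [LinearMap.baseChange_tmul, LinearMap.smul_apply, Module.End.one_apply,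
      LinearMap.smul_apply, Module.End.one_apply, TensorProduct.tmul_smul,
      TensorProduct.smul_tmul']
    show (c • a) ⊗ₜ[k₀] v = (algebraMap k₀ k c • a) ⊗ₜ[k₀] v
    rw [Algebra.smul_def, smul_eq_mul]
  | add x y hx hy => rw [_root_.map_add, _root_.map_add, hx, hy]

/-- unramifiedness descends along a base change -/
theorem isUnramifiedAt_of_baseChange {q : ℕ} (h : (ρ.baseChange k).IsUnramifiedAt q) :
    ρ.IsUnramifiedAt q := by
  intro A hA σ hσ
  have h1 : (ρ.ρ σ).baseChange k = 1 := h A hA σ hσ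
  apply LinearMap.baseChangeHom_injective k₀ ρ.V k
  change Module.End.baseChangeHom k₀ k ρ.V (ρ.ρ σ) = Module.End.baseChangeHom k₀ k ρ.V 1
  rw [map_one]
  exact h1

end BaseChange

/-! ### the SETUP side -/

variable {p : ℕ} [Fact p.Prime] {W : WeierstrassCurve ℤ}
  {hcard₁ : Nat.card (Submodule.torsionBy ℤ
    ((W.map (Int.castRingHom ℚ))⁄(AlgebraicClosure ℚ)).Point p) = p ^ 2}
  {hker : GaloisFactorsThroughFiniteLevel
    (galoisRepModuleEnd (K := AlgebraicClosure ℚ) ℚ (W.map (Int.castRingHom ℚ)) p)}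
  {M A : ℕ} (P : Pkg p W hcard₁ hker M A)

/-- the minimal-level binder of `SplitMin.CaseB38minFlatF` / `CaseB38minNewF`. -/
def SgHyp (p : ℕ) [Fact p.Prime] (W : WeierstrassCurve ℤ)
    (hcard₁ : Nat.card (Submodule.torsionBy ℤ
      ((W.map (Int.castRingHom ℚ))⁄(AlgebraicClosure ℚ)).Point p) = p ^ 2)
    (hker : GaloisFactorsThroughFiniteLevel
      (galoisRepModuleEnd (K := AlgebraicClosure ℚ) ℚ (W.map (Int.castRingHom ℚ)) p))
    (M : ℕ) : Prop :=
  ∀ ℓ : ℕ, ℓ.Prime → ℓ ∣ M → ℓ ≠ p →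
    ¬ ((W.map (Int.castRingHom ℚ)).residualGaloisRepOf p hcard₁ hker).IsUnramifiedAt ℓ ∨
      (ℓ % p = 1 ∧ ScalarFrob38 W p ℓ)

/-- **at a framed prime the Frobenius elements are scalar and `ℓ ≡ 1 (p)`** -/
theorem scalar_of_mem_Su (hSg : SgHyp p W hcard₁ hker M) {ℓ : ℕ} (hℓ : ℓ ∈ P.Su) :
    ℓ % p = 1 ∧ ∀ A : ValuationSubring Qb, A.LiesOverPrime ℓ → ∀ φ : GQ, A.IsFrobeniusAt φ ℓ →
      ∃ c : P.k, P.rhobar.ρ φ = c • (1 : Module.End P.k P.rhobar.V) := by
  obtain ⟨hpr, hM, hp, hur⟩ := P.mem_Su_iff.mp hℓ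
  have hur0 : (rb p W hcard₁ hker).IsUnramifiedAt ℓ :=
    isUnramifiedAt_of_baseChange (rb p W hcard₁ hker) P.k hur
  rcases hSg ℓ hpr hM hp with h | ⟨h1, hsc⟩
  · exact absurd hur0 h
  · refine ⟨h1, fun A hA φ hφ => ?_⟩
    obtain ⟨c, hc⟩ := hsc A hA φ hφ
    exact ⟨algebraMap (ZMod p) P.k c, scalar_baseChange (rb p W hcard₁ hker) P.k φ c hc⟩

/-- `2` is a unit of the coefficient ring -/
theorem isUnit_two : IsUnit (2 : P.O) := by
  have hp : p.Prime := Fact.out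
  have h := Fermat.Agent.GB.Def.FrameRes.isUnit_natCast_of_coprime (𝒪 := P.O) (p := p) (a := 2)
    P.hpO ((Nat.coprime_primes Nat.prime_two hp).2 (fun h => P.hp2 h.symm))
  simpa using h

/-- **the tame datum at a framed prime** with a given Frobenius element -/
theorem exists_tameDatum (hSg : SgHyp p W hcard₁ hker M) {ℓ : ℕ} (hℓ : ℓ ∈ P.Su)
    (A : ValuationSubring Qb) (hA : A.LiesOverPrime ℓ) (φ : GQ) (hφ : A.IsFrobeniusAt φ ℓ) :
    ∃ d : TameDatum P.O, d.q = ℓ ∧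
      P.rhobar.ρ φ = residue P.O d.u • (1 : Module.End P.k P.rhobar.V) := by
  have hp : p.Prime := Fact.out
  obtain ⟨hpr, hM, hℓp, hur⟩ := P.mem_Su_iff.mp hℓ
  obtain ⟨-, hsc⟩ := scalar_of_mem_Su P hSg hℓ
  obtain ⟨c, hc⟩ := hsc A hA φ hφ
  obtain ⟨u, rfl⟩ := residue_surjective c
  -- the determinant
  have hdet : LinearMap.det (P.rhobar.ρ φ) = ((ℓ : ℕ) : P.k) := by
    have h := Fermat.Agent.GB.Def.FrameRes.det_eq_natCast_of_detIsCyclotomic
      (GaloisRepAdic.ofResidualGaloisRep P.rhobar) p P.hdet φ ℓ (fun n μ hμ => by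
        refine Fermat.Agent.GJ.Cyc.frob_rootOfUnity A ℓ hpr hA φ hφ (p ^ n) ?_ μ hμ
        intro hdvd
        exact hℓp ((Nat.prime_dvd_prime_iff_eq hpr hp).1 (hpr.dvd_of_dvd_pow hdvd)))
    exact h
  have hsq : (residue P.O u) ^ 2 = ((ℓ : ℕ) : P.k) := by
    rw [← hdet, hc, LinearMap.det_smul, map_one, mul_one, P.rhobar.finrank_eq]
  have hℓ0 : ((ℓ : ℕ) : P.k) ≠ 0 := by
    intro h0
    have h1 : (p : ℕ) ∣ ℓ := (CharP.cast_eq_zero_iff P.k p ℓ).mp h0
    exact hℓp ((Nat.prime_dvd_prime_iff_eq hp hpr).1 h1).symm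
  have hu : IsUnit u := by
    by_contra hnu
    have h1 : residue P.O u = 0 := (residue_eq_zero_iff u).mpr ((mem_maximalIdeal u).mpr hnu)
    rw [h1] at hsq
    exact hℓ0 (by rw [← hsq]; ring)
  refine ⟨⟨ℓ, u, isUnit_two P, hu, ?_⟩, rfl, hc⟩
  rw [← residue_eq_zero_iff, map_sub, map_pow, map_natCast, hsq, sub_self]

/-! ### the supply -/

section Supply

variable {s : ℕ} (ℓs : Fin (s + 1) → ℕ)

/-- the inner conclusion at ONE Taylor–Wiles level, for one datum `DQ` -/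
def ThetaAt (base : Finset ℕ → ∀ ⦃B : Type⦄ [CommRing B] [IsLocalRing B] [Algebra P.O B],
    GaloisRepAdic B → Prop) (Sig : Finset Nat.Primes) {r : ℕ} (qv : Fin r → ℕ)
    (DQ : GaloisRep.DeformationRingData P.O P.rhobar
      (framedCond p base P.Smin P.Su (Finset.univ.image qv))) : Prop :=
  ∃ (pl : Fin (s + 1) → FrPlaces P.Su (Finset.univ.image qv) (levelOfTW Sig qv))
    (d : Fin (s + 1) → TameDatum P.O) (φ τ₀ : Fin (s + 1) → Fermat.Agent.S53_helper35.GQ)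
    (Ψ : MvPowerSeries ((Fin (s + 1) × Fin 6) ⊕ Fin r) P.O →ₐ[P.O]
      FRing DQ (FrPlaces P.Su (Finset.univ.image qv) (levelOfTW Sig qv))),
    Function.Surjective pl ∧ (∀ i, plOf (levelOfTW Sig qv) (pl i).1 = ℓs i) ∧
    (∀ i, (d i).q = ℓs i) ∧
    (∀ i, KummerTests (plOf (levelOfTW Sig qv) (pl i).1) p (φ i) (τ₀ i)) ∧
    Function.Surjective Ψ ∧
    (∀ i t, Ψ (MvPowerSeries.X (Sum.inl (i, t))) =
      coords (d i) (framedMat DQ _ (pl i) (φ i)) (framedMat DQ _ (pl i) (τ₀ i)) t) ∧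
    (∀ i, IsTamePair (d i) (framedMat DQ _ (pl i) (φ i)) (framedMat DQ _ (pl i) (τ₀ i))) ∧
    ∀ i, framedMat DQ _ (pl i) (φ i) * framedMat DQ _ (pl i) (τ₀ i) =
      framedMat DQ _ (pl i) (τ₀ i) ^ (d i).q * framedMat DQ _ (pl i) (φ i)

/-- **the level step**: from the tail of `FramedSurjKummerConcl` at one level to `ThetaAt`. -/
theorem thetaAt_of_tail (hSg : SgHyp p W hcard₁ hker M)
    (hℓs : ∀ x, x ∈ P.Su ↔ ∃ i, ℓs i = x)
    (base : Finset ℕ → ∀ ⦃B : Type⦄ [CommRing B] [IsLocalRing B] [Algebra P.O B],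
      GaloisRepAdic B → Prop) (hbase : BaseGlobal P.O p base)
    (Sig : Finset Nat.Primes) (hSig : ∀ q : Nat.Primes, (q : ℕ) ∈ P.Smin ∪ P.Su → q ∈ Sig)
    {r : ℕ} (qv : Fin r → ℕ) (hTW3 : ∀ i, ∀ q ∈ Sig, ((q : Nat.Primes) : ℕ) ≠ qv i)
    (DQ : GaloisRep.DeformationRingData P.O P.rhobar
      (framedCond p base P.Smin P.Su (Finset.univ.image qv)))
    (hF : ∀ (tests : FrPlaces P.Su (Finset.univ.image qv) (levelOfTW Sig qv) →
        Set Fermat.Agent.S53_helper35.GQ),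
      (∀ w : FrPlaces P.Su (Finset.univ.image qv) (levelOfTW Sig qv),
        ∃ φ τ₀ : Fermat.Agent.S53_helper35.GQ,
          KummerTests (plOf (levelOfTW Sig qv) w.1) p φ τ₀ ∧ φ ∈ tests w ∧ τ₀ ∈ tests w) →
      SurjTail DQ (FrPlaces P.Su (Finset.univ.image qv) (levelOfTW Sig qv)) tests r) :
    ThetaAt P ℓs base Sig qv DQ := by
  classical
  have hp : p.Prime := Fact.out
  -- the framed places
  have hmem : ∀ i, ℓs i ∈ P.Su := fun i => (hℓs _).mpr ⟨i, rfl⟩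
  have hpr : ∀ i, (ℓs i).Prime := fun i => (P.mem_Su_iff.mp (hmem i)).1
  have hℓp : ∀ i, ℓs i ≠ p := fun i => (P.mem_Su_iff.mp (hmem i)).2.2.1
  have hSigm : ∀ i, (⟨ℓs i, hpr i⟩ : Nat.Primes) ∈ Sig := fun i =>
    hSig ⟨ℓs i, hpr i⟩ (Finset.mem_union_right _ (hmem i))
  have hlev : ∀ i, (⟨ℓs i, hpr i⟩ : Nat.Primes) ∈ levelOfTW Sig qv := fun i =>
    subset_levelOfTW Sig qv (hSigm i)
  have hnQ : ∀ i, ℓs i ∉ Finset.univ.image qv := by
    intro i hm
    obtain ⟨j, -, hj⟩ := Finset.mem_image.1 hm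
    exact hTW3 j _ (hSigm i) hj.symm
  let pl : Fin (s + 1) → FrPlaces P.Su (Finset.univ.image qv) (levelOfTW Sig qv) := fun i =>
    ⟨(⟨⟨ℓs i, hpr i⟩, hlev i⟩ : ↥(levelOfTW Sig qv)), hnQ i, hmem i⟩
  have hplOf : ∀ i, plOf (levelOfTW Sig qv) (pl i).1 = ℓs i := fun i => rfl
  have hpl : Function.Surjective pl := by
    intro w
    obtain ⟨i, hi⟩ := (hℓs _).mp w.2.2
    refine ⟨i, ?_⟩
    apply Subtype.ext
    show (⟨⟨ℓs i, hpr i⟩, hlev i⟩ : ↥(levelOfTW Sig qv)) = (show ↥(levelOfTW Sig qv) from w.1)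
    apply Subtype.ext
    apply Subtype.ext
    exact hi
  -- the test elements
  have hK : ∀ i, ∃ φ τ₀ : Fermat.Agent.S53_helper35.GQ,
      KummerTests (plOf (levelOfTW Sig qv) (pl i).1) p φ τ₀ := fun i =>
    exists_kummerTests (plOf (levelOfTW Sig qv) (pl i).1) hp (fun h => hℓp i h.symm)
  choose φ τ₀ hKt using hK
  -- the local facts
  haveI hfact : ∀ i, Fact (ℓs i).Prime := fun i => ⟨hpr i⟩
  have hloc : ∀ i, (padicPlace (ℓs i)).LiesOverPrime (ℓs i) ∧
      (padicPlace (ℓs i)).IsFrobeniusAt (φ i) (ℓs i) ∧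
      τ₀ i ∈ (padicPlace (ℓs i)).inertiaSubgroupIn ℚ := by
    intro i
    obtain ⟨x, ζ, hx, hζ, hφ, hτ, hτx⟩ := hKt i
    exact ⟨Fermat.Agent.GP.Loc.TWLocalHlc.natCast_mem_nonunits_padicPlace _, hφ, hτ⟩
  -- the tame data
  have hd : ∀ i, ∃ d : TameDatum P.O, d.q = ℓs i ∧
      P.rhobar.ρ (φ i) = residue P.O d.u • (1 : Module.End P.k P.rhobar.V) := fun i =>
    exists_tameDatum P hSg (hmem i) (padicPlace (ℓs i)) (hloc i).1 (φ i) (hloc i).2.1
  choose d hdq hφu using hd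
  have hcyc : DQ.ρ.DetIsCyclotomic p := (hbase _ DQ.ρ DQ.isOfType.1).1
  have hqpr : ∀ i, (d i).q.Prime := fun i => by rw [hdq i]; exact hpr i
  have htail : SurjTail DQ (FrPlaces P.Su (Finset.univ.image qv) (levelOfTW Sig qv))
      (pairTests pl φ τ₀) r := by
    refine hF (pairTests pl φ τ₀) (fun w => ?_)
    obtain ⟨i, rfl⟩ := hpl w
    exact ⟨φ i, τ₀ i, hKt i, mem_pairTests_left pl φ τ₀ i, mem_pairTests_right pl φ τ₀ i⟩
  obtain ⟨Ψ, hΨ, hco, hpair, hrel⟩ := exists_theta_multiP6 pl d hp hqpr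
    (fun i => by rw [hdq i]; exact fun h => hℓp i h.symm) hcyc
    (fun i => by rw [hdq i]; exact (P.mem_Su_iff.mp (hmem i)).2.2.2)
    (fun i => padicPlace (ℓs i)) (fun i => by rw [hdq i]; exact (hloc i).1) φ τ₀
    (fun i => by rw [hdq i]; exact (hloc i).2.1) (fun i => (hloc i).2.2) hφu htail
  exact ⟨pl, d, φ, τ₀, Ψ, hpl, hplOf, hdq, hKt, hΨ, hco, hpair, hrel⟩

/-- **THE SUPPLY, flat case.** -/
theorem exists_theta_FL (hSg : SgHyp p W hcard₁ hker M)
    (hflat : (GaloisRepAdic.ofResidualGaloisRep P.rhobar).IsFlatAt p)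
    (hunip : ∀ q ∈ P.Smin, q.Prime → q ≠ p →
      (GaloisRepAdic.ofResidualGaloisRep P.rhobar).IsUnipotentOnInertiaAt q)
    (S : Finset ℕ) (hpS : p ∈ S) (hℓs : ∀ x, x ∈ P.Su ↔ ∃ i, ℓs i = x) :
    ∃ Sig : Finset Nat.Primes, (∀ q : Nat.Primes, (q : ℕ) ∈ P.Smin ∪ P.Su → q ∈ Sig) ∧
      ∃ r : ℕ, ∀ n : ℕ, ∃ qv : Fin r → ℕ, Function.Injective qv ∧
        (∀ i, (qv i).Prime ∧ qv i ∉ S ∧ p ^ (n + 1) ∣ qv i - 1) ∧
        (∀ i, ∀ Pl : ValuationSubring (AlgebraicClosure ℚ), Pl.LiesOverPrime (qv i) →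
          ∀ φ : AlgebraicClosure ℚ ≃ₐ[ℚ] AlgebraicClosure ℚ, Pl.IsFrobeniusAt φ (qv i) →
            ∃ α β : P.k, α ≠ β ∧
              LinearMap.charpoly (P.rhobar.ρ φ) = (Polynomial.X - Polynomial.C α) *
                (Polynomial.X - Polynomial.C β)) ∧
        (∀ i, ∀ q ∈ Sig, ((q : Nat.Primes) : ℕ) ≠ qv i) ∧
        Nonempty (GaloisRep.DeformationRingData P.O P.rhobar
          (framedCond p (GaloisRep.flatCondition P.O p) P.Smin P.Su (Finset.univ.image qv))) ∧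
        ∀ DQ : GaloisRep.DeformationRingData P.O P.rhobar
          (framedCond p (GaloisRep.flatCondition P.O p) P.Smin P.Su (Finset.univ.image qv)),
          ThetaAt P ℓs (GaloisRep.flatCondition P.O p) Sig qv DQ := by
  obtain ⟨Sig, hSig, r, hr⟩ := framedSurjKummerX_frozen_FL p P.rhobar P.hp2 P.habs P.hdet
    P.hsplit P.hTW S P.Smin P.Su P.p_mem_Smin hpS P.hmin
    (fun _ hq => P.notMem_Smin_of_mem_Su hq)
  refine ⟨Sig, hSig, r, fun n => ?_⟩
  obtain ⟨qv, hinj, hTW1, hTW2, hTW3, ⟨r', hSel⟩, hF⟩ := hr n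
  refine ⟨qv, hinj, hTW1, hTW2, hTW3, ?_, fun DQ => ?_⟩
  · exact nonempty_DQ_FL (Fermat.Agent.S53_helper35.stdBasisRes P.rhobar) P.habs P.hdet
      P.p_mem_Smin P.hmin hflat hunip P.Su _ hSel
  · refine thetaAt_of_tail P ℓs hSg hℓs _ (baseGlobal_flat P.O p) Sig hSig qv hTW3 DQ ?_
    intro tests htests B _ _ _ _ _ _ _ _ _ hresB hrange
    exact hF DQ tests htests hresB hrange

/-- **THE SUPPLY, strict-ordinary case** (`hbar` = the residual type of `ρ̄`, at every level). -/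
theorem exists_theta_SO (hSg : SgHyp p W hcard₁ hker M)
    (hbar : ∀ Q : Finset ℕ,
      framedCond p (GaloisRep.strictOrdinaryCondition P.O p) P.Smin P.Su Q
        (GaloisRepAdic.ofResidualGaloisRep P.rhobar))
    (S : Finset ℕ) (hpS : p ∈ S) (hℓs : ∀ x, x ∈ P.Su ↔ ∃ i, ℓs i = x) :
    ∃ Sig : Finset Nat.Primes, (∀ q : Nat.Primes, (q : ℕ) ∈ P.Smin ∪ P.Su → q ∈ Sig) ∧
      ∃ r : ℕ, ∀ n : ℕ, ∃ qv : Fin r → ℕ, Function.Injective qv ∧
        (∀ i, (qv i).Prime ∧ qv i ∉ S ∧ p ^ (n + 1) ∣ qv i - 1) ∧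
        (∀ i, ∀ Pl : ValuationSubring (AlgebraicClosure ℚ), Pl.LiesOverPrime (qv i) →
          ∀ φ : AlgebraicClosure ℚ ≃ₐ[ℚ] AlgebraicClosure ℚ, Pl.IsFrobeniusAt φ (qv i) →
            ∃ α β : P.k, α ≠ β ∧
              LinearMap.charpoly (P.rhobar.ρ φ) = (Polynomial.X - Polynomial.C α) *
                (Polynomial.X - Polynomial.C β)) ∧
        (∀ i, ∀ q ∈ Sig, ((q : Nat.Primes) : ℕ) ≠ qv i) ∧
        Nonempty (GaloisRep.DeformationRingData P.O P.rhobar
          (framedCond p (GaloisRep.strictOrdinaryCondition P.O p) P.Smin P.Su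
            (Finset.univ.image qv))) ∧
        ∀ DQ : GaloisRep.DeformationRingData P.O P.rhobar
          (framedCond p (GaloisRep.strictOrdinaryCondition P.O p) P.Smin P.Su
            (Finset.univ.image qv)),
          ThetaAt P ℓs (GaloisRep.strictOrdinaryCondition P.O p) Sig qv DQ := by
  obtain ⟨Sig, hSig, r, hr⟩ := framedSurjKummerX_frozen_SO p P.rhobar P.hp2 P.hpO P.habs P.hdet
    P.hsplit P.hTW S P.Smin P.Su P.p_mem_Smin hpS P.hmin
    (fun _ hq => P.notMem_Smin_of_mem_Su hq)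
  refine ⟨Sig, hSig, r, fun n => ?_⟩
  obtain ⟨qv, hinj, hTW1, hTW2, hTW3, ⟨r', hSel⟩, hF⟩ := hr n
  refine ⟨qv, hinj, hTW1, hTW2, hTW3, ?_, fun DQ => ?_⟩
  · exact nonempty_DQ_SO (Fermat.Agent.S53_helper35.stdBasisRes P.rhobar) P.hp2 P.habs P.Su _
      (hbar _) hSel
  · refine thetaAt_of_tail P ℓs hSg hℓs _ (baseGlobal_strictOrdinary P.O p) Sig hSig qv hTW3 DQ ?_
    intro tests htests B _ _ _ _ _ _ _ _ _ hresB hrange
    exact hF DQ tests htests hresB hrange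

end Supply

end

end Fermat.Agent.GB.B9.ThetaSupply
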