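/-
GATE-B (Ribet level lowering, S38/S43) / B9, node GB-N4-HBAR part 1 (helper4): **residual descent of
local conditions**: if an adic lift `ρ` over a local ring `T` (finite residue field) of a residual
representation `ρbar` over a finite field `k` (`ρ.residual ≃ ρbar ⊗_{k,ι} k_T`) is flat at `p` /
unipotent on inertia at `q` / unramified at `q`, then so is `ρbar` itself (as
`GaloisRepAdic.ofResidualGaloisRep ρbar`).

Method = helper64 `GP/Tan/CondIsEquiv.residual_transfer` with the dual numbers replaced by an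
arbitrary `T`, and the last step (come back along `ι⁻¹`) replaced by the injective descent of
helper93 `GB/Def/CondFlatAtom.isFlatAt_of_baseChangeAlong_injective` (`ι` need not be onto).
-/
import Mathlib
import Fermat.Agent.GP.Tan.CondIsEquiv
import Fermat.Agent.GB.Def.CondFlatAtom
import Fermat.Agent.GB.Def.CondAtom

set_option autoImplicit false
set_option linter.unusedSectionVars false
set_option linter.unusedVariables false

open IsLocalRing
open scoped TensorProduct

namespace Fermat.Agent.GB.B9.RhobarCondGen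

/-- `G_ℚ`. -/
local notation "GQ" => (AlgebraicClosure ℚ ≃ₐ[ℚ] AlgebraicClosure ℚ)

variable {T : Type} [CommRing T] [IsLocalRing T] {k : Type} [Field k]

/-- the reduction of `ρ` is flat. -/
theorem isFlatAt_ofResidual_residual {p : ℕ} {ρ : GaloisRepAdic T} (h : ρ.IsFlatAt p) :
    (GaloisRepAdic.ofResidualGaloisRep ρ.residual).IsFlatAt p := by
  have h1 : (ρ.baseChangeAlong (IsLocalRing.residue T) inferInstance).IsFlatAt p :=
    Fermat.Agent.GP.Tan.isFlatAt_baseChangeAlong_of_surjective _ _
      IsLocalRing.residue_surjective h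
  exact h1

/-- **flatness descends to `ρbar`**. -/
theorem isFlatAt_ofResidual_of_lift {p : ℕ} [Fact p.Prime] [Finite k] [Finite (ResidueField T)]
    (ρ : GaloisRepAdic T) (ρbar : ResidualGaloisRep k) (ι : k →+* ResidueField T)
    (hres : ρ.residual.IsEquiv (ρbar.baseChangeAlong ι)) (h : ρ.IsFlatAt p) :
    (GaloisRepAdic.ofResidualGaloisRep ρbar).IsFlatAt p := by
  have h2 := isFlatAt_ofResidual_residual h
  have h3 : (GaloisRepAdic.ofResidualGaloisRep (ρbar.baseChangeAlong ι)).IsFlatAt p :=
    Fermat.Agent.GP.Tan.isFlatAt_of_isEquiv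
      (Fermat.Agent.GP.Tan.ofResidualGaloisRep_isEquiv hres) h2
  have h4 : ((GaloisRepAdic.ofResidualGaloisRep ρbar).baseChangeAlong ι
      (Fermat.Agent.GP.Tan.isLocalHom_of_field ι)).IsFlatAt p := h3
  have hk : Finite (ResidueField k) :=
    Finite.of_surjective (IsLocalRing.residue k) IsLocalRing.residue_surjective
  exact Fermat.Agent.GB.Def.CondFlat.isFlatAt_of_baseChangeAlong_injective ι
    (Fermat.Agent.GP.Tan.isLocalHom_of_field ι) ι.injective hk h4

/-- **unipotent inertia descends to `ρbar`**. -/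
theorem isUnipotentOnInertiaAt_ofResidual_of_lift {q : ℕ}
    (ρ : GaloisRepAdic T) (ρbar : ResidualGaloisRep k) (ι : k →+* ResidueField T)
    (hres : ρ.residual.IsEquiv (ρbar.baseChangeAlong ι)) (h : ρ.IsUnipotentOnInertiaAt q) :
    (GaloisRepAdic.ofResidualGaloisRep ρbar).IsUnipotentOnInertiaAt q := by
  have h1 : (ρ.baseChangeAlong (IsLocalRing.residue T) inferInstance).IsUnipotentOnInertiaAt q :=
    Fermat.Agent.GP.Tan.isUnipotentOnInertiaAt_baseChangeAlong _ _ h
  have h2 : (GaloisRepAdic.ofResidualGaloisRep ρ.residual).IsUnipotentOnInertiaAt q := h1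
  have h3 : (GaloisRepAdic.ofResidualGaloisRep
      (ρbar.baseChangeAlong ι)).IsUnipotentOnInertiaAt q :=
    Fermat.Agent.GP.Loc.UnipGlue.isUnipotentOnInertiaAt_of_isEquiv
      (Fermat.Agent.GP.Tan.ofResidualGaloisRep_isEquiv hres) h2
  have h4 : ((GaloisRepAdic.ofResidualGaloisRep ρbar).baseChangeAlong ι
      (Fermat.Agent.GP.Tan.isLocalHom_of_field ι)).IsUnipotentOnInertiaAt q := h3
  exact Fermat.Agent.GB.Def.Cond.isUnipotentOnInertiaAt_of_baseChangeAlong_injective ι
    (Fermat.Agent.GP.Tan.isLocalHom_of_field ι) ι.injective h4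

end Fermat.Agent.GB.B9.RhobarCondGen
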