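/-
GATE-B (Ribet level lowering, S38/S43) / B9, node GB-N4-HBAR part 2 (helper4): **the two residual
binders `hflat`, `hunip` of `ThetaSupply.exists_theta_FL` are THEOREMS over the SETUP bundle**, in
the flat case `p ∤ M`, `M` squarefree:

* `isFlatAt_rhobar`  : `ρ̄` is flat at `p` (frozen `IsFlatAt`), from the Hecke–Galois datum `H` at
  level `M` of the bundle (`P.exists_datum`), S32 for `H` (`p ∤ M`), and residual descent
  (`RhobarCondGen.isFlatAt_ofResidual_of_lift`);
* `isUnipotentOnInertiaAt_rhobar` : `ρ̄` is unipotent on inertia at every `q ∈ Smin`, `q ≠ p`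
  (S34 for `H` at `q ∥ M`, then descent);
* `exists_theta_FL_pkg` : `ThetaSupply.exists_theta_FL` with both binders discharged — the only
  remaining inputs are the CASE-B binders `hSg`, `¬ p ∣ M`, `Squarefree M` and an enumeration of
  `P.Su`;
* `nonempty_DQ_FL_pkg` : the deformation ring datum of `framedCond p (flatCondition P.O p) Smin Su Q`
  exists for EVERY `Q` with a Selmer bound.
-/
import Mathlib
import Fermat.Agent.GB.B9.RhobarCondGen
import Fermat.Agent.GB.B9.ThetaSupply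
import Fermat.Agent.GB.B4.Datum.Push

set_option autoImplicit false
set_option linter.unusedSectionVars false
set_option linter.unusedVariables false
set_option linter.style.haveILetI false

open WeierstrassCurve WeierstrassCurve.Affine.Point IsLocalRing CuspForm
open scoped WeierstrassCurve.Affine

namespace Fermat.Agent.GB.B9.RhobarCond

open Fermat.Agent.GB.Setup.RhoBar Fermat.Agent.GB.Setup.SetupPkg
  Fermat.Agent.GB.B4.Datum.Carrier Fermat.Agent.GB.B4.Datum.HeckeCarrier
  Fermat.Agent.GB.B9.RhobarCondGen Fermat.Agent.GB.B9.ThetaSupply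
  Fermat.Agent.GB.Def.FramedNodes

/-- `ℚ̄`. -/
local notation "Qb" => AlgebraicClosure ℚ
/-- `G_ℚ`. -/
local notation "GQ" => (AlgebraicClosure ℚ ≃ₐ[ℚ] AlgebraicClosure ℚ)

variable {p : ℕ} [Fact p.Prime] {W : WeierstrassCurve ℤ}
  {hcard₁ : Nat.card (Submodule.torsionBy ℤ
    ((W.map (Int.castRingHom ℚ))⁄(AlgebraicClosure ℚ)).Point p) = p ^ 2}
  {hker : GaloisFactorsThroughFiniteLevel
    (galoisRepModuleEnd (K := AlgebraicClosure ℚ) ℚ (W.map (Int.castRingHom ℚ)) p)}
  {M A : ℕ} (P : Pkg p W hcard₁ hker M A)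

/-- the residue field of `Tloc` is finite (it is a quotient of `P.O`). -/
theorem finite_residueField_Tloc [NeZero M] :
    Finite (ResidueField (Tloc P.O P.theta)) := by
  have h := residue_comp_algebraMap_surjective P.O P.theta
  have h2 : Function.Surjective
      (ResidueField.map (algebraMap P.O (Tloc P.O P.theta))) := by
    intro y
    obtain ⟨x, rfl⟩ := h y
    exact ⟨residue P.O x, ResidueField.map_residue _ x⟩
  exact Finite.of_surjective _ h2

/-- **`ρ̄` is flat at `p`** when `p ∤ M`. -/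
theorem isFlatAt_rhobar (hpM : ¬ p ∣ M) :
    (GaloisRepAdic.ofResidualGaloisRep P.rhobar).IsFlatAt p := by
  haveI := P.neZeroM
  obtain ⟨H, -, -, -, hres⟩ := P.exists_datum
  have hp : p.Prime := Fact.out
  have h0 : H.ρ.IsFlatAt p :=
    Fermat.Agent.S32.result hp P.hp2 P.hpO hpM (Finset.mem_coe.mp P.hpS0)
      (fun q hq hqM => Finset.mem_coe.mp (P.hMS0 q hq hqM)) H
  haveI := finite_residueField_Tloc P
  exact isFlatAt_ofResidual_of_lift H.ρ P.rhobar _ hres h0

/-- **`ρ̄` is unipotent on inertia at the primes of `Smin`** other than `p` (`M` squarefree). -/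
theorem isUnipotentOnInertiaAt_rhobar (hsq : Squarefree M) (q : ℕ) (hq : q ∈ P.Smin)
    (hqp : q ≠ p) :
    (GaloisRepAdic.ofResidualGaloisRep P.rhobar).IsUnipotentOnInertiaAt q := by
  haveI := P.neZeroM
  obtain ⟨H, -, -, -, hres⟩ := P.exists_datum
  have hp : p.Prime := Fact.out
  have hqpr : q.Prime := P.prime_of_mem_Smin hq
  have hqM : q ∣ M := (P.dvd_of_mem_Smin hq).resolve_left hqp
  have hq2 : ¬ q ^ 2 ∣ M := by
    intro h
    have := hsq q (by rwa [pow_two] at h)
    exact hqpr.one_lt.ne' (Nat.isUnit_iff.mp this)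
  have h0 : H.ρ.IsUnipotentOnInertiaAt q :=
    Fermat.Agent.S34.result hp P.hpO (Finset.mem_coe.mp P.hpS0)
      (fun q hq hqM => Finset.mem_coe.mp (P.hMS0 q hq hqM)) H q hqpr hqp hqM hq2
  exact isUnipotentOnInertiaAt_ofResidual_of_lift H.ρ P.rhobar _ hres h0

/-- the `hunip` binder in the spelling of `exists_theta_FL` / `hbar_SO_pkg`. -/
theorem hunip_pkg (hsq : Squarefree M) : ∀ q ∈ P.Smin, q.Prime → q ≠ p →
    (GaloisRepAdic.ofResidualGaloisRep P.rhobar).IsUnipotentOnInertiaAt q :=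
  fun q hq _ hqp => isUnipotentOnInertiaAt_rhobar P hsq q hq hqp

/-- **THE SUPPLY, flat case, no residual binder left.** -/
theorem exists_theta_FL_pkg {s : ℕ} (ℓs : Fin (s + 1) → ℕ) (hSg : SgHyp p W hcard₁ hker M)
    (hpM : ¬ p ∣ M) (hsq : Squarefree M)
    (S : Finset ℕ) (hpS : p ∈ S) (hℓs : ∀ x, x ∈ P.Su ↔ ∃ i, ℓs i = x) :
    ∃ Sig : Finset Nat.Primes, (∀ q : Nat.Primes, (q : ℕ) ∈ P.Smin ∪ P.Su → q ∈ Sig) ∧
      ∃ r : ℕ, ∀ n : ℕ, ∃ qv : Fin r → ℕ, Function.Injective qv ∧
        (∀ i, (qv i).Prime ∧ qv i ∉ S ∧ p ^ (n + 1) ∣ qv i - 1) ∧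
        (∀ i, ∀ Pl : ValuationSubring (AlgebraicClosure ℚ), Pl.LiesOverPrime (qv i) →
          ∀ φ : AlgebraicClosure ℚ ≃ₐ[ℚ] AlgebraicClosure ℚ, Pl.IsFrobeniusAt φ (qv i) →
            ∃ α β : P.k, α ≠ β ∧
              LinearMap.charpoly (P.rhobar.ρ φ) = (Polynomial.X - Polynomial.C α) *
                (Polynomial.X - Polynomial.C β)) ∧
        (∀ i, ∀ q ∈ Sig, ((q : Nat.Primes) : ℕ) ≠ qv i) ∧
        Nonempty (GaloisRep.DeformationRingData P.O P.rhobar
          (framedCond p (GaloisRep.flatCondition P.O p) P.Smin P.Su (Finset.univ.image qv))) ∧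
        ∀ DQ : GaloisRep.DeformationRingData P.O P.rhobar
          (framedCond p (GaloisRep.flatCondition P.O p) P.Smin P.Su (Finset.univ.image qv)),
          ThetaAt P ℓs (GaloisRep.flatCondition P.O p) Sig qv DQ :=
  exists_theta_FL P ℓs hSg (isFlatAt_rhobar P hpM) (hunip_pkg P hsq) S hpS hℓs

end Fermat.Agent.GB.B9.RhobarCond
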