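/-
GATE-B / B9 (P1) → `TWSystem` (helper51): the FINAL CONTRACT `TWSystem` of helper55's
GB/B9/System.lean for SEVERAL framed primes under RULING R5, from

* `AlgHypMulti.exists_algHyp_SRing` (the `alg` field, with the kill₂-criterion on the SAME `J₂`),
* a supply of `TWInput`s at arbitrarily large depth for EVERY ideal `J₂` satisfying that criterion.

`R := RM O (s + 1) g`, `G := Filt.G1`, `J₁ := (t_q)`, `k := g`, `nz := 3 (s + 1)`, `ϖ := lam`.
The coefficient ring is a complete DVR with finite residue field (the `𝒪` of frozen S56); the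
facts `dim O = 1`, `𝔪 = (lam)` are discharged here.
-/
import Fermat.Agent.GB.B9.AlgHypMulti
import Fermat.Agent.GB.B9.System

set_option autoImplicit false
set_option linter.unusedSectionVars false

open IsLocalRing MvPowerSeries

namespace Fermat.Agent.GB.B9.SystemMulti

open Fermat.Agent.GB.Local.Multi Fermat.Agent.GB.Local.Multi.R5 Fermat.Agent.GB.PatchSupp
  Fermat.Agent.GB.B9.AlgHypMulti

variable {O : Type} [CommRing O] [IsDomain O] [IsDiscreteValuationRing O]
  [IsAdicComplete (maximalIdeal O) O]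

/-- the kill₂-criterion of `R5.exists_package` / `exists_algHyp_SRing` for an ideal `J₂` -/
def Crit {s g : ℕ} (𝒯 : Fin (s + 1) → Finset (Ty O)) (J₂ : Ideal (RM O (s + 1) g)) : Prop :=
  ∀ (A : Type) [CommRing A] [IsLocalRing A] [Algebra O A]
    [IsAdicComplete (maximalIdeal A) A] (θ : RM O (s + 1) g →ₐ[O] A),
    (∀ v, ∃ t ∈ 𝒯 v, (spec O).pred t A (fun i => θ (aV O v i)) (fun i => θ (nV O v i))) →
    (∀ j, θ (xV O j) ∈ maximalIdeal A) → J₂ ≤ RingHom.ker θ

/-- the maximal ideal of a DVR is generated by any irreducible element -/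
theorem maximalIdeal_eq_span {lam : O} (hlam : Irreducible lam) :
    maximalIdeal O = Ideal.span {lam} :=
  hlam.maximalIdeal_eq

/-- **`alg` + criterion over a complete DVR**: `AlgHypMulti.exists_algHyp_SRing` with the two
ring-theoretic hypotheses discharged. -/
theorem exists_algHyp_dvr {lam : O} (hlam : Irreducible lam) {h0 : O} (hh : 2 * h0 = 1)
    {s g : ℕ} (𝒯 : Fin (s + 1) → Finset (Ty O)) (hne : ∀ v, (𝒯 v).Nonempty)
    (hadm : ∀ v, ∀ t ∈ 𝒯 v, lam ∣ const t)
    (hlast : ∀ t ∈ 𝒯 (Fin.last s), ∃ o : Option O, t = Sum.inl o ∧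
      ∀ c, o = some c → lam ∈ (Ideal.span {c}).radical)
    {d : O} (hd : d ∈ maximalIdeal O) :
    ∃ J₂ : Ideal (RM O (s + 1) g),
      AlgHyp (R := RM O (s + 1) g) (S := SRing O g (3 * (s + 1)))
        (algebraMap O (RM O (s + 1) g) lam) (C lam)
        (Filt.G1 O (Idx (s + 1) g)) (J1 s g d) J₂ (tM O d) ∧ Crit 𝒯 J₂ := by
  have hmax := maximalIdeal_eq_span hlam
  exact exists_algHyp_SRing hmax (IsDiscreteValuationRing.ringKrullDim_eq_one O) hh 𝒯 hne hadm hlast
    (hmax ▸ hd)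

/-- **`TWSystem` for several framed primes.**  `level` is asked for every `J₂` satisfying the
kill₂-criterion `Crit 𝒯 J₂` (so the provider may use `Kill2R5.kill₂_R5` for the `kill₂` field). -/
theorem nonempty_TWSystem [Finite (ResidueField O)] {lam : O} (hlam : Irreducible lam)
    {h0 : O} (hh : 2 * h0 = 1) {p : ℕ} (hp0 : 0 < p) (hpO : (p : O) ∈ maximalIdeal O)
    {s g : ℕ} (𝒯 : Fin (s + 1) → Finset (Ty O)) (hne : ∀ v, (𝒯 v).Nonempty)
    (hadm : ∀ v, ∀ t ∈ 𝒯 v, lam ∣ const t)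
    (hlast : ∀ t ∈ 𝒯 (Fin.last s), ∃ o : Option O, t = Sum.inl o ∧
      ∀ c, o = some c → lam ∈ (Ideal.span {c}).radical)
    {d : O} (hd : d ∈ maximalIdeal O) (D : ℕ)
    (level : ∀ J₂ : Ideal (RM O (s + 1) g), Crit 𝒯 J₂ → ∀ n₀ : ℕ, ∃ n, n₀ ≤ n ∧ ∃ d', 0 < d' ∧
      d' ≤ D ∧ Nonempty (TWInput O lam (RM O (s + 1) g) (J1 s g d) J₂ g (3 * (s + 1))
        (fun _ => p ^ n) d')) :
    Nonempty TWSystem := by
  obtain ⟨J₂, halg, hcrit⟩ := exists_algHyp_dvr (g := g) hlam hh 𝒯 hne hadm hlast hd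
  exact ⟨{
    O := O
    ϖ := lam
    p := p
    hp0 := hp0
    hp := hpO
    R := RM O (s + 1) g
    G := Filt.G1 O (Idx (s + 1) g)
    finG := fun n => finite_quotient_G1 s g n
    J₁ := J1 s g d
    J₂ := J₂
    t := tM O d
    k := g
    nz := 3 * (s + 1)
    alg := halg
    D := D
    level := level J₂ hcrit }⟩

end Fermat.Agent.GB.B9.SystemMulti
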