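/-
GATE-B / B9 (helper59): `TWSystem` for several framed primes under RULING R5 with the `kill₂`
HANDLE — helper51's `SystemMulti.nonempty_TWSystem` at the concrete type family `TyPkg.tyFam`,
the criterion `Crit` being converted into `AlgHypKill2.Kill2Handle` by `Kill2R5.kill₂_R5`.

  `nonempty_TWSystem_of_handle` : DVR arithmetic + "for EVERY ideal `J₂` with `Kill2Handle h ℓ J₂`
  there are `TWInput`s of arbitrarily large depth and bounded rank" ⟹ `Nonempty TWSystem`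
  (⟹ `False` by helper55's `TWSystem.elim`).

So a provider of `TWInput`s obtains its `kill₂` field by ONE application of the handle
(`Kill2Level.kill₂_of_handle`), and owes for `kill₂` only the `T`-level data listed in
`Kill2Handle` (the arithmetic input being `hnu` = B5 at `q`).
-/
import Fermat.Agent.GB.B9.SystemMulti
import Fermat.Agent.GB.B9.Kill2Level

set_option autoImplicit false
set_option linter.unusedSectionVars false
set_option linter.unusedVariables false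

open IsLocalRing Module

namespace Fermat.Agent.GB.B9.SystemKill2

open Fermat.Agent.GB.Local.Multi Fermat.Agent.GB.Local.Multi.R5 Fermat.Agent.GB.PatchSupp
open Fermat.Agent.GB.B9.AlgHypMulti Fermat.Agent.GB.B9.SystemMulti
open Fermat.Agent.GB.B9.AlgHypKill2 Fermat.Agent.GB.Local.Multi.TyPkg

variable {O : Type} [CommRing O] [IsDomain O] [IsDiscreteValuationRing O]
  [IsAdicComplete (maximalIdeal O) O] [CharZero O]

/-- **criterion ⟹ handle** (`Kill2R5.kill₂_R5` at the concrete type family). -/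
theorem kill2Handle_of_crit {h : O} (hh : 2 * h = 1) {p : ℕ} (hp : p.Prime) (hp2 : p ≠ 2)
    (hpO : (p : O) ∈ maximalIdeal O) {a n' : ℕ} {ζ : O} (hζ : IsPrimitiveRoot ζ (p ^ a))
    {s g : ℕ} (ℓ : Fin (s + 1) → ℕ) (hℓ2 : ∀ v, v ≠ Fin.last s → 2 ≤ ℓ v)
    (hℓm : ∀ v, v ≠ Fin.last s → (ℓ v : O) - 1 ∈ maximalIdeal O)
    (hfac : ℓ (Fin.last s) - 1 = p ^ a * n') (hn' : ¬ p ∣ n') (hpq : p ∣ ℓ (Fin.last s) - 1)
    (hq : 1 ≤ ℓ (Fin.last s)) {J₂ : Ideal (RM O (s + 1) g)}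
    (hcrit : Crit (tyFam h ζ (p ^ a) ℓ) J₂) : Kill2Handle h ℓ J₂ := by
  intro T _ _ _ _ _ M _ _ _ _ a₂ σ _ Θ S F γ γi hFdet hrel hFres hSres hγ hΘa hΘn hΘx htr hSu
    hSdet hres hnu
  exact Kill2R5.kill₂_R5 a₂ (tyFam h ζ (p ^ a) ℓ) J₂ hcrit Θ hp hp2 hpO hh S F ℓ hFdet hrel
    hFres hSres γ γi hγ hΘa hΘn hΘx hℓ2 hℓm htr hSu (tyFam_mem_v h ζ (p ^ a) ℓ) hSdet hfac hn' hpq
    hq hres hζ hnu (tyFam_mem_q h ζ (p ^ a) ℓ)

/-- **`TWSystem` from `TWInput`s built with the `kill₂` handle.** -/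
theorem nonempty_TWSystem_of_handle [Finite (ResidueField O)] {lam : O} (hlam : Irreducible lam)
    {h : O} (hh : 2 * h = 1) {p : ℕ} (hp : p.Prime) (hp2 : p ≠ 2)
    (hpO : (p : O) ∈ maximalIdeal O) {a n' : ℕ} {ζ : O} (hζ : IsPrimitiveRoot ζ (p ^ a))
    {s : ℕ} (g : ℕ) (ℓ : Fin (s + 1) → ℕ) (hℓ2 : ∀ v, v ≠ Fin.last s → 2 ≤ ℓ v)
    (hℓm : ∀ v, v ≠ Fin.last s → (ℓ v : O) - 1 ∈ maximalIdeal O)
    (hfac : ℓ (Fin.last s) - 1 = p ^ a * n') (hn' : ¬ p ∣ n') (hpq : p ∣ ℓ (Fin.last s) - 1)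
    (hq : 1 ≤ ℓ (Fin.last s)) (D : ℕ)
    (level : ∀ J₂ : Ideal (RM O (s + 1) g), Kill2Handle h ℓ J₂ → ∀ n₀ : ℕ, ∃ n, n₀ ≤ n ∧
      ∃ d', 0 < d' ∧ d' ≤ D ∧ Nonempty (TWInput O lam (RM O (s + 1) g)
        (J1 s g ((ℓ (Fin.last s) : O) - 1)) J₂ g (3 * (s + 1)) (fun _ => p ^ n) d')) :
    Nonempty TWSystem := by
  have hd : (ℓ (Fin.last s) : O) - 1 ∈ maximalIdeal O :=
    Fermat.Agent.GB.Local.Consts.natCast_sub_one_mem hpO hq hpq
  exact nonempty_TWSystem hlam hh hp.pos hpO (tyFam h ζ (p ^ a) ℓ)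
    (tyFam_nonempty h ζ (p ^ a) ℓ) (tyFam_adm hp hpO hζ.pow_eq_one h hlam ℓ hℓm)
    (tyFam_hlast hp hp2 hpO hζ hh hlam ℓ) hd D
    (fun J₂ hcrit => level J₂
      (kill2Handle_of_crit hh hp hp2 hpO hζ ℓ hℓ2 hℓm hfac hn' hpq hq hcrit))

end Fermat.Agent.GB.B9.SystemKill2
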