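/-
GATE-B / B9, node GB-B9-THETA-T (helper4): **PLUG** `ThetaT.package` ∘ helper59 `Kill2R5.kill₂_R5`
= the `kill₂` binder of helper55's `Provider.nonempty_TWInput_of_surjective` VERBATIM
(`∀ r ∈ J₂, ∀ n, a₂ (ψ (coeff n (Θ₀ r))) = 0` with `Θ₀ := Ψ` of `MultiP6ThetaConcl`), from
* the output of `FrameThetaInst.MultiP6ThetaConcl` at `I := Fin (s + 1)` (`Ψ`, `coords`, tame pairs,
  tame relations),
* `ψ : DQ.R →ₐ[O] T` local (helper12 `PsiTQ.exists_psi`),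
* the kill-criterion of helper51 `R5.exists_package` for `J₂` and the membership facts of `𝒯`,
* `htr hSu` at `v ≠ q` (`ThetaT.unip_matT_of_isUnipotentOnInertiaAt`), and `hnu` (B5).
-/
import Mathlib
import Fermat.Agent.GB.B9.ThetaT
import Fermat.Agent.GB.Local.Multi.Kill2R5

set_option autoImplicit false
set_option linter.unusedSectionVars false
set_option linter.unusedVariables false

open IsLocalRing MvPowerSeries Matrix
open Fermat.Agent.S53_helper35 Fermat.Agent.GP.Tan.Linear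
open Fermat.Agent.GB.Def.FramedRing Fermat.Agent.GB.Def.Frame
open Fermat.Agent.GB.Local Fermat.Agent.GB.Local.ABig Fermat.Agent.GB.Local.Multi
open Fermat.Agent.GB.Local.Multi.Kill2R5 Fermat.Agent.GB.Local.Multi.Kill2Field
open Fermat.Agent.GB.Local.Multi.Kill2Q Fermat.Agent.GB.Local.TameC
open Fermat.Agent.GB.B9.ThetaT

variable {O : Type} [CommRing O] [IsDomain O] [IsDiscreteValuationRing O]
  [IsAdicComplete (maximalIdeal O) O] [CharZero O]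
  {ρbar : ResidualGaloisRep (ResidueField O)}
  {𝒟 : ∀ ⦃A : Type⦄ [CommRing A] [IsLocalRing A] [Algebra O A], GaloisRepAdic A → Prop}
  {DQ : GaloisRep.DeformationRingData O ρbar 𝒟}
  {Fr : Type} [Finite Fr]
  {T : Type} [CommRing T] [Algebra O T] [Module.Finite O T] [IsReduced T] [IsLocalRing T]
  {M : Type} [AddCommGroup M] [Module O M] [Module.IsTorsionFree O M] [Nontrivial M]
  (a₂ : T →ₐ[O] Module.End O M)
  (ψ : DQ.R →ₐ[O] T)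

namespace Fermat.Agent.GB.B9.ThetaKill2

/-- **the `kill₂` binder of `Provider.nonempty_TWInput_of_surjective`.** -/
theorem kill₂_field {s g : ℕ} (𝒯 : Fin (s + 1) → Finset (R5.Ty O))
    (J₂ : Ideal (RM O (s + 1) g))
    (hcrit : ∀ (A : Type) [CommRing A] [IsLocalRing A] [Algebra O A]
      [IsAdicComplete (maximalIdeal A) A] (θ : RM O (s + 1) g →ₐ[O] A),
      (∀ v, ∃ t ∈ 𝒯 v, (R5.spec O).pred t A (fun i => θ (aV O v i)) (fun i => θ (nV O v i))) →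
      (∀ j, θ (xV O j) ∈ maximalIdeal A) → J₂ ≤ RingHom.ker θ)
    (pl : Fin (s + 1) → Fr) (d : Fin (s + 1) → TameDatum O)
    (φ τ₀ : Fin (s + 1) → GQ) (Ψ : RM O (s + 1) g →ₐ[O] FRing DQ Fr)
    (hΨ : Function.Surjective Ψ)
    (hcoords : ∀ i t, Ψ (X (Sum.inl (i, t))) =
      coords (d i) (framedMat DQ Fr (pl i) (φ i)) (framedMat DQ Fr (pl i) (τ₀ i)) t)
    (hpair : ∀ i, IsTamePair (d i) (framedMat DQ Fr (pl i) (φ i))
      (framedMat DQ Fr (pl i) (τ₀ i)))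
    (hrel : ∀ i, framedMat DQ Fr (pl i) (φ i) * framedMat DQ Fr (pl i) (τ₀ i) =
      framedMat DQ Fr (pl i) (τ₀ i) ^ (d i).q * framedMat DQ Fr (pl i) (φ i))
    (hψ : IsLocalHom (ψ : DQ.R →+* T))
    {p : ℕ} (hp : p.Prime) (hp2 : p ≠ 2) (hpO : (p : O) ∈ maximalIdeal O)
    {h : O} (hh : 2 * h = 1)
    (hℓ2 : ∀ v, v ≠ Fin.last s → 2 ≤ (d v).q)
    (hℓm : ∀ v, v ≠ Fin.last s → (((d v).q : ℕ) : O) - 1 ∈ maximalIdeal O)
    (htr : ∀ v, v ≠ Fin.last s → (matT ψ (τ₀ v)).trace = 2)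
    (hSu : ∀ v, v ≠ Fin.last s → (matT ψ (τ₀ v) - 1) ^ 2 = 0)
    (h𝒯v : ∀ v, v ≠ Fin.last s → Sum.inl none ∈ 𝒯 v ∧
      Sum.inr (1, h * ((((d v).q : ℕ) : O) - 1)) ∈ 𝒯 v ∧
      Sum.inr (-1, h * ((((d v).q : ℕ) : O) - 1)) ∈ 𝒯 v)
    {a n' : ℕ}
    (hfac : (d (Fin.last s)).q - 1 = p ^ a * n') (hn' : ¬ p ∣ n')
    (hpq : p ∣ (d (Fin.last s)).q - 1)
    (hq : 1 ≤ (d (Fin.last s)).q)
    {ζ : O} (hζ : IsPrimitiveRoot ζ (p ^ a))
    (hnu : ∀ i : Fermat.Agent.GB.Glue.Points.Idx O (Tchi a₂),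
      ((matT ψ (τ₀ (Fin.last s))).map (phi a₂ i) - 1) ^ 2 = 0 →
        (matT ψ (τ₀ (Fin.last s))).map (phi a₂ i) = 1)
    (h𝒯q : Sum.inl none ∈ 𝒯 (Fin.last s) ∧
      ∀ c ∈ cSet h ζ (p ^ a), Sum.inl (some c) ∈ 𝒯 (Fin.last s)) :
    ∀ r ∈ J₂, ∀ n, a₂ (ψ (MvPowerSeries.coeff n (Ψ r))) = 0 := by
  obtain ⟨hFdet, hrel', hFres, hSres, hγ, hΘa, hΘn, hΘx, hSdet, hres⟩ :=
    package ψ pl d φ τ₀ Ψ hΨ hcoords hpair hrel hψ hh
  intro r hr n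
  rw [← coeff_thetaT]
  exact kill₂_R5 a₂ 𝒯 J₂ hcrit (thetaT ψ Ψ) hp hp2 hpO hh (fun v => matT ψ (τ₀ v))
    (fun v => matT ψ (φ v)) (fun v => (d v).q) hFdet hrel' hFres hSres
    (fun v => gMat (pl v)) (fun v => (gMat (pl v))⁻¹) hγ hΘa hΘn hΘx hℓ2 hℓm htr hSu h𝒯v
    (hSdet _) hfac hn' hpq hq (hres _) hζ hnu h𝒯q r hr n

end Fermat.Agent.GB.B9.ThetaKill2
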